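import Mathlib
import Fermat.Agent.FF.APlaces

/-!
# S37 (E0), part 1 (helper2): the center of a place on a Dedekind domain

`S` a Dedekind domain with fraction field `F`, `K ⊆ S`.  Every place `w` of `F / K` whose valuation
ring contains `S` is the place of a unique height one prime of `S` (its center).
-/

set_option autoImplicit false
set_option linter.unusedSectionVars false
set_option linter.style.haveILetI false

open AlgebraicCurve IsDedekindDomain

noncomputable section

namespace Fermat.Agent.S37.E0

open Fermat.Agent.FF

section Center

variable {K F : Type*} [Field K] [Field F] [Algebra K F]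
variable {S : Type*} [CommRing S] [IsDedekindDomain S] [Algebra S F] [IsFractionRing S F]
  [Algebra K S] [IsScalarTower K S F]
variable (w : Place K F) (hS : ∀ b : S, algebraMap S F b ∈ w.toValuationSubring)

/-- the inclusion of `S` into the valuation ring of `w` -/
def inclS : S →+* w.toValuationSubring :=
  (algebraMap S F).codRestrict w.toValuationSubring.toSubring hS

@[simp]
theorem coe_inclS (b : S) : ((inclS w hS b : w.toValuationSubring) : F) = algebraMap S F b := rfl

/-- the center of `w` on `S` -/
def centerIdealS : Ideal S :=
  (IsLocalRing.maximalIdeal w.toValuationSubring).comap (inclS w hS)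

instance centerIdealS_isPrime : (centerIdealS w hS).IsPrime :=
  Ideal.comap_isPrime _ _

theorem centerIdealS_ne_bot : centerIdealS w hS ≠ ⊥ := by
  intro hbot
  apply w.ne_top'
  refine SetLike.ext fun f => ⟨fun _ => ValuationSubring.mem_top f, fun _ => ?_⟩
  obtain ⟨a, s, hs, rfl⟩ := IsFractionRing.div_surjective (A := S) f
  have hs0 : s ≠ 0 := nonZeroDivisors.ne_zero hs
  have hsu : IsUnit (inclS w hS s) := by
    by_contra hnu
    have hmem : s ∈ centerIdealS w hS := by
      show inclS w hS s ∈ IsLocalRing.maximalIdeal _
      exact (IsLocalRing.mem_maximalIdeal _).mpr hnu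
    rw [hbot, Ideal.mem_bot] at hmem
    exact hs0 hmem
  obtain ⟨u, hu⟩ := hsu
  have h1 : ((u⁻¹ : w.toValuationSubringˣ) : w.toValuationSubring) * inclS w hS s = 1 := by
    rw [← hu]; exact u.inv_mul
  have h2 : (((u⁻¹ : w.toValuationSubringˣ) : w.toValuationSubring) : F) *
      (algebraMap S F s) = 1 := by
    have := congrArg (Subtype.val) h1
    simpa using this
  have h3 : (((u⁻¹ : w.toValuationSubringˣ) : w.toValuationSubring) : F) =
      (algebraMap S F s)⁻¹ := eq_inv_of_mul_eq_one_left h2
  rw [div_eq_mul_inv, ← h3]
  exact mul_mem (inclS w hS a).2 (SetLike.coe_mem _)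

/-- the center of `w`, as a height one prime -/
def centerS : HeightOneSpectrum S :=
  ⟨centerIdealS w hS, inferInstance, centerIdealS_ne_bot w hS⟩

theorem mem_centerS_iff (b : S) :
    b ∈ (centerS w hS).asIdeal ↔ ¬ IsUnit (inclS w hS b) := by
  show inclS w hS b ∈ IsLocalRing.maximalIdeal _ ↔ _
  exact IsLocalRing.mem_maximalIdeal _

theorem valuationSubring_centerS :
    ((centerS w hS).valuation F).valuationSubring = w.toValuationSubring := by
  rw [← HeightOneSpectrum.valuationSubringAtPrime_eq_valuationSubring]
  refine ValuationSubring.eq_of_le_of_ne_top _ ?_ w.ne_top'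
  intro f hf
  have hf' : (centerS w hS).valuation F f ≤ 1 := by
    have := HeightOneSpectrum.valuationSubringAtPrime_le_valuation (K := F) (centerS w hS) hf
    exact this
  obtain ⟨n, d, hnd⟩ :=
    HeightOneSpectrum.exists_primeCompl_mul_eq_of_integer (centerS w hS) f hf'
  have hdu : IsUnit (inclS w hS d) := by
    by_contra hnu
    exact d.2 ((IsLocalRing.mem_maximalIdeal _).mpr hnu)
  obtain ⟨u, hu⟩ := hdu
  have h1 : inclS w hS d * ((u⁻¹ : w.toValuationSubringˣ) : w.toValuationSubring) = 1 := by
    rw [← hu]; exact u.mul_inv
  have h2 : (algebraMap S F d) *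
      (((u⁻¹ : w.toValuationSubringˣ) : w.toValuationSubring) : F) = 1 := by
    have := congrArg (Subtype.val) h1
    simpa using this
  have : f = (algebraMap S F n) *
      (((u⁻¹ : w.toValuationSubringˣ) : w.toValuationSubring) : F) := by
    rw [← hnd, mul_assoc, h2, mul_one]
  rw [this]
  exact mul_mem (inclS w hS n).2 (SetLike.coe_mem _)

/-- every place containing `S` is the place of its center -/
theorem eq_ofHeightOneSpectrum_centerS :
    w = Place.ofHeightOneSpectrum (K := K) (centerS w hS) :=
  Place.ext (valuationSubring_centerS w hS).symm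

/-- the valuation ring of the place of a height one prime contains `S` -/
theorem algebraMap_mem_ofHeightOneSpectrum (q : HeightOneSpectrum S) (b : S) :
    algebraMap S F b ∈ (Place.ofHeightOneSpectrum (K := K) q : Place K F).toValuationSubring := by
  rw [Place.ofHeightOneSpectrum_toValuationSubring, Valuation.mem_valuationSubring_iff]
  exact q.valuation_le_one b

/-- the center of the place of `q` is `q` -/
theorem centerS_ofHeightOneSpectrum (q : HeightOneSpectrum S)
    (hS : ∀ b : S, algebraMap S F b ∈
      (Place.ofHeightOneSpectrum (K := K) q : Place K F).toValuationSubring) :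
    centerS (Place.ofHeightOneSpectrum (K := K) q : Place K F) hS = q := by
  apply ofHeightOneSpectrum_injective (K := K) (F := F)
  exact (eq_ofHeightOneSpectrum_centerS _ hS).symm

end Center

end Fermat.Agent.S37.E0
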