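import Mathlib
import Fermat.Agent.S37.E0Center
import Fermat.Prelude.Def_AlgebraicCurve_DivisorPushPull

/-!
# S37 (E0), part 2 (helper2): places over a place `v` versus primes of the integral closure of
`O_v`

`F' / F` a finite extension of function fields over `K` (characteristic `0`), `v` a place of `F`,
`S` the integral closure of `O_v` in `F'`.  The places of `F'` over `v` are the places of the
height one primes of `S`.
-/

set_option autoImplicit false
set_option linter.unusedSectionVars false
set_option linter.style.haveILetI false

open AlgebraicCurve IsDedekindDomain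

noncomputable section

namespace Fermat.Agent.S37.E0

open Fermat.Agent.FF

section Local

variable {K F F' : Type*} [Field K] [Field F] [Field F'] [Algebra K F] [Algebra K F']
  [Algebra F F'] [IsScalarTower K F F'] [FiniteDimensional F F']
variable (v : Place K F)
variable {S : Type*} [CommRing S] [IsDedekindDomain S] [Algebra S F'] [IsFractionRing S F']
  [Algebra K S] [IsScalarTower K S F']
  [Algebra v.toValuationSubring S] [Algebra v.toValuationSubring F']
  [IsScalarTower v.toValuationSubring S F'] [IsScalarTower v.toValuationSubring F F']
  [IsIntegralClosure S v.toValuationSubring F'] [Algebra.IsIntegral v.toValuationSubring S]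

/-- `S` lies in the valuation ring of every place over `v` -/
theorem algebraMap_mem_of_restrict (w : Place K F') (hw : w.restrict F = v) (b : S) :
    algebraMap S F' b ∈ w.toValuationSubring := by
  have hO : ∀ a : v.toValuationSubring, algebraMap v.toValuationSubring F' a ∈
      w.toValuationSubring := by
    intro a
    rw [IsScalarTower.algebraMap_apply v.toValuationSubring F F']
    have : (a : F) ∈ (w.restrict F).toValuationSubring := hw ▸ a.2
    exact (Place.mem_restrict_iff w).mp this
  letI : Algebra v.toValuationSubring w.toValuationSubring :=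
    ((algebraMap v.toValuationSubring F').codRestrict w.toValuationSubring.toSubring hO).toAlgebra
  haveI : IsScalarTower v.toValuationSubring w.toValuationSubring F' :=
    IsScalarTower.of_algebraMap_eq fun _ => rfl
  have hb : IsIntegral v.toValuationSubring (algebraMap S F' b) :=
    (IsIntegralClosure.isIntegral_iff (A := S)).mpr ⟨b, rfl⟩
  have hb' : IsIntegral w.toValuationSubring (algebraMap S F' b) := hb.tower_top
  obtain ⟨y, hy⟩ := IsIntegrallyClosed.isIntegral_iff.mp hb'
  exact hy ▸ y.2

/-- the place of a height one prime of `S` lies over `v` -/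
theorem restrict_ofHeightOneSpectrum (q : HeightOneSpectrum S) :
    (Place.ofHeightOneSpectrum (K := K) q : Place K F').restrict F = v := by
  apply Place.ext
  symm
  refine ValuationSubring.eq_of_le_of_ne_top _ ?_
    ((Place.ofHeightOneSpectrum (K := K) q : Place K F').restrict F).ne_top'
  intro a ha
  rw [Place.restrict_toValuationSubring, ValuationSubring.mem_comap]
  have h1 := algebraMap_mem_ofHeightOneSpectrum (K := K) (F := F') q
    (algebraMap v.toValuationSubring S ⟨a, ha⟩)
  rw [← IsScalarTower.algebraMap_apply v.toValuationSubring S F',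
    IsScalarTower.algebraMap_apply v.toValuationSubring F F'] at h1
  exact h1

variable [HasPrincipalDivisors K F']

/-- the fibre of `v` is the set of places of the height one primes of `S` -/
theorem mem_fiber_iff_exists (w : Place K F') :
    w ∈ v.fiber F' ↔ ∃ q : HeightOneSpectrum S, Place.ofHeightOneSpectrum (K := K) q = w := by
  rw [Place.mem_fiber]
  constructor
  · intro hw
    exact ⟨centerS w (algebraMap_mem_of_restrict v w hw),
      (eq_ofHeightOneSpectrum_centerS w _).symm⟩
  · rintro ⟨q, rfl⟩
    exact restrict_ofHeightOneSpectrum v q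

omit [HasPrincipalDivisors K F'] in
theorem liesOver_maximalIdeal (q : HeightOneSpectrum S) :
    q.asIdeal.LiesOver (IsLocalRing.maximalIdeal v.toValuationSubring) := by
  haveI := q.isMaximal
  have hmax : (q.asIdeal.under v.toValuationSubring).IsMaximal := inferInstance
  exact ⟨(IsLocalRing.eq_maximalIdeal hmax).symm⟩

omit [HasPrincipalDivisors K F'] in
theorem algebraMap_S_eq (a : v.toValuationSubring) :
    algebraMap S F' (algebraMap v.toValuationSubring S a) = algebraMap F F' (a : F) := by
  rw [← IsScalarTower.algebraMap_apply v.toValuationSubring S F',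
    IsScalarTower.algebraMap_apply v.toValuationSubring F F']
  rfl

omit [HasPrincipalDivisors K F'] in
theorem algebraMap_OS_eq_zero {a : v.toValuationSubring}
    (hab : algebraMap S F' (algebraMap v.toValuationSubring S a) = 0) : a = 0 := by
  rw [algebraMap_S_eq, map_eq_zero] at hab
  exact Subtype.ext hab

omit [HasPrincipalDivisors K F'] in
/-- the ramification index of the place of `q` is the ramification index of `q` -/
theorem ramificationIndex_ofHeightOneSpectrum (q : HeightOneSpectrum S) :
    (Place.ofHeightOneSpectrum (K := K) q : Place K F').ramificationIndex F =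
      q.asIdeal.ramificationIdx v.toValuationSubring := by
  set w : Place K F' := Place.ofHeightOneSpectrum (K := K) q with hw
  have hres : w.restrict F = v := restrict_ofHeightOneSpectrum v q
  obtain ⟨π, hπ⟩ := IsDiscreteValuationRing.exists_irreducible v.toValuationSubring
  have h1 : w.ord (algebraMap F F' (π : F)) = w.ramificationIndex F := by
    rw [w.ord_restrict, hres, v.ord_coe_irreducible hπ, mul_one]
  set πS : S := algebraMap v.toValuationSubring S π with hπS
  have hπS0 : πS ≠ 0 := by
    intro h
    apply hπ.ne_zero
    refine algebraMap_OS_eq_zero (F' := F') (S := S) v ?_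
    rw [← hπS, h, map_zero]
  have h2 : w.ord (algebraMap F F' (π : F)) = -WithZero.log (q.intValuation πS) := by
    rw [← ord_ofHeightOneSpectrum_algebraMap (K := K) (F := F') q πS, hπS, algebraMap_S_eq]
  have hne : q.intValuation πS ≠ 0 := q.intValuation_ne_zero _ hπS0
  have hle1 : q.intValuation πS ≤ 1 := q.intValuation_le_one _
  set m : ℤ := WithZero.log (q.intValuation πS) with hm
  have hexp : q.intValuation πS = WithZero.exp m := (WithZero.exp_log hne).symm
  have hm0 : m ≤ 0 := by
    rw [hexp, ← WithZero.exp_zero, WithZero.exp_le_exp] at hle1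
    exact hle1
  obtain ⟨n, hn⟩ : ∃ n : ℕ, m = -(n : ℤ) := ⟨(-m).toNat, by omega⟩
  have hmapeq : (IsLocalRing.maximalIdeal v.toValuationSubring).map
      (algebraMap v.toValuationSubring S) = Ideal.span {πS} := by
    rw [hπ.maximalIdeal_eq, Ideal.map_span, Set.image_singleton]
  have hmap : (IsLocalRing.maximalIdeal v.toValuationSubring).map
      (algebraMap v.toValuationSubring S) ≠ ⊥ := by
    rw [hmapeq, Ne, Ideal.span_singleton_eq_bot]
    exact hπS0
  haveI := liesOver_maximalIdeal v q
  have hspec : (IsLocalRing.maximalIdeal v.toValuationSubring).ramificationIdx' q.asIdeal = n := by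
    apply Ideal.ramificationIdx'_spec
    · rw [hmapeq, Ideal.span_le, Set.singleton_subset_iff, SetLike.mem_coe,
        ← q.intValuation_le_pow_iff_mem, hexp, hn]
    · rw [hmapeq, Ideal.span_le, Set.singleton_subset_iff, SetLike.mem_coe,
        ← q.intValuation_le_pow_iff_mem, hexp, hn, WithZero.exp_le_exp]
      push_cast
      omega
  rw [← Ideal.ramificationIdx'_eq_ramificationIdx'
    (IsLocalRing.maximalIdeal v.toValuationSubring) q.asIdeal hmap, hspec]
  have h3 : (w.ramificationIndex F : ℤ) = n := by
    rw [← h1, h2, hn, neg_neg]
  exact_mod_cast h3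

variable [IsScalarTower K v.toValuationSubring S] [Module.Finite v.toValuationSubring S]

omit [HasPrincipalDivisors K F'] in
/-- the residue field of a height one prime of `S` is `K` -/
theorem algebraMap_quotient_bijective' [IsAlgClosed K] (hv : v.deg = 1)
    (q : HeightOneSpectrum S) :
    Function.Bijective (algebraMap K (S ⧸ q.asIdeal)) := by
  classical
  haveI := q.isMaximal
  letI : Field (S ⧸ q.asIdeal) := Ideal.Quotient.field q.asIdeal
  haveI := liesOver_maximalIdeal v q
  have hsurj : ∀ a : v.toValuationSubring, ∃ c : K,
      Ideal.Quotient.mk q.asIdeal (algebraMap v.toValuationSubring S a) =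
        algebraMap K (S ⧸ q.asIdeal) c := by
    intro a
    have h1 : (1 : v.ResidueField) ≠ 0 := one_ne_zero
    obtain ⟨c, hc⟩ := (finrank_eq_one_iff_of_nonzero' (1 : v.ResidueField) h1).mp hv
      (IsLocalRing.residue v.toValuationSubring a)
    refine ⟨c, ?_⟩
    have hres : IsLocalRing.residue v.toValuationSubring
        (a - algebraMap K v.toValuationSubring c) = 0 := by
      rw [map_sub, ← hc, Algebra.smul_def, mul_one]
      exact sub_eq_zero.mpr rfl
    have hmem : a - algebraMap K v.toValuationSubring c ∈
        IsLocalRing.maximalIdeal v.toValuationSubring :=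
      (IsLocalRing.residue_eq_zero_iff _).mp hres
    have hmem' : algebraMap v.toValuationSubring S (a - algebraMap K v.toValuationSubring c) ∈
        q.asIdeal := by
      have := (Ideal.mem_of_liesOver q.asIdeal
        (IsLocalRing.maximalIdeal v.toValuationSubring) _).mp hmem
      exact this
    rw [map_sub, ← IsScalarTower.algebraMap_apply K v.toValuationSubring S] at hmem'
    have := Ideal.Quotient.eq.mpr hmem'
    rw [this]
    rfl
  haveI : Module.Finite K (S ⧸ q.asIdeal) := by
    obtain ⟨s, hs⟩ := (inferInstance : Module.Finite v.toValuationSubring S).fg_top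
    refine ⟨⟨s.image (fun b => Ideal.Quotient.mk q.asIdeal b), ?_⟩⟩
    rw [eq_top_iff]
    rintro y -
    obtain ⟨b, rfl⟩ := Ideal.Quotient.mk_surjective y
    have hb : b ∈ Submodule.span v.toValuationSubring (s : Set S) := hs ▸ Submodule.mem_top
    induction hb using Submodule.span_induction with
    | mem x hx =>
      exact Submodule.subset_span (Finset.mem_coe.mpr (Finset.mem_image_of_mem _ hx))
    | zero => rw [map_zero]; exact Submodule.zero_mem _
    | add x y _ _ hx hy => rw [map_add]; exact Submodule.add_mem _ hx hy
    | smul a x _ hx =>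
      obtain ⟨c, hc⟩ := hsurj a
      rw [Algebra.smul_def, map_mul, hc, ← Algebra.smul_def]
      exact Submodule.smul_mem _ _ hx
  haveI : Algebra.IsIntegral K (S ⧸ q.asIdeal) := Algebra.IsIntegral.of_finite K _
  exact IsAlgClosed.algebraMap_bijective_of_isIntegral

omit [HasPrincipalDivisors K F'] in
theorem inertiaDeg_eq_one' [IsAlgClosed K] (hv : v.deg = 1) (q : HeightOneSpectrum S) :
    q.asIdeal.inertiaDeg v.toValuationSubring = 1 := by
  haveI := liesOver_maximalIdeal v q
  haveI := q.isMaximal
  rw [Ideal.inertiaDeg_eq_of_isMaximal (IsLocalRing.maximalIdeal v.toValuationSubring) q.asIdeal]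
  letI : Field (v.toValuationSubring ⧸ IsLocalRing.maximalIdeal v.toValuationSubring) :=
    Ideal.Quotient.field _
  letI : Field (S ⧸ q.asIdeal) := Ideal.Quotient.field _
  have hbij := algebraMap_quotient_bijective' v hv q
  have hsurj : Function.Surjective
      (algebraMap (v.toValuationSubring ⧸ IsLocalRing.maximalIdeal v.toValuationSubring)
        (S ⧸ q.asIdeal)) := by
    intro y
    obtain ⟨c, rfl⟩ := hbij.2 y
    refine ⟨algebraMap K
      (v.toValuationSubring ⧸ IsLocalRing.maximalIdeal v.toValuationSubring) c, ?_⟩
    rw [← IsScalarTower.algebraMap_apply]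
  have hbij' : Function.Bijective
      (algebraMap (v.toValuationSubring ⧸ IsLocalRing.maximalIdeal v.toValuationSubring)
        (S ⧸ q.asIdeal)) :=
    ⟨(algebraMap (v.toValuationSubring ⧸ IsLocalRing.maximalIdeal v.toValuationSubring)
      (S ⧸ q.asIdeal)).injective, hsurj⟩
  rw [← Module.finrank_self
    (v.toValuationSubring ⧸ IsLocalRing.maximalIdeal v.toValuationSubring)]
  exact ((AlgEquiv.ofBijective (Algebra.ofId
    (v.toValuationSubring ⧸ IsLocalRing.maximalIdeal v.toValuationSubring) (S ⧸ q.asIdeal))
    hbij').toLinearEquiv.finrank_eq).symm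

end Local

end Fermat.Agent.S37.E0
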