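import Mathlib
import Fermat.Agent.S37.E0Local

/-!
# S37 (E0), part 3 (helper2): the fundamental identity `∑ e = n` for a finite extension of
function fields over an algebraically closed field of characteristic `0`
-/

set_option autoImplicit false
set_option linter.unusedSectionVars false
set_option linter.style.haveILetI false

open AlgebraicCurve IsDedekindDomain

noncomputable section

namespace Fermat.Agent.S37.E0

open Fermat.Agent.FF

section Abstract

variable {K F F' : Type*} [Field K] [Field F] [Field F'] [Algebra K F] [Algebra K F']
  [Algebra F F'] [IsScalarTower K F F'] [FiniteDimensional F F']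
variable (v : Place K F)
variable {S : Type*} [CommRing S] [IsDedekindDomain S] [Algebra S F'] [IsFractionRing S F']
  [Algebra K S] [IsScalarTower K S F']
  [Algebra v.toValuationSubring S] [Algebra v.toValuationSubring F']
  [IsScalarTower v.toValuationSubring S F'] [IsScalarTower v.toValuationSubring F F']
  [IsIntegralClosure S v.toValuationSubring F'] [Algebra.IsIntegral v.toValuationSubring S]
  [HasPrincipalDivisors K F']
  [IsScalarTower K v.toValuationSubring S] [Module.Finite v.toValuationSubring S]
  [FaithfulSMul v.toValuationSubring S]

/-- the height one prime of a prime over the maximal ideal of `O_v` -/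
def hosOfPrimesOverV
    (q : (IsLocalRing.maximalIdeal v.toValuationSubring).primesOver S) : HeightOneSpectrum S :=
  haveI : q.1.LiesOver (IsLocalRing.maximalIdeal v.toValuationSubring) := q.2.2
  ⟨q.1, q.2.1, Ideal.ne_bot_of_liesOver_of_ne_bot
    (IsDiscreteValuationRing.not_a_field v.toValuationSubring) q.1⟩

/-- the place of a prime over the maximal ideal of `O_v` -/
def placeOfPrimesOverV
    (q : (IsLocalRing.maximalIdeal v.toValuationSubring).primesOver S) : Place K F' :=
  Place.ofHeightOneSpectrum (K := K) (hosOfPrimesOverV v q)

theorem placeOfPrimesOverV_injective :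
    Function.Injective (placeOfPrimesOverV (K := K) (F' := F') (S := S) v) := by
  intro q₁ q₂ h
  have := ofHeightOneSpectrum_injective (K := K) (F := F') h
  exact Subtype.ext (congrArg HeightOneSpectrum.asIdeal this)

theorem fiber_eq_image [Fintype ((IsLocalRing.maximalIdeal v.toValuationSubring).primesOver S)]
    [DecidableEq (Place K F')] :
    v.fiber F' = Finset.univ.image (placeOfPrimesOverV (K := K) (F' := F') (S := S) v) := by
  ext w
  rw [mem_fiber_iff_exists (S := S) v w]
  simp only [Finset.mem_image, Finset.mem_univ, true_and]
  constructor
  · rintro ⟨q, rfl⟩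
    exact ⟨⟨q.asIdeal, q.isPrime, liesOver_maximalIdeal v q⟩, rfl⟩
  · rintro ⟨q, rfl⟩
    exact ⟨hosOfPrimesOverV v q, rfl⟩

/-- sums over the fibre of `v` are sums over the primes over the maximal ideal of `O_v` -/
theorem sum_fiber_eq [Fintype ((IsLocalRing.maximalIdeal v.toValuationSubring).primesOver S)]
    (g : Place K F' → ℤ) :
    ∑ w ∈ v.fiber F', g w =
      ∑ q : (IsLocalRing.maximalIdeal v.toValuationSubring).primesOver S,
        g (placeOfPrimesOverV (K := K) (F' := F') (S := S) v q) := by
  classical
  rw [fiber_eq_image (S := S) v,
    Finset.sum_image fun q₁ _ q₂ _ h => placeOfPrimesOverV_injective v h]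

theorem sum_ramificationIndex_fiber_abstract [IsAlgClosed K]
    [Fintype ((IsLocalRing.maximalIdeal v.toValuationSubring).primesOver S)]
    [Module.Flat v.toValuationSubring S] (hv : v.deg = 1) :
    ∑ w ∈ v.fiber F', (w.ramificationIndex F : ℤ) =
      (Module.finrank v.toValuationSubring S : ℤ) := by
  rw [sum_fiber_eq (S := S) v,
    ← Ideal.sum_ramification_inertia_eq_finrank (R := v.toValuationSubring)
      (IsLocalRing.maximalIdeal v.toValuationSubring) S]
  push_cast
  refine Finset.sum_congr rfl fun q _ => ?_
  have h1 : (placeOfPrimesOverV (K := K) (F' := F') v q).ramificationIndex F =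
      q.1.ramificationIdx v.toValuationSubring :=
    ramificationIndex_ofHeightOneSpectrum (K := K) (F' := F') v (hosOfPrimesOverV v q)
  have h2 : q.1.inertiaDeg v.toValuationSubring = 1 :=
    inertiaDeg_eq_one' (K := K) v hv (hosOfPrimesOverV v q)
  rw [h2, Nat.cast_one, mul_one, h1]

end Abstract

section Concrete

variable {K F F' : Type*} [Field K] [Field F] [Field F'] [Algebra K F] [Algebra K F']
  [Algebra F F'] [IsScalarTower K F F'] [FiniteDimensional F F'] [CharZero K] [IsAlgClosed K]
  [HasPrincipalDivisors K F']

/-- **the fundamental identity** `∑_{w | v} e(w | v) = [F' : F]` -/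
theorem sum_ramificationIndex_fiber (hdeg : ∀ v : Place K F, v.deg = 1) (v : Place K F) :
    ∑ w ∈ v.fiber F', (w.ramificationIndex F : ℤ) = (Module.finrank F F' : ℤ) := by
  letI algOF' : Algebra v.toValuationSubring F' :=
    ((algebraMap F F').comp (algebraMap v.toValuationSubring F)).toAlgebra
  haveI tow : IsScalarTower v.toValuationSubring F F' :=
    IsScalarTower.of_algebraMap_eq fun _ => rfl
  haveI : CharZero F := charZero_of_injective_algebraMap (algebraMap K F).injective
  haveI : IsDedekindDomain (integralClosure v.toValuationSubring F') :=
    integralClosure.isDedekindDomain v.toValuationSubring F F'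
  haveI : IsFractionRing (integralClosure v.toValuationSubring F') F' :=
    integralClosure.isFractionRing_of_finite_extension F F'
  haveI : Module.Finite v.toValuationSubring (integralClosure v.toValuationSubring F') :=
    IsIntegralClosure.finite v.toValuationSubring F F' _
  letI : Algebra K (integralClosure v.toValuationSubring F') :=
    ((algebraMap v.toValuationSubring (integralClosure v.toValuationSubring F')).comp
      (algebraMap K v.toValuationSubring)).toAlgebra
  haveI : IsScalarTower K v.toValuationSubring (integralClosure v.toValuationSubring F') :=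
    IsScalarTower.of_algebraMap_eq fun _ => rfl
  haveI : IsScalarTower K (integralClosure v.toValuationSubring F') F' :=
    IsScalarTower.of_algebraMap_eq fun a => by
      rw [IsScalarTower.algebraMap_apply K F F']
      rfl
  haveI : Module.IsTorsionFree v.toValuationSubring F' :=
    .trans_faithfulSMul v.toValuationSubring F F'
  haveI : Module.Free v.toValuationSubring (integralClosure v.toValuationSubring F') :=
    IsIntegralClosure.module_free v.toValuationSubring F F' _
  haveI : Fintype ((IsLocalRing.maximalIdeal v.toValuationSubring).primesOver
      (integralClosure v.toValuationSubring F')) := Fintype.ofFinite _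
  have key := sum_ramificationIndex_fiber_abstract (K := K) (F' := F')
    (S := integralClosure v.toValuationSubring F') v (hdeg v)
  rw [key, IsIntegralClosure.rank v.toValuationSubring F F'
    (integralClosure v.toValuationSubring F')]

theorem fundamentalIdentity_general (hdeg : ∀ v : Place K F, v.deg = 1)
    (hdeg' : ∀ w : Place K F', w.deg = 1) : FundamentalIdentity K F F' := by
  constructor
  intro v
  rw [hdeg v, Nat.cast_one, mul_one, ← sum_ramificationIndex_fiber hdeg v]
  refine Finset.sum_congr rfl fun w _ => ?_
  rw [hdeg' w, Nat.cast_one, mul_one]

end Concrete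

end Fermat.Agent.S37.E0
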