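import Mathlib
import Fermat.Agent.S37.E0FI

/-!
# S37 (E0), part 4 (helper2): the norm formula `∑_{w | v} ord_w f = ord_v (N f)` for a finite
extension of function fields over an algebraically closed field of characteristic `0`
-/

set_option autoImplicit false
set_option linter.unusedSectionVars false
set_option linter.style.haveILetI false

open AlgebraicCurve IsDedekindDomain

noncomputable section

namespace Fermat.Agent.S37.E0

open Fermat.Agent.FF

section DVR

variable {K F : Type*} [Field K] [Field F] [Algebra K F] (v : Place K F)

/-- in the valuation ring of `v`: `(a) = m_v ^ m` implies `ord_v a = m` -/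
theorem ord_eq_of_span_eq_pow (a : v.toValuationSubring) (m : ℕ)
    (h : Ideal.span {a} = (IsLocalRing.maximalIdeal v.toValuationSubring) ^ m) :
    v.ord (a : F) = m := by
  obtain ⟨π, hπ⟩ := IsDiscreteValuationRing.exists_irreducible v.toValuationSubring
  rw [hπ.maximalIdeal_eq, Ideal.span_singleton_pow,
    Ideal.span_singleton_eq_span_singleton] at h
  obtain ⟨u, hu⟩ := h
  have hπ0 : (π : F) ≠ 0 := by
    simpa [ne_eq, ZeroMemClass.coe_eq_zero] using hπ.ne_zero
  have h1 : (a : F) * ((u : v.toValuationSubring) : F) = (π : F) ^ m := by
    have := congrArg (Subtype.val) hu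
    simpa using this
  have hu0 : ((u : v.toValuationSubring) : F) ≠ 0 := by
    intro h0
    have := u.mul_inv
    rw [Subtype.ext_iff] at this
    push_cast at this
    rw [h0, zero_mul] at this
    exact zero_ne_one this
  have ha0 : (a : F) ≠ 0 := by
    intro h0
    rw [h0, zero_mul] at h1
    exact pow_ne_zero m hπ0 h1.symm
  have h2 := congrArg v.ord h1
  rw [v.ord_mul ha0 hu0, v.ord_coe_unit, add_zero, ← zpow_natCast, v.ord_zpow,
    v.ord_coe_irreducible hπ, mul_one] at h2
  exact h2

end DVR

section Abstract

variable {K F F' : Type*} [Field K] [Field F] [Field F'] [Algebra K F] [Algebra K F']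
  [Algebra F F'] [IsScalarTower K F F'] [FiniteDimensional F F'] [CharZero K]
variable (v : Place K F)
variable {S : Type*} [CommRing S] [IsDedekindDomain S] [Algebra S F'] [IsFractionRing S F']
  [Algebra K S] [IsScalarTower K S F']
  [Algebra v.toValuationSubring S] [Algebra v.toValuationSubring F']
  [IsScalarTower v.toValuationSubring S F'] [IsScalarTower v.toValuationSubring F F']
  [IsIntegralClosure S v.toValuationSubring F'] [Algebra.IsIntegral v.toValuationSubring S]
  [HasPrincipalDivisors K F']
  [IsScalarTower K v.toValuationSubring S] [Module.Finite v.toValuationSubring S]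
  [FaithfulSMul v.toValuationSubring S] [Module.IsTorsionFree v.toValuationSubring S]

theorem charZero_valuationSubring : CharZero v.toValuationSubring :=
  charZero_of_injective_algebraMap (R := K)
    (FaithfulSMul.algebraMap_injective K v.toValuationSubring)

/-- the relative norm of a height one prime of `S` is the maximal ideal of `O_v` -/
theorem relNorm_hos [IsAlgClosed K] (hv : v.deg = 1) (q : HeightOneSpectrum S) :
    Ideal.relNorm v.toValuationSubring q.asIdeal =
      IsLocalRing.maximalIdeal v.toValuationSubring := by
  haveI := liesOver_maximalIdeal v q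
  haveI := q.isMaximal
  haveI := charZero_valuationSubring v
  rw [Ideal.relNorm_eq_pow_of_isMaximal q.asIdeal (IsLocalRing.maximalIdeal _),
    inertiaDeg_eq_one' v hv q, pow_one]

/-- the exponent of `q` in `(b)` is the order of `b` at the place of `q` -/
theorem ord_eq_count (q : HeightOneSpectrum S) {b : S} (hb : b ≠ 0) :
    (Place.ofHeightOneSpectrum (K := K) q : Place K F').ord (algebraMap S F' b) =
      ((Associates.mk q.asIdeal).count (Associates.mk (Ideal.span {b} : Ideal S)).factors : ℤ) := by
  rw [ord_ofHeightOneSpectrum_algebraMap, q.intValuation_if_neg hb, WithZero.log_exp, neg_neg]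

theorem relNorm_span_singleton_eq_pow [IsAlgClosed K] (hv : v.deg = 1)
    [Fintype ((IsLocalRing.maximalIdeal v.toValuationSubring).primesOver S)]
    {b : S} (hb : b ≠ 0) :
    Ideal.relNorm v.toValuationSubring (Ideal.span {b} : Ideal S) =
      (IsLocalRing.maximalIdeal v.toValuationSubring) ^
        (∑ q : (IsLocalRing.maximalIdeal v.toValuationSubring).primesOver S,
          (Associates.mk (hosOfPrimesOverV v q).asIdeal).count
            (Associates.mk (Ideal.span {b} : Ideal S)).factors) := by
  classical
  have hI : (Ideal.span {b} : Ideal S) ≠ 0 := by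
    rw [Ne, Ideal.zero_eq_bot, Ideal.span_singleton_eq_bot]
    exact hb
  have hfact := Ideal.finprod_heightOneSpectrum_factorization hI
  have hprod : ∏ᶠ q : HeightOneSpectrum S, q.maxPowDividing (Ideal.span {b}) =
      ∏ q : (IsLocalRing.maximalIdeal v.toValuationSubring).primesOver S,
        (hosOfPrimesOverV v q).maxPowDividing (Ideal.span {b}) := by
    rw [finprod_eq_prod_of_mulSupport_subset _
      (s := Finset.univ.image (hosOfPrimesOverV (S := S) v))]
    · rw [Finset.prod_image]
      intro q₁ _ q₂ _ h
      exact Subtype.ext (congrArg HeightOneSpectrum.asIdeal h)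
    · intro q _
      simp only [Finset.coe_image, Finset.coe_univ, Set.image_univ, Set.mem_range]
      exact ⟨⟨q.asIdeal, q.isPrime, liesOver_maximalIdeal v q⟩, rfl⟩
  rw [hprod] at hfact
  conv_lhs => rw [← hfact]
  rw [map_prod, ← Finset.prod_pow_eq_pow_sum]
  refine Finset.prod_congr rfl fun q _ => ?_
  rw [HeightOneSpectrum.maxPowDividing, map_pow, relNorm_hos v hv]

/-- **norm formula, integral case** -/
theorem sum_ord_eq_ord_intNorm [IsAlgClosed K] (hv : v.deg = 1)
    [Fintype ((IsLocalRing.maximalIdeal v.toValuationSubring).primesOver S)]
    {b : S} (hb : b ≠ 0) :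
    ∑ q : (IsLocalRing.maximalIdeal v.toValuationSubring).primesOver S,
      (placeOfPrimesOverV (K := K) (F' := F') v q).ord (algebraMap S F' b) =
        v.ord ((Algebra.intNorm v.toValuationSubring S b : v.toValuationSubring) : F) := by
  have h1 := relNorm_span_singleton_eq_pow (K := K) v hv hb
  rw [Ideal.relNorm_singleton] at h1
  rw [ord_eq_of_span_eq_pow v _ _ h1]
  push_cast
  refine Finset.sum_congr rfl fun q _ => ?_
  exact ord_eq_count (K := K) (F' := F') (hosOfPrimesOverV v q) hb

end Abstract

section Concrete

variable {K F F' : Type*} [Field K] [Field F] [Field F'] [Algebra K F] [Algebra K F']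
  [Algebra F F'] [IsScalarTower K F F'] [FiniteDimensional F F'] [CharZero K] [IsAlgClosed K]
  [HasPrincipalDivisors K F']

omit [CharZero K] [IsAlgClosed K] [HasPrincipalDivisors K F'] in
theorem place_inertiaDeg_eq_one (hdeg : ∀ v : Place K F, v.deg = 1)
    (hdeg' : ∀ w : Place K F', w.deg = 1) (w : Place K F') : w.inertiaDeg F = 1 := by
  have := w.deg_restrict_mul_inertiaDeg (F := F)
  rw [hdeg, hdeg' w, one_mul] at this
  exact this

/-- **the norm formula on the fibre of `v`** -/
theorem sum_ord_fiber_eq_ord_norm (hdeg : ∀ v : Place K F, v.deg = 1) (v : Place K F)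
    (f : F') (hf : f ≠ 0) :
    ∑ w ∈ v.fiber F', w.ord f = v.ord (Algebra.norm F f) := by
  letI algOF' : Algebra v.toValuationSubring F' :=
    ((algebraMap F F').comp (algebraMap v.toValuationSubring F)).toAlgebra
  haveI tow : IsScalarTower v.toValuationSubring F F' :=
    IsScalarTower.of_algebraMap_eq fun _ => rfl
  haveI : CharZero F := charZero_of_injective_algebraMap (algebraMap K F).injective
  haveI : IsDedekindDomain (integralClosure v.toValuationSubring F') :=
    integralClosure.isDedekindDomain v.toValuationSubring F F'
  haveI : IsFractionRing (integralClosure v.toValuationSubring F') F' :=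
    integralClosure.isFractionRing_of_finite_extension F F'
  haveI : Module.Finite v.toValuationSubring (integralClosure v.toValuationSubring F') :=
    IsIntegralClosure.finite v.toValuationSubring F F' _
  letI : Algebra K (integralClosure v.toValuationSubring F') :=
    ((algebraMap v.toValuationSubring (integralClosure v.toValuationSubring F')).comp
      (algebraMap K v.toValuationSubring)).toAlgebra
  haveI : IsScalarTower K v.toValuationSubring (integralClosure v.toValuationSubring F') :=
    IsScalarTower.of_algebraMap_eq fun _ => rfl
  haveI : IsScalarTower K (integralClosure v.toValuationSubring F') F' :=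
    IsScalarTower.of_algebraMap_eq fun a => by
      rw [IsScalarTower.algebraMap_apply K F F']
      rfl
  haveI : Module.IsTorsionFree v.toValuationSubring F' :=
    .trans_faithfulSMul v.toValuationSubring F F'
  haveI : Module.IsTorsionFree v.toValuationSubring (integralClosure v.toValuationSubring F') :=
    IsIntegralClosure.isTorsionFree v.toValuationSubring F'
  haveI : Fintype ((IsLocalRing.maximalIdeal v.toValuationSubring).primesOver
      (integralClosure v.toValuationSubring F')) := Fintype.ofFinite _
  -- the integral case
  have key : ∀ x : integralClosure v.toValuationSubring F', x ≠ 0 →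
      ∑ w ∈ v.fiber F', w.ord (algebraMap (integralClosure v.toValuationSubring F') F' x) =
        v.ord (Algebra.norm F (algebraMap (integralClosure v.toValuationSubring F') F' x)) := by
    intro x hx
    rw [sum_fiber_eq (K := K) (F' := F') (S := integralClosure v.toValuationSubring F') v,
      sum_ord_eq_ord_intNorm (K := K) (F' := F') v (hdeg v) hx,
      ← Algebra.algebraMap_intNorm (A := v.toValuationSubring) (K := F) (L := F')
        (B := integralClosure v.toValuationSubring F') x]
    rfl
  obtain ⟨b, s, hs, rfl⟩ :=
    IsFractionRing.div_surjective (A := integralClosure v.toValuationSubring F') f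
  have hs0 : s ≠ 0 := nonZeroDivisors.ne_zero hs
  have hb0 : b ≠ 0 := by
    rintro rfl
    apply hf
    simp
  have hsF : algebraMap (integralClosure v.toValuationSubring F') F' s ≠ 0 := by
    simpa using hs0
  have hbF : algebraMap (integralClosure v.toValuationSubring F') F' b ≠ 0 := by
    simpa using hb0
  have hw : ∀ w : Place K F',
      w.ord (algebraMap (integralClosure v.toValuationSubring F') F' b /
        algebraMap (integralClosure v.toValuationSubring F') F' s) =
      w.ord (algebraMap (integralClosure v.toValuationSubring F') F' b) -
        w.ord (algebraMap (integralClosure v.toValuationSubring F') F' s) := by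
    intro w
    rw [div_eq_mul_inv, w.ord_mul hbF (inv_ne_zero hsF), w.ord_inv]
    ring
  simp only [hw]
  have hninv : Algebra.norm F (algebraMap (integralClosure v.toValuationSubring F') F' s)⁻¹ =
      (Algebra.norm F (algebraMap (integralClosure v.toValuationSubring F') F' s))⁻¹ := by
    apply eq_inv_of_mul_eq_one_right
    rw [← map_mul, mul_inv_cancel₀ hsF, map_one]
  rw [Finset.sum_sub_distrib, key b hb0, key s hs0, div_eq_mul_inv, map_mul, hninv,
    v.ord_mul (Algebra.norm_ne_zero_iff.mpr hbF) (inv_ne_zero (Algebra.norm_ne_zero_iff.mpr hsF)),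
    v.ord_inv]
  ring

/-- **the norm formula** -/
theorem normFormula_general (hdeg : ∀ v : Place K F, v.deg = 1)
    (hdeg' : ∀ w : Place K F', w.deg = 1) : Divisor.PushforwardNormFormula K F F' := by
  classical
  intro f hf D hD v
  rw [Divisor.pushforward_apply, ← sum_ord_fiber_eq_ord_norm hdeg v f hf, ← Finset.sum_filter]
  have e : D.support.filter (fun w => w.restrict F = v) =
      (v.fiber F').filter (fun w => w ∈ D.support) := by
    ext w
    simp only [Finset.mem_filter, Place.mem_fiber]
    exact and_comm
  rw [e, Finset.sum_filter_of_ne]
  · refine Finset.sum_congr rfl fun w _ => ?_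
    rw [place_inertiaDeg_eq_one hdeg hdeg' w, hD w, Nat.cast_one, mul_one]
  · intro w _ hne
    rw [Finsupp.mem_support_iff]
    intro h0
    apply hne
    rw [h0, zero_mul]

end Concrete

end Fermat.Agent.S37.E0
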