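import Mathlib
import Fermat.Prelude.Def_ModularCurve_HeckeOperatorTotal
import Fermat.Agent.S37.E0FI
import Fermat.Agent.S37.E0NF
import Fermat.Agent.S18.Char0Genus
import Fermat.Agent.S18.RRl.Char0
import Fermat.Agent.FF.AFinite

/-!
# S37 (E0), modular instantiation (helper1): `HeckeInputsAlong ℚ̄ N ℓ`

* `finiteAlong_of_finite` (abstract): `F'` is finite along `φ : F → F'` if it is finite over
  `K(φ x)`;
* `alphaIntegral`, `betaIntegral`, `finiteAlong_alpha`, `finiteAlong_beta`;
* `hasPrincipalDivisors_bar`, `deg_eq_one_bar`;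
* `fundamentalIdentityAlong_alpha`, `fundamentalIdentityAlong_beta` (helper2's general theorem);
* `normFormulaAlong_alpha`, `normFormulaAlong_beta` (helper2's general theorem);
* `heckeInputsAlong` : **`HeckeInputsAlong ℚ̄ N ℓ`** (every `N`, `ℓ`);
* `heckeOperatorAlong_eq_heckePic0Bar` : `heckeOperatorAlong ℚ̄ N ℓ = heckePic0Bar ...`.
-/

set_option autoImplicit false
set_option linter.unusedSectionVars false
set_option linter.style.haveILetI false

open AlgebraicCurve IntermediateField ModularCurve

noncomputable section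

namespace Fermat.Agent.S37.E0M

open Fermat.Agent.FF Fermat.Agent.S18

section Abstract

variable {K F F' : Type*} [Field K] [Field F] [Field F'] [Algebra K F] [Algebra K F']

/-- `F'` is finite along `φ` as soon as it is finite over `K(φ x)` for some `x : F`. -/
theorem finiteAlong_of_finite (φ : F →ₐ[K] F') (x : F) [FiniteDimensional K⟮φ x⟯ F'] :
    FiniteAlong K φ := by
  letI := algebraAlong φ
  show Module.Finite F F'
  obtain ⟨s, hs⟩ := (inferInstance : Module.Finite K⟮φ x⟯ F').fg_top
  refine ⟨⟨s, ?_⟩⟩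
  rw [eq_top_iff]
  intro z hz0
  clear hz0
  have hz : z ∈ Submodule.span K⟮φ x⟯ (s : Set F') := hs ▸ Submodule.mem_top
  have hrange : ∀ c : K⟮φ x⟯, ∃ d : F, φ d = (c : F') := by
    intro c
    have h1 : (c : F') ∈ (K⟮x⟯).map φ := by
      rw [IntermediateField.adjoin_map, Set.image_singleton]
      exact c.2
    obtain ⟨d, -, hd⟩ := h1
    exact ⟨d, hd⟩
  induction hz using Submodule.span_induction with
  | mem y hy => exact Submodule.subset_span hy
  | zero => exact Submodule.zero_mem _
  | add a b _ _ ha hb => exact Submodule.add_mem _ ha hb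
  | smul c a _ ha =>
    obtain ⟨d, hd⟩ := hrange c
    have h2 : c • a = d • a := by
      show (c : F') * a = φ d * a
      rw [hd]
    rw [h2]
    exact Submodule.smul_mem _ d ha

/-- finite along `φ` implies integral along `φ` -/
theorem isIntegral_of_finiteAlong (φ : F →ₐ[K] F') (h : FiniteAlong K φ) :
    φ.toRingHom.IsIntegral := by
  letI := algebraAlong φ
  haveI : Module.Finite F F' := h
  intro y
  exact (Algebra.IsIntegral.of_finite F F').isIntegral y

end Abstract

section Modular

variable (N ℓ : ℕ) [NeZero N] [NeZero ℓ]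

local notation "Kbar" => AlgebraicClosure ℚ

/-- principal divisors exist and have degree `0` on `F_M / ℚ̄` -/
theorem hasPrincipalDivisors_bar (M : ℕ) [NeZero M] :
    HasPrincipalDivisors Kbar (modularFunctionFieldBar M) := by
  have hM := Char0.modularRamification M
  haveI := hM.findim
  exact ⟨(RRl.curveRR_charZero (jBar M) hM.transc).exists_div⟩

/-- all places of `F_M / ℚ̄` have degree one -/
theorem deg_eq_one_bar (M : ℕ) [NeZero M] (v : Place Kbar (modularFunctionFieldBar M)) :
    v.deg = 1 := by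
  have hM := Char0.modularRamification M
  haveI := hM.findim
  exact (RRl.curveRR_charZero (jBar M) hM.transc).deg_one v

theorem heckeAlphaBar_jBar : heckeAlphaBar Kbar N ℓ (jBar N) = jBar (N * ℓ) := rfl

/-- `F_{Nℓ}` is finite over `F_N` along `α`. -/
theorem finiteAlong_alpha : FiniteAlong Kbar (heckeAlphaBar Kbar N ℓ) := by
  have hM := Char0.modularRamification (N * ℓ)
  haveI : FiniteDimensional Kbar⟮heckeAlphaBar Kbar N ℓ (jBar N)⟯
      ↥(modularFunctionFieldBar (N * ℓ)) := by
    rw [heckeAlphaBar_jBar]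
    exact hM.findim
  exact finiteAlong_of_finite (heckeAlphaBar Kbar N ℓ) (jBar N)

/-- `F_{Nℓ}` is finite over `F_N` along `β`. -/
theorem finiteAlong_beta : FiniteAlong Kbar (heckeBetaBar Kbar N ℓ) := by
  have hM := Char0.modularRamification (N * ℓ)
  have hN := Char0.modularRamification N
  haveI := hM.findim
  have htr : Transcendental Kbar (heckeBetaBar Kbar N ℓ (jBar N)) :=
    fun halg : IsAlgebraic Kbar (heckeBetaBar Kbar N ℓ (jBar N)) =>
      hN.transc ((isAlgebraic_algHom_iff (heckeBetaBar Kbar N ℓ)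
        (heckeBetaBar Kbar N ℓ).injective).1 halg)
  haveI : FiniteDimensional Kbar⟮heckeBetaBar Kbar N ℓ (jBar N)⟯
      ↥(modularFunctionFieldBar (N * ℓ)) :=
    finiteDimensional_of_transcendental (jBar (N * ℓ)) hM.transc _ htr
  exact finiteAlong_of_finite (heckeBetaBar Kbar N ℓ) (jBar N)

theorem alphaIntegral : HeckeAlphaBarIntegral Kbar N ℓ :=
  isIntegral_of_finiteAlong _ (finiteAlong_alpha N ℓ)

theorem betaIntegral : HeckeBetaBarIntegral Kbar N ℓ :=
  isIntegral_of_finiteAlong _ (finiteAlong_beta N ℓ)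

/-- the fundamental identity along `β` -/
theorem fundamentalIdentityAlong_beta :
    haveI := hasPrincipalDivisors_bar (N * ℓ)
    FundamentalIdentityAlong Kbar (heckeBetaBar Kbar N ℓ) (betaIntegral N ℓ) := by
  haveI := hasPrincipalDivisors_bar (N * ℓ)
  letI := algebraAlong (heckeBetaBar Kbar N ℓ)
  haveI := isScalarTower_along (heckeBetaBar Kbar N ℓ)
  haveI : FiniteDimensional ↥(modularFunctionFieldBar N) ↥(modularFunctionFieldBar (N * ℓ)) :=
    finiteAlong_beta N ℓ
  exact E0.fundamentalIdentity_general (deg_eq_one_bar N) (deg_eq_one_bar (N * ℓ))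

/-- the fundamental identity along `α` -/
theorem fundamentalIdentityAlong_alpha :
    haveI := hasPrincipalDivisors_bar (N * ℓ)
    FundamentalIdentityAlong Kbar (heckeAlphaBar Kbar N ℓ) (alphaIntegral N ℓ) := by
  haveI := hasPrincipalDivisors_bar (N * ℓ)
  letI := algebraAlong (heckeAlphaBar Kbar N ℓ)
  haveI := isScalarTower_along (heckeAlphaBar Kbar N ℓ)
  haveI : FiniteDimensional ↥(modularFunctionFieldBar N) ↥(modularFunctionFieldBar (N * ℓ)) :=
    finiteAlong_alpha N ℓ
  exact E0.fundamentalIdentity_general (deg_eq_one_bar N) (deg_eq_one_bar (N * ℓ))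

/-- **(E0)**: the Hecke inputs along `(α, β)` hold over `ℚ̄`, given the norm formula along `α`. -/
theorem heckeInputsAlong_of_normFormula
    (hNF : NormFormulaAlong Kbar (heckeAlphaBar Kbar N ℓ) (finiteAlong_alpha N ℓ)) :
    HeckeInputsAlong Kbar N ℓ := by
  haveI := hasPrincipalDivisors_bar (N * ℓ)
  exact heckeInputsAlong_intro (alphaIntegral N ℓ) (betaIntegral N ℓ)
    (fundamentalIdentityAlong_beta N ℓ) (finiteAlong_alpha N ℓ) hNF

/-- the norm formula along `α` -/
theorem normFormulaAlong_alpha :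
    NormFormulaAlong Kbar (heckeAlphaBar Kbar N ℓ) (finiteAlong_alpha N ℓ) := by
  haveI := hasPrincipalDivisors_bar (N * ℓ)
  letI := algebraAlong (heckeAlphaBar Kbar N ℓ)
  haveI := isScalarTower_along (heckeAlphaBar Kbar N ℓ)
  haveI : FiniteDimensional ↥(modularFunctionFieldBar N) ↥(modularFunctionFieldBar (N * ℓ)) :=
    finiteAlong_alpha N ℓ
  exact E0.normFormula_general (deg_eq_one_bar N) (deg_eq_one_bar (N * ℓ))

/-- the norm formula along `β` -/
theorem normFormulaAlong_beta :
    NormFormulaAlong Kbar (heckeBetaBar Kbar N ℓ) (finiteAlong_beta N ℓ) := by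
  haveI := hasPrincipalDivisors_bar (N * ℓ)
  letI := algebraAlong (heckeBetaBar Kbar N ℓ)
  haveI := isScalarTower_along (heckeBetaBar Kbar N ℓ)
  haveI : FiniteDimensional ↥(modularFunctionFieldBar N) ↥(modularFunctionFieldBar (N * ℓ)) :=
    finiteAlong_beta N ℓ
  exact E0.normFormula_general (deg_eq_one_bar N) (deg_eq_one_bar (N * ℓ))

/-- **(E0)**: the Hecke inputs along `(α, β)` hold over `ℚ̄`, for every `N` and `ℓ`. -/
theorem heckeInputsAlong : HeckeInputsAlong Kbar N ℓ :=
  heckeInputsAlong_of_normFormula N ℓ (normFormulaAlong_alpha N ℓ)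

/-- the Hecke operator `T_ℓ` on `J₀(N)` is the correspondence `α_* β^*`. -/
theorem heckeOperatorAlong_eq_heckePic0Bar :
    haveI := hasPrincipalDivisors_bar (N * ℓ)
    heckeOperatorAlong Kbar N ℓ =
      heckePic0Bar (alphaIntegral N ℓ) (betaIntegral N ℓ) (fundamentalIdentityAlong_beta N ℓ)
        (finiteAlong_alpha N ℓ) (normFormulaAlong_alpha N ℓ) := by
  haveI := hasPrincipalDivisors_bar (N * ℓ)
  exact heckeOperatorAlong_eq (alphaIntegral N ℓ) (betaIntegral N ℓ)
    (fundamentalIdentityAlong_beta N ℓ) (finiteAlong_alpha N ℓ) (normFormulaAlong_alpha N ℓ)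

end Modular

end Fermat.Agent.S37.E0M
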