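import Fermat.Agent.S37.ESRelation
import Fermat.Agent.S18.RPrimeGeneric
import Fermat.Agent.S18.RPrimeIndep
import Fermat.Prelude.Def_AlgebraicCurve_Correspondence

/-!
# S37 (item 88), piece (E3): the Eichler–Shimura congruence on principal divisors (`hfun`)

Abstract setting.  `F ⊂ F'` (levels `N ∣ N'`), `α, β : F → FM` (level `N ℓ`),
`ρ = r'_* ∘ φ^*`, `T = α_* ∘ β^*`.  `Red' y yb`: "`y ∈ F'` is a unit of the Gauss valuation
with reduction `yb`" (compatible with divisors: `hr`).  `G u ub`: "`u ∈ F` is good with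
reduction `ub`" (every function is a constant times a quotient of good functions).
Kronecker (`hkron`): the norm of `β u` is good with reduction `Frq ub * wb`, `Frq wb = ub ^ ℓ`.
`(E2)`: `div (Frq f) = V (div f)`, `V Fm = ℓ = Fm V`.
Conclusion: `ρ (T (div y)) = Fm (ρ (div y)) + V (ρ (div y))` for every `y ≠ 0`.
-/

set_option autoImplicit false
set_option linter.style.haveILetI false

open AlgebraicCurve Fermat.Agent.S18.RPrime

noncomputable section

namespace Fermat.Agent.S37.E3

section Along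

variable {K F F' : Type*} [Field K] [Field F] [Field F'] [Algebra K F] [Algebra K F']

/-- the norm along a homomorphism -/
def normAlong (α : F →ₐ[K] F') (f : F') : F :=
  letI := algebraAlong α
  Algebra.norm F f

theorem pullbackAlong_apply_eq_ord [HasPrincipalDivisors K F'] (φ : F →ₐ[K] F')
    (hφ : φ.toRingHom.IsIntegral) {f : F} {D : Divisor K F}
    (hD : ∀ v : Place K F, D v = v.ord f) (w : Place K F') :
    Divisor.pullbackAlong φ hφ D w = w.ord (φ f) := by
  letI := algebraAlong φ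
  haveI := isScalarTower_along φ
  haveI := isIntegral_along φ hφ
  exact Divisor.pullback_apply_eq_ord hD w

theorem pushforwardAlong_apply_eq_ord (α : F →ₐ[K] F') (hα : α.toRingHom.IsIntegral)
    (hfin : FiniteAlong K α) (hN : NormFormulaAlong K α hfin) {f : F'} (hf : f ≠ 0)
    {D : Divisor K F'} (hD : ∀ w : Place K F', D w = w.ord f) (v : Place K F) :
    Divisor.pushforwardAlong α hα D v = v.ord (normAlong α f) := by
  letI := algebraAlong α
  haveI := isScalarTower_along α
  haveI := isIntegral_along α hα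
  haveI : Module.Finite F F' := hfin
  exact hN f hf D hD v

theorem normAlong_ne_zero (α : F →ₐ[K] F') (hfin : FiniteAlong K α) {f : F'} (hf : f ≠ 0) :
    normAlong α f ≠ 0 := by
  letI := algebraAlong α
  haveI : Module.Finite F F' := hfin
  unfold normAlong
  exact Algebra.norm_ne_zero_iff.mpr hf

end Along

section Fun

variable {K F F' FM : Type*} [Field K] [Field F] [Field F'] [Field FM]
  [Algebra K F] [Algebra K F'] [Algebra K FM]
  {k Fb : Type*} [Field k] [Field Fb] [Algebra k Fb]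

/-- the reduction map on divisors `ρ = r'_* ∘ φ^*`. -/
def rhoDiv [HasPrincipalDivisors K F'] (φ : F →ₐ[K] F') (hφ : φ.toRingHom.IsIntegral)
    (r' : Place K F' → Place k Fb) : Divisor K F →+ Divisor k Fb :=
  (Finsupp.mapDomain.addMonoidHom r').comp (Divisor.pullbackAlong φ hφ)

theorem rhoDiv_apply [HasPrincipalDivisors K F'] (φ : F →ₐ[K] F')
    (hφ : φ.toRingHom.IsIntegral) (r' : Place K F' → Place k Fb) (D : Divisor K F) :
    rhoDiv φ hφ r' D = Finsupp.mapDomain r' (Divisor.pullbackAlong φ hφ D) := rfl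

/-- the hypotheses on the reduction. -/
structure FunData [HasPrincipalDivisors K F'] [HasPrincipalDivisors K FM]
    (φ : F →ₐ[K] F') (hφ : φ.toRingHom.IsIntegral) (r' : Place K F' → Place k Fb)
    (α β : F →ₐ[K] FM) (ℓ : ℕ) (Red' : F' → Fb → Prop) (G : F → Fb → Prop)
    (Frq : Fb →+* Fb) (Fm V : Divisor k Fb →+ Divisor k Fb) : Prop where
  /-- compatibility of `r'` with divisors of units -/
  hr : ∀ (y : F') (yb : Fb), Red' y yb → yb ≠ 0 → ∀ D : Divisor K F', (∀ P, D P = P.ord y) →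
    ∀ Q, Finsupp.mapDomain r' D Q = Q.ord yb
  /-- every function is a constant times a quotient of good functions -/
  scal : ∀ y : F, y ≠ 0 → ∃ c : K, c ≠ 0 ∧ ∃ (u v : F) (ub vb : Fb),
    G u ub ∧ G v vb ∧ (c • y) * v = u
  good : ∀ (u : F) (ub : Fb), G u ub → u ≠ 0 ∧ ub ≠ 0 ∧ Red' (φ u) ub
  /-- Kronecker -/
  kron : ∀ (u : F) (ub : Fb), G u ub → ∃ wb : Fb, Frq wb = ub ^ ℓ ∧
    Red' (φ (normAlong α (β u))) (Frq ub * wb)
  /-- `div (Frq f) = V (div f)` -/
  frq : ∀ (f : Fb), f ≠ 0 → ∀ D : Divisor k Fb, (∀ Q, D Q = Q.ord f) →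
    ∀ Q, V D Q = Q.ord (Frq f)
  hVF : ∀ E : Divisor k Fb, V (Fm E) = ℓ • E
  hFV : ∀ E : Divisor k Fb, Fm (V E) = ℓ • E
  hℓ : ℓ ≠ 0

variable [HasPrincipalDivisors K F'] [HasPrincipalDivisors K FM]
  {φ : F →ₐ[K] F'} {hφ : φ.toRingHom.IsIntegral} {r' : Place K F' → Place k Fb}
  {α β : F →ₐ[K] FM} {ℓ : ℕ} {Red' : F' → Fb → Prop} {G : F → Fb → Prop}
  {Frq : Fb →+* Fb} {Fm V : Divisor k Fb →+ Divisor k Fb}

theorem FunData.V_injective (X : FunData φ hφ r' α β ℓ Red' G Frq Fm V) {E E' : Divisor k Fb}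
    (h : V E = V E') : E = E' := by
  have h1 : ℓ • E = ℓ • E' := by rw [← X.hFV, ← X.hFV, h]
  ext Q
  have h2 := congrArg (fun D : Divisor k Fb => D Q) h1
  simp only [Finsupp.smul_apply, nsmul_eq_mul] at h2
  have hℓ : (ℓ : ℤ) ≠ 0 := by exact_mod_cast X.hℓ
  exact mul_left_cancel₀ hℓ h2

/-- `ρ (div u) = div ub` for good `u`. -/
theorem FunData.rho_good (X : FunData φ hφ r' α β ℓ Red' G Frq Fm V) {u : F} {ub : Fb}
    (hG : G u ub) {D : Divisor K F} (hD : ∀ v, D v = v.ord u) (Q : Place k Fb) :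
    rhoDiv φ hφ r' D Q = Q.ord ub := by
  obtain ⟨-, hub, hred⟩ := X.good u ub hG
  rw [rhoDiv_apply]
  exact X.hr (φ u) ub hred hub _ (fun P => pullbackAlong_apply_eq_ord φ hφ hD P) Q

/-- the Kronecker congruence for the divisor of a good function. -/
theorem FunData.rho_hecke_good {g' : ℕ} (X : FunData φ hφ r' α β ℓ Red' G Frq Fm V)
    (hk : CurveRR k Fb g')
    (hα : α.toRingHom.IsIntegral) (hβ : β.toRingHom.IsIntegral)
    (hfin : FiniteAlong K α) (hN : NormFormulaAlong K α hfin)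
    {u : F} {ub : Fb} (hG : G u ub) {D : Divisor K F} (hD : ∀ v, D v = v.ord u) :
    rhoDiv φ hφ r' (Divisor.correspondence β α hβ hα D) =
      Fm (rhoDiv φ hφ r' D) + V (rhoDiv φ hφ r' D) := by
  obtain ⟨hu0, hub, hred⟩ := X.good u ub hG
  obtain ⟨wb, hwb, hz⟩ := X.kron u ub hG
  have hβu : β u ≠ 0 := by
    rw [Ne, map_eq_zero_iff β β.toRingHom.injective]
    exact hu0
  have hFub : Frq ub ≠ 0 := by
    rw [Ne, map_eq_zero_iff Frq Frq.injective]
    exact hub
  have hwb0 : wb ≠ 0 := by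
    rintro rfl
    rw [map_zero] at hwb
    exact pow_ne_zero ℓ hub hwb.symm
  -- the divisor of the norm
  have hD₁ : ∀ w : Place K FM, Divisor.pullbackAlong β hβ D w = w.ord (β u) :=
    fun w => pullbackAlong_apply_eq_ord β hβ hD w
  have hD₂ : ∀ v : Place K F, Divisor.correspondence β α hβ hα D v =
      v.ord (normAlong α (β u)) := by
    intro v
    rw [Divisor.correspondence_apply]
    exact pushforwardAlong_apply_eq_ord α hα hfin hN hβu hD₁ v
  -- `ρ` of it
  have h1 : ∀ Q : Place k Fb, rhoDiv φ hφ r' (Divisor.correspondence β α hβ hα D) Q =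
      Q.ord (Frq ub * wb) := by
    intro Q
    rw [rhoDiv_apply]
    exact X.hr _ _ hz (mul_ne_zero hFub hwb0) _
      (fun P => pullbackAlong_apply_eq_ord φ hφ hD₂ P) Q
  have hE : ∀ Q : Place k Fb, rhoDiv φ hφ r' D Q = Q.ord ub := X.rho_good hG hD
  have hVE : ∀ Q : Place k Fb, V (rhoDiv φ hφ r' D) Q = Q.ord (Frq ub) :=
    X.frq ub hub _ hE
  have hW : divOf hk wb = Fm (rhoDiv φ hφ r' D) := by
    apply X.V_injective
    ext Q
    rw [X.frq wb hwb0 _ (fun Q' => divOf_apply hk wb Q') Q, hwb, X.hVF, ord_pow,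
      Finsupp.smul_apply, hE Q]
    simp
  ext Q
  rw [h1 Q, Q.ord_mul hFub hwb0, Finsupp.add_apply, hVE Q, ← hW, divOf_apply]
  ring

/-- **`hfun`**: the Kronecker congruence on principal divisors. -/
theorem FunData.rho_hecke_principal {g g' : ℕ} (X : FunData φ hφ r' α β ℓ Red' G Frq Fm V)
    (hK : CurveRR K F g) (hk : CurveRR k Fb g')
    (hα : α.toRingHom.IsIntegral) (hβ : β.toRingHom.IsIntegral)
    (hfin : FiniteAlong K α) (hN : NormFormulaAlong K α hfin)
    (y : F) (hy : y ≠ 0) (D : Divisor K F) (hD : ∀ v, D v = v.ord y) :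
    rhoDiv φ hφ r' (Divisor.correspondence β α hβ hα D) =
      Fm (rhoDiv φ hφ r' D) + V (rhoDiv φ hφ r' D) := by
  obtain ⟨c, hc, u, v, ub, vb, hGu, hGv, huv⟩ := X.scal y hy
  obtain ⟨hu0, -, -⟩ := X.good u ub hGu
  obtain ⟨hv0, -, -⟩ := X.good v vb hGv
  have hDuv : D = divOf hK u - divOf hK v := by
    ext P
    rw [Finsupp.sub_apply, divOf_apply, divOf_apply, hD P, ← huv,
      P.ord_mul (by rw [Algebra.smul_def]; exact mul_ne_zero (by simpa using hc) hy) hv0,
      ord_smul P hc]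
    ring
  have hu := X.rho_hecke_good hk hα hβ hfin hN hGu (fun P => divOf_apply hK u P)
  have hv := X.rho_hecke_good hk hα hβ hfin hN hGv (fun P => divOf_apply hK v P)
  rw [hDuv, map_sub, map_sub, map_sub, map_sub, map_sub, hu, hv]
  abel

/-- **(A2) on divisors from `FunData`**. -/
theorem FunData.es_relation {g g' : ℕ} (X : FunData φ hφ r' α β ℓ Red' G Frq Fm V)
    (hK : CurveRR K F g) (hk : CurveRR k Fb g')
    (hα : α.toRingHom.IsIntegral) (hβ : β.toRingHom.IsIntegral)
    (hfin : FiniteAlong K α) (hN : NormFormulaAlong K α hfin)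
    (S : Divisor K F →+ Divisor K F) {d e a b : ℕ}
    (hρ : IsBddMap (rhoDiv φ hφ r') d)
    (hT : IsBddMap (Divisor.correspondence β α hβ hα) e)
    (hFm : IsBddMap Fm a) (hV : IsBddMap V b)
    (hSdeg : ∀ D : Divisor K F, Divisor.degree D = 0 → Divisor.degree (S D) = 0)
    (hS : ∀ D : Divisor K F, Divisor.degree D = 0 →
      rhoDiv φ hφ r' (S D) = Fm (rhoDiv φ hφ r' D))
    (D : Divisor K F) (hD : Divisor.degree D = 0) :
    rhoDiv φ hφ r' (S (S D) - Divisor.correspondence β α hβ hα (S D) + ℓ • D) = 0 :=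
  es_relation_div hK hk.deg_one (rhoDiv φ hφ r') S (Divisor.correspondence β α hβ hα) Fm V ℓ
    hρ hT hFm hV hSdeg hS X.hVF (X.rho_hecke_principal hK hk hα hβ hfin hN) D hD

end Fun

section Bounds

variable {K F F' : Type*} [Field K] [Field F] [Field F'] [Algebra K F] [Algebra K F']
  {k Fb : Type*} [Field k] [Field Fb] [Algebra k Fb]

/-- push-forward along a homomorphism is bounded by `1` (all places of degree `1`). -/
theorem isBddMap_pushforwardAlong (α : F →ₐ[K] F') (hα : α.toRingHom.IsIntegral)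
    (hdeg : ∀ w : Place K F', w.deg = 1) :
    IsBddMap (Divisor.pushforwardAlong α hα) 1 := by
  letI := algebraAlong α
  haveI := isScalarTower_along α
  haveI := isIntegral_along α hα
  refine ⟨fun w => ?_, fun w => ?_⟩
  · show 0 ≤ Divisor.pushforward F (Finsupp.single w 1)
    rw [Divisor.pushforward_single]
    classical
    rw [Finsupp.le_def]
    intro v
    rw [Finsupp.single_apply]
    simp only [Finsupp.coe_zero, Pi.zero_apply]
    split_ifs
    · positivity
    · exact le_rfl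
  · rw [Divisor.degree_pushforwardAlong, degree_single_one hdeg]
    rfl

/-- pull-back is bounded as soon as it is effective of bounded degree on places
(the shape of `PullBound.exists_bound_pullback`). -/
theorem isBddMap_pullbackAlong [HasPrincipalDivisors K F'] (φ : F →ₐ[K] F')
    (hφ : φ.toRingHom.IsIntegral) {B : ℤ}
    (h : ∀ P : Place K F, 0 ≤ Divisor.pullbackAlong φ hφ (Finsupp.single P 1) ∧
      Divisor.degree (Divisor.pullbackAlong φ hφ (Finsupp.single P 1)) ≤ B) :
    IsBddMap (Divisor.pullbackAlong φ hφ) B.toNat :=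
  ⟨fun P => (h P).1, fun P => (h P).2.trans (Int.self_le_toNat B)⟩

theorem isBddMap_rhoDiv [HasPrincipalDivisors K F'] (φ : F →ₐ[K] F')
    (hφ : φ.toRingHom.IsIntegral) (r' : Place K F' → Place k Fb)
    (hdeg' : ∀ w : Place K F', w.deg = 1) (hk : ∀ Q : Place k Fb, Q.deg = 1) {B : ℕ}
    (h : IsBddMap (Divisor.pullbackAlong φ hφ) B) : IsBddMap (rhoDiv φ hφ r') (1 * B) :=
  (isBddMap_mapDomain hk r').comp h hdeg'

theorem isBddMap_correspondence {FM : Type*} [Field FM] [Algebra K FM]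
    [HasPrincipalDivisors K FM] (α β : F →ₐ[K] FM)
    (hα : α.toRingHom.IsIntegral) (hβ : β.toRingHom.IsIntegral)
    (hdegM : ∀ w : Place K FM, w.deg = 1) {B : ℕ}
    (h : IsBddMap (Divisor.pullbackAlong β hβ) B) :
    IsBddMap (Divisor.correspondence β α hβ hα) (1 * B) :=
  (isBddMap_pushforwardAlong α hα hdegM).comp h hdegM

theorem IsBddMap.nsmul {K₁ F₁ K₂ F₂ : Type*} [Field K₁] [Field F₁] [Algebra K₁ F₁]
    [Field K₂] [Field F₂] [Algebra K₂ F₂] {ρ : Divisor K₁ F₁ →+ Divisor K₂ F₂} {d : ℕ}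
    (h : IsBddMap ρ d) (n : ℕ) : IsBddMap (n • ρ) (n * d) where
  nonneg P := by
    rw [AddMonoidHom.smul_apply]
    exact smul_nonneg (Nat.zero_le n) (h.nonneg P)
  degree_le P := by
    rw [AddMonoidHom.smul_apply, map_nsmul]
    have := h.degree_le P
    push_cast
    rw [nsmul_eq_mul]
    exact mul_le_mul_of_nonneg_left this (by positivity)

end Bounds

end Fermat.Agent.S37.E3
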