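import Mathlib
import Fermat.Prelude.Def_AlgebraicCurve_Correspondence
import Fermat.Agent.S18.RPrimeBasic

/-!
# S37, piece (C-bound): the pullback of a place has bounded degree

For a function field `F / K` satisfying Riemann's theorem (`CurveRR K F g`) and an integral
`K`-embedding `φ : F → F'` into a field with principal divisors of degree `0`, the effective
divisors `φ^* P` (`P` a place of `F`) have bounded degree.  No fundamental identity is used: for
`P ≠ P₀` a function `y ≠ 0` in `L((2 g + 1) P₀ - P)` gives
`0 = deg div (φ y) ≥ deg φ^* P - (2 g + 1) deg φ^* P₀`.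
-/

set_option autoImplicit false
set_option linter.style.haveILetI false
set_option linter.unusedSectionVars false

open AlgebraicCurve

noncomputable section

namespace Fermat.Agent.S37.PullBound

open Fermat.Agent.S18.RPrime

section General

variable {K F : Type*} [Field K] [Field F] [Algebra K F]

/-- the degree of an effective divisor is nonnegative (no hypothesis on the places). -/
theorem degree_nonneg_of_nonneg {D : Divisor K F} (hD : 0 ≤ D) : 0 ≤ Divisor.degree D := by
  have h : Divisor.degree D = D.sum fun v n => n * (v.deg : ℤ) := by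
    rw [Divisor.degree, Finsupp.liftAddHom_apply]
    rfl
  rw [h]
  refine Finset.sum_nonneg fun v _ => ?_
  have := Finsupp.le_def.mp hD v
  simp only [Finsupp.coe_zero, Pi.zero_apply] at this
  positivity

/-- each coefficient of an effective divisor with places of positive degree is at most the
degree. -/
theorem apply_le_degree (hdeg : ∀ v : Place K F, 0 < v.deg) {D : Divisor K F} (hD : 0 ≤ D)
    (v : Place K F) : D v ≤ Divisor.degree D := by
  classical
  have h : Divisor.degree D = D.sum fun v n => n * (v.deg : ℤ) := by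
    rw [Divisor.degree, Finsupp.liftAddHom_apply]
    rfl
  have hnn : ∀ w : Place K F, 0 ≤ D w := fun w => by
    have := Finsupp.le_def.mp hD w
    simpa using this
  by_cases hv : v ∈ D.support
  · rw [h, Finsupp.sum]
    have h1 : D v * (v.deg : ℤ) ≤ ∑ w ∈ D.support, D w * (w.deg : ℤ) :=
      Finset.single_le_sum (f := fun w => D w * (w.deg : ℤ))
        (fun w _ => mul_nonneg (hnn w) (by positivity)) hv
    have h2 : D v ≤ D v * (v.deg : ℤ) := by
      have h3 : (1 : ℤ) ≤ (v.deg : ℤ) := by exact_mod_cast hdeg v
      nlinarith [hnn v]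
    omega
  · rw [Finsupp.notMem_support_iff.mp hv]
    exact degree_nonneg_of_nonneg hD

end General

section Alg

variable {K F F' : Type*} [Field K] [Field F] [Field F'] [Algebra K F] [Algebra K F']
  [Algebra F F'] [IsScalarTower K F F'] [Algebra.IsIntegral F F'] [HasPrincipalDivisors K F']

theorem pullback_nonneg {D : Divisor K F} (hD : 0 ≤ D) : 0 ≤ Divisor.pullback F' D := by
  rw [Finsupp.le_def]
  intro w
  rw [Divisor.pullback_apply]
  have := Finsupp.le_def.mp hD (w.restrict F)
  simp only [Finsupp.coe_zero, Pi.zero_apply] at this ⊢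
  positivity

/-- the divisor of `y ≠ 0` with `y ∈ L(D)`: `φ^* D + div (φ y) ≥ 0`, hence `deg φ^* D ≥ 0`. -/
theorem degree_pullback_nonneg_of_mem_L {D : Divisor K F} {y : F} (hy : y ≠ 0)
    (hyD : y ∈ riemannRochSpace D) : 0 ≤ Divisor.degree (Divisor.pullback F' D) := by
  obtain ⟨E, hE, hE0⟩ := HasPrincipalDivisors.exists_divisor (K := K)
    (algebraMap F F' y) (by simpa using hy)
  have hle : 0 ≤ E + Divisor.pullback F' D := by
    rw [Finsupp.le_def]
    intro w
    rw [Finsupp.add_apply, hE w, Divisor.pullback_apply, Place.ord_restrict]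
    have h1 := (mem_L_iff hy).mp hyD (w.restrict F)
    have h2 : (0 : ℤ) ≤ (Place.ramificationIndex (F := F) w : ℤ) := by positivity
    simp only [Finsupp.coe_zero, Pi.zero_apply]
    nlinarith
  have := degree_nonneg_of_nonneg hle
  rw [map_add, hE0, zero_add] at this
  exact this

theorem exists_bound_pullback_alg {g : ℕ} (hK : CurveRR K F g) :
    ∃ B : ℤ, ∀ P : Place K F, 0 ≤ Divisor.pullback F' (Finsupp.single P 1) ∧
      Divisor.degree (Divisor.pullback F' (Finsupp.single P 1)) ≤ B := by
  obtain ⟨P₀⟩ := hK.nonempty
  refine ⟨(2 * (g : ℤ) + 1) * Divisor.degree (Divisor.pullback F' (Finsupp.single P₀ 1)),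
    fun P => ⟨pullback_nonneg ?_, ?_⟩⟩
  · rw [Finsupp.le_def]
    intro v
    simp only [Finsupp.coe_zero, Pi.zero_apply]
    classical
    rw [Finsupp.single_apply]
    split_ifs <;> norm_num
  · set D : Divisor K F := (2 * (g : ℤ) + 1) • Finsupp.single P₀ 1 - Finsupp.single P 1 with hD
    have hdeg : Divisor.degree D = 2 * (g : ℤ) := by
      rw [hD, map_sub, map_zsmul, degree_single_one hK.deg_one, degree_single_one hK.deg_one]
      simp
    obtain ⟨y, hyD, hy⟩ := exists_ne_zero_mem_L hK (D := D) (by rw [hdeg])
    have := degree_pullback_nonneg_of_mem_L (F' := F') hy hyD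
    rw [hD, map_sub, map_zsmul, map_sub, map_zsmul] at this
    simp only [smul_eq_mul] at this
    linarith

end Alg

section Along

variable {K F F' : Type*} [Field K] [Field F] [Field F'] [Algebra K F] [Algebra K F']
  [HasPrincipalDivisors K F']

/-- **(C-bound)**: the pullbacks of the places along an integral embedding are effective of
bounded degree. -/
theorem exists_bound_pullback (φ : F →ₐ[K] F') (hφ : φ.toRingHom.IsIntegral) {g : ℕ}
    (hK : CurveRR K F g) :
    ∃ B : ℤ, ∀ P : Place K F, 0 ≤ Divisor.pullbackAlong φ hφ (Finsupp.single P 1) ∧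
      Divisor.degree (Divisor.pullbackAlong φ hφ (Finsupp.single P 1)) ≤ B := by
  letI := algebraAlong φ
  haveI := isScalarTower_along φ
  haveI := isIntegral_along φ hφ
  exact exists_bound_pullback_alg (F' := F') hK

/-- the value of `pullbackAlong` at a place. -/
theorem pullbackAlong_apply (φ : F →ₐ[K] F') (hφ : φ.toRingHom.IsIntegral)
    (D : Divisor K F) (w : Place K F') :
    Divisor.pullbackAlong φ hφ D w =
      (letI := algebraAlong φ
       haveI := isScalarTower_along φ
       haveI := isIntegral_along φ hφ
       (Place.ramificationIndex (F := F) w : ℤ) * D (w.restrict F)) := by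
  letI := algebraAlong φ
  haveI := isScalarTower_along φ
  haveI := isIntegral_along φ hφ
  exact Divisor.pullback_apply D w

theorem pullbackAlong_nonneg (φ : F →ₐ[K] F') (hφ : φ.toRingHom.IsIntegral)
    {D : Divisor K F} (hD : 0 ≤ D) : 0 ≤ Divisor.pullbackAlong φ hφ D := by
  letI := algebraAlong φ
  haveI := isScalarTower_along φ
  haveI := isIntegral_along φ hφ
  exact pullback_nonneg (F' := F') hD

end Along

section MapDomain

variable {K F : Type*} [Field K] [Field F] [Algebra K F]
variable {k Fb : Type*} [Field k] [Field Fb] [Algebra k Fb]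

/-- pushing an effective divisor forward along any map of places keeps it effective, and each
coefficient is bounded by the degree (places of positive degree). -/
theorem mapDomain_nonneg (r : Place K F → Place k Fb) {D : Divisor K F} (hD : 0 ≤ D)
    (Q : Place k Fb) : 0 ≤ Finsupp.mapDomain r D Q := by
  classical
  rw [Finsupp.mapDomain, Finsupp.sum_apply, Finsupp.sum]
  refine Finset.sum_nonneg fun v _ => ?_
  have := Finsupp.le_def.mp hD v
  simp only [Finsupp.coe_zero, Pi.zero_apply] at this
  rw [Finsupp.single_apply]
  split_ifs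
  · exact this
  · exact le_rfl

theorem mapDomain_le_degree (hdeg : ∀ v : Place K F, 0 < v.deg) (r : Place K F → Place k Fb)
    {D : Divisor K F} (hD : 0 ≤ D) (Q : Place k Fb) :
    Finsupp.mapDomain r D Q ≤ Divisor.degree D := by
  classical
  have h : Divisor.degree D = D.sum fun v n => n * (v.deg : ℤ) := by
    rw [Divisor.degree, Finsupp.liftAddHom_apply]
    rfl
  have hnn : ∀ w : Place K F, 0 ≤ D w := fun w => by
    have := Finsupp.le_def.mp hD w
    simpa using this
  rw [Finsupp.mapDomain, Finsupp.sum_apply, Finsupp.sum, h, Finsupp.sum]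
  refine Finset.sum_le_sum fun v _ => ?_
  have h3 : (1 : ℤ) ≤ (v.deg : ℤ) := by exact_mod_cast hdeg v
  rw [Finsupp.single_apply]
  split_ifs
  · nlinarith [hnn v]
  · exact mul_nonneg (hnn v) (by positivity)

end MapDomain

section Corollary

variable {K F F' : Type*} [Field K] [Field F] [Field F'] [Algebra K F] [Algebra K F']
  [HasPrincipalDivisors K F']
variable {k Fb : Type*} [Field k] [Field Fb] [Algebra k Fb]

/-- **(C-bound), corollary**: for any map of places `r`, the coefficients of
`r_* (φ^* P)` are in `[0, B]`, with `B` independent of `P`. -/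
theorem exists_bound_mapDomain_pullback (φ : F →ₐ[K] F') (hφ : φ.toRingHom.IsIntegral) {g : ℕ}
    (hK : CurveRR K F g) (hdeg' : ∀ w : Place K F', 0 < w.deg) :
    ∃ B : ℤ, ∀ (r : Place K F' → Place k Fb) (P : Place K F) (Q : Place k Fb),
      0 ≤ Finsupp.mapDomain r (Divisor.pullbackAlong φ hφ (Finsupp.single P 1)) Q ∧
        Finsupp.mapDomain r (Divisor.pullbackAlong φ hφ (Finsupp.single P 1)) Q ≤ B := by
  obtain ⟨B, hB⟩ := exists_bound_pullback φ hφ hK
  exact ⟨B, fun r P Q => ⟨mapDomain_nonneg r (hB P).1 Q,
    (mapDomain_le_degree hdeg' r (hB P).1 Q).trans (hB P).2⟩⟩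

end Corollary

end Fermat.Agent.S37.PullBound
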