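import Mathlib
import Fermat.Prelude.Def_ModularCurve_HeckeModule
import Fermat.Agent.S37.E0Modular
import Fermat.Agent.S37.ESFun
import Fermat.Agent.S37.PullBound
import Fermat.Agent.S18.GenusAsm

/-!
# S37, piece (W3): the Hecke operator on classes of divisors

* `heckeOperatorBar_mk` : `T_ℓ [D] = [α_* β^* D]` on `J₀(N) = Pic⁰(F_N / ℚ̄)`;
* `exists_isBddMap_heckeDivBar` : the correspondence `α_* β^*` sends places to effective
  divisors of bounded degree.
-/

set_option autoImplicit false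
set_option linter.style.haveILetI false
set_option linter.unusedSectionVars false

open AlgebraicCurve ModularCurve

noncomputable section

namespace Fermat.Agent.S37.HeckePic

open Fermat.Agent.S18 Fermat.Agent.S37.E3

local notation "Kbar" => AlgebraicClosure ℚ

section Level

variable (N ℓ : ℕ) [NeZero N] [NeZero ℓ]

/-- the divisor `α_* β^* D` has degree `0` if `D` has. -/
theorem heckeDivBar_mem_degZero
    [HasPrincipalDivisors Kbar ↥(modularFunctionFieldBar (N * ℓ))]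
    (hα : HeckeAlphaBarIntegral Kbar N ℓ) (hβ : HeckeBetaBarIntegral Kbar N ℓ)
    {D : Divisor Kbar ↥(modularFunctionFieldBar N)}
    (hD : D ∈ Divisor.degZero (K := Kbar) (F := ↥(modularFunctionFieldBar N))) :
    heckeDivBar hα hβ D ∈ Divisor.degZero (K := Kbar) (F := ↥(modularFunctionFieldBar N)) :=
  Divisor.correspondence_mem_degZero (heckeBetaBar Kbar N ℓ) (heckeAlphaBar Kbar N ℓ) hβ hα
    (E0M.fundamentalIdentityAlong_beta N ℓ) hD

/-- `T_ℓ [D] = [α_* β^* D]`, for the operator `heckeOperatorAlong`. -/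
theorem heckeOperatorAlong_mk
    [HasPrincipalDivisors Kbar ↥(modularFunctionFieldBar (N * ℓ))]
    (hα : HeckeAlphaBarIntegral Kbar N ℓ) (hβ : HeckeBetaBarIntegral Kbar N ℓ)
    (D : Divisor.degZero (K := Kbar) (F := ↥(modularFunctionFieldBar N)))
    (h : heckeDivBar hα hβ (D : Divisor Kbar ↥(modularFunctionFieldBar N)) ∈
      Divisor.degZero (K := Kbar) (F := ↥(modularFunctionFieldBar N))) :
    heckeOperatorAlong Kbar N ℓ (Pic0.mk D) =
      Pic0.mk ⟨heckeDivBar hα hβ (D : Divisor Kbar ↥(modularFunctionFieldBar N)), h⟩ := by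
  rw [heckeOperatorAlong_eq hα hβ (E0M.fundamentalIdentityAlong_beta N ℓ)
    (E0M.finiteAlong_alpha N ℓ) (E0M.normFormulaAlong_alpha N ℓ)]
  rfl

/-- the correspondence `α_* β^*` sends places to effective divisors of bounded degree. -/
theorem exists_isBddMap_heckeDivBar
    [HasPrincipalDivisors Kbar ↥(modularFunctionFieldBar (N * ℓ))]
    (hα : HeckeAlphaBarIntegral Kbar N ℓ) (hβ : HeckeBetaBarIntegral Kbar N ℓ) :
    ∃ B : ℕ, IsBddMap (heckeDivBar hα hβ) B := by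
  obtain ⟨B, hB⟩ := PullBound.exists_bound_pullback (heckeBetaBar Kbar N ℓ) hβ
    (GenusAsm.curveRR_zero N)
  exact ⟨1 * B.toNat, isBddMap_correspondence (heckeAlphaBar Kbar N ℓ) (heckeBetaBar Kbar N ℓ)
    hα hβ (E0M.deg_eq_one_bar (N * ℓ)) (isBddMap_pullbackAlong (heckeBetaBar Kbar N ℓ) hβ hB)⟩

end Level

section Primes

variable (N : ℕ) [NeZero N] (ℓ : Nat.Primes)

/-- **(W3)**: `T_ℓ [D] = [α_* β^* D]` on `J₀(N)`, for the prelude operator `heckeOperatorBar`. -/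
theorem heckeOperatorBar_mk
    (D : Divisor.degZero (K := Kbar) (F := ↥(modularFunctionFieldBar N))) :
    haveI : NeZero (ℓ : ℕ) := ⟨ℓ.2.ne_zero⟩
    haveI := E0M.hasPrincipalDivisors_bar (N * (ℓ : ℕ))
    heckeOperatorBar N ℓ (Pic0.mk D) =
      Pic0.mk ⟨heckeDivBar (E0M.alphaIntegral N ℓ) (E0M.betaIntegral N ℓ)
          (D : Divisor Kbar ↥(modularFunctionFieldBar N)),
        heckeDivBar_mem_degZero N ℓ (E0M.alphaIntegral N ℓ) (E0M.betaIntegral N ℓ) D.2⟩ := by
  haveI : NeZero (ℓ : ℕ) := ⟨ℓ.2.ne_zero⟩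
  haveI := E0M.hasPrincipalDivisors_bar (N * (ℓ : ℕ))
  rw [heckeOperatorBar_apply]
  exact heckeOperatorAlong_mk N ℓ (E0M.alphaIntegral N ℓ) (E0M.betaIntegral N ℓ) D _

/-- the same with `ℓ` a prime number given with its proof. -/
theorem heckeOperatorBar_mk' (ℓ : ℕ) (hℓ : ℓ.Prime)
    (D : Divisor.degZero (K := Kbar) (F := ↥(modularFunctionFieldBar N))) :
    haveI : NeZero ℓ := ⟨hℓ.ne_zero⟩
    haveI := E0M.hasPrincipalDivisors_bar (N * ℓ)
    heckeOperatorBar N ⟨ℓ, hℓ⟩ (Pic0.mk D) =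
      Pic0.mk ⟨heckeDivBar (E0M.alphaIntegral N ℓ) (E0M.betaIntegral N ℓ)
          (D : Divisor Kbar ↥(modularFunctionFieldBar N)),
        heckeDivBar_mem_degZero N ℓ (E0M.alphaIntegral N ℓ) (E0M.betaIntegral N ℓ) D.2⟩ :=
  heckeOperatorBar_mk N ⟨ℓ, hℓ⟩ D

/-- bound for the Hecke correspondence at the instances of `E0Modular`. -/
theorem exists_isBddMap_heckeDivBar' (ℓ : ℕ) (hℓ : ℓ.Prime) :
    haveI : NeZero ℓ := ⟨hℓ.ne_zero⟩
    haveI := E0M.hasPrincipalDivisors_bar (N * ℓ)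
    ∃ B : ℕ, IsBddMap (heckeDivBar (E0M.alphaIntegral N ℓ) (E0M.betaIntegral N ℓ)) B := by
  haveI : NeZero ℓ := ⟨hℓ.ne_zero⟩
  haveI := E0M.hasPrincipalDivisors_bar (N * ℓ)
  exact exists_isBddMap_heckeDivBar N ℓ _ _

end Primes

end Fermat.Agent.S37.HeckePic
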