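import Mathlib
import Fermat.Agent.S18.Char0Genus
import Fermat.Prelude.Def_ModularCurve_HeckeOperator

/-!
# S37, piece (E1-x2): `[F_{Nℓ} : F_N] = ℓ + 1` along `α`

For a prime `ℓ ∤ N`: with the `F_N`-algebra structure on `F_{Nℓ}` given by
`heckeAlphaBar` (the inclusion), `F_{Nℓ}` is finite dimensional of degree `ℓ + 1` over `F_N`
(tower law over `ℚ̄(j)`, `ψ(Nℓ) = (ℓ + 1) ψ(N)`).
-/

set_option autoImplicit false
set_option linter.style.haveILetI false

noncomputable section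

open HahnSeries ModularCurve AlgebraicCurve IntermediateField

namespace Fermat.Agent.S37.Kron

open Fermat.Agent.S18 Fermat.Agent.FF

/-- the tower law for a ring homomorphism `α : F → E` compatible with an isomorphism of
subfields. -/
theorem finrank_tower_abstract {K₀ F E K₁ : Type*} [Field K₀] [Field F] [Field E] [Field K₁]
    [Algebra K₀ F] [Algebra K₁ E] (α : F →+* E) (i : K₀ ≃+* K₁)
    (hc : ∀ c, α (algebraMap K₀ F c) = algebraMap K₁ E (i c)) :
    Module.finrank K₀ F * (letI := α.toAlgebra; Module.finrank F E) = Module.finrank K₁ E := by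
  letI a1 : Algebra F E := α.toAlgebra
  letI a2 : Algebra K₀ E := (α.comp (algebraMap K₀ F)).toAlgebra
  haveI : IsScalarTower K₀ F E := IsScalarTower.of_algebraMap_eq (fun x => rfl)
  have h2 : Module.finrank K₀ E = Module.finrank K₁ E := by
    refine Algebra.finrank_eq_of_equiv_equiv i (RingEquiv.refl _) ?_
    ext c
    exact (hc c).symm
  rw [← h2]
  exact Module.finrank_mul_finrank K₀ F E

variable (N ℓ : ℕ) [NeZero N] [NeZero ℓ]

/-- `α (j) = j`. -/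
theorem heckeAlphaBar_jBar :
    heckeAlphaBar Kbar N ℓ (jBar N) = jBar (N * ℓ) := by
  apply Subtype.ext
  rw [coe_heckeAlphaBar]
  rfl

/-- the isomorphism `ℚ̄(j) ≃ ℚ̄(j)` between the subfields of `F_N` and `F_{Nℓ}` induced by `α` -/
def jEquiv : ↥Kbar⟮jBar N⟯ ≃ₐ[Kbar] ↥Kbar⟮jBar (N * ℓ)⟯ :=
  ((Kbar⟮jBar N⟯).equivMap (heckeAlphaBar Kbar N ℓ)).trans
    (IntermediateField.equivOfEq (by
      rw [IntermediateField.adjoin_map, Set.image_singleton, heckeAlphaBar_jBar]))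

theorem coe_jEquiv (c : ↥Kbar⟮jBar N⟯) :
    ((jEquiv N ℓ c : ↥Kbar⟮jBar (N * ℓ)⟯) : FN (N * ℓ)) = heckeAlphaBar Kbar N ℓ (c : FN N) :=
  rfl

/-- **(E1-x2)**: `[F_{Nℓ} : F_N] = ℓ + 1` for a prime `ℓ ∤ N`. -/
theorem finrank_along (hℓ : ℓ.Prime) (hℓN : ¬ ℓ ∣ N) :
    letI := algebraAlong (heckeAlphaBar Kbar N ℓ)
    Module.finrank (FN N) (FN (N * ℓ)) = ℓ + 1 := by
  letI a1 : Algebra (FN N) (FN (N * ℓ)) := algebraAlong (heckeAlphaBar Kbar N ℓ)
  have h1 : Module.finrank ↥Kbar⟮jBar N⟯ (FN N) = dedekindPsi N := Char0.finrank_jBar N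
  have h2 : Module.finrank ↥Kbar⟮jBar (N * ℓ)⟯ (FN (N * ℓ)) = dedekindPsi (N * ℓ) :=
    Char0.finrank_jBar (N * ℓ)
  have h3 := finrank_tower_abstract (heckeAlphaBar Kbar N ℓ).toRingHom
    (jEquiv N ℓ).toRingEquiv (fun c => rfl)
  rw [h1, h2, dedekindPsi_mul_of_not_dvd N ℓ (NeZero.ne N) hℓ hℓN] at h3
  have hpos : 0 < dedekindPsi N := by
    rw [← Fermat.Agent.FF.card_X_eq N]
    exact Nat.card_pos
  have h4 : dedekindPsi N * Module.finrank (FN N) (FN (N * ℓ)) = dedekindPsi N * (ℓ + 1) := by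
    rw [h3]
    ring
  exact Nat.eq_of_mul_eq_mul_left hpos h4

theorem finiteDimensional_along (hℓ : ℓ.Prime) (hℓN : ¬ ℓ ∣ N) :
    letI := algebraAlong (heckeAlphaBar Kbar N ℓ)
    FiniteDimensional (FN N) (FN (N * ℓ)) := by
  letI a1 : Algebra (FN N) (FN (N * ℓ)) := algebraAlong (heckeAlphaBar Kbar N ℓ)
  have h := finrank_along N ℓ hℓ hℓN
  exact Module.finite_of_finrank_pos (by rw [h]; omega)

theorem finiteAlong (hℓ : ℓ.Prime) (hℓN : ¬ ℓ ∣ N) :
    FiniteAlong Kbar (heckeAlphaBar Kbar N ℓ) :=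
  finiteDimensional_along N ℓ hℓ hℓN

end Fermat.Agent.S37.Kron
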