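/-
S37 (item 88), piece (E1)-(d) ABSTRACT (helper4): the norm of a finite separable extension
is the product of `n` pairwise distinct embeddings into ANY field `Ω` (not necessarily
algebraically closed), as soon as `finrank ≤ n`.
-/
import Mathlib

set_option autoImplicit false

noncomputable section

namespace Fermat.Agent.S37.KronEmb

variable {K E Ω : Type*} [Field K] [Field E] [Field Ω] [Algebra K E]

/-- the `K`-algebra structure on the algebraic closure of `Ω` given by `ι : K →+* Ω`. -/
abbrev algOfHom (ι : K →+* Ω) : Algebra K (AlgebraicClosure Ω) :=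
  ((algebraMap Ω (AlgebraicClosure Ω)).comp ι).toAlgebra

/-- an embedding `E →+* Ω` over `ι` as a `K`-algebra map into the algebraic closure. -/
def toAlgHomBar (ι : K →+* Ω) (τ : E →+* Ω) (h : τ.comp (algebraMap K E) = ι) :
    letI := algOfHom ι
    E →ₐ[K] AlgebraicClosure Ω :=
  letI := algOfHom ι
  { (algebraMap Ω (AlgebraicClosure Ω)).comp τ with
    commutes' := fun a => by
      show algebraMap Ω (AlgebraicClosure Ω) (τ (algebraMap K E a)) =
        algebraMap Ω (AlgebraicClosure Ω) (ι a)
      rw [← h]; rfl }

theorem toAlgHomBar_apply (ι : K →+* Ω) (τ : E →+* Ω) (h : τ.comp (algebraMap K E) = ι) (x : E) :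
    (toAlgHomBar ι τ h) x = algebraMap Ω (AlgebraicClosure Ω) (τ x) := rfl

variable [FiniteDimensional K E] [Algebra.IsSeparable K E]

/-- `n` distinct embeddings over `ι` force `n ≤ finrank`. -/
theorem le_finrank_of_embeddings (ι : K →+* Ω) {n : ℕ} (τ : Fin n → E →+* Ω)
    (hτ : Function.Injective τ) (hι : ∀ i, (τ i).comp (algebraMap K E) = ι) :
    n ≤ Module.finrank K E := by
  letI := algOfHom ι
  have hinj : Function.Injective (fun i : Fin n => toAlgHomBar ι (τ i) (hι i)) := by
    intro i j hij
    apply hτ
    ext x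
    have := DFunLike.congr_fun hij x
    simp only [toAlgHomBar_apply] at this
    exact (algebraMap Ω (AlgebraicClosure Ω)).injective this
  have hcard := AlgHom.card K E (AlgebraicClosure Ω)
  have := Fintype.card_le_of_injective _ hinj
  rw [Fintype.card_fin] at this
  calc n ≤ Fintype.card (E →ₐ[K] AlgebraicClosure Ω) := this
    _ = Module.finrank K E := hcard

/-- **norm = product of the embeddings.** -/
theorem norm_eq_prod_of_embeddings (ι : K →+* Ω) {n : ℕ} (τ : Fin n → E →+* Ω)
    (hτ : Function.Injective τ) (hι : ∀ i, (τ i).comp (algebraMap K E) = ι)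
    (hn : Module.finrank K E ≤ n) (x : E) :
    ι (Algebra.norm K x) = ∏ i, τ i x := by
  letI := algOfHom ι
  have hinj : Function.Injective (fun i : Fin n => toAlgHomBar ι (τ i) (hι i)) := by
    intro i j hij
    apply hτ
    ext x
    have := DFunLike.congr_fun hij x
    simp only [toAlgHomBar_apply] at this
    exact (algebraMap Ω (AlgebraicClosure Ω)).injective this
  have hcard := AlgHom.card K E (AlgebraicClosure Ω)
  have hbij : Function.Bijective (fun i : Fin n => toAlgHomBar ι (τ i) (hι i)) := by
    rw [Fintype.bijective_iff_injective_and_card]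
    refine ⟨hinj, ?_⟩
    rw [Fintype.card_fin, hcard]
    exact le_antisymm (le_finrank_of_embeddings ι τ hτ hι) hn
  have hnorm := Algebra.norm_eq_prod_embeddings K (AlgebraicClosure Ω) x
  apply (algebraMap Ω (AlgebraicClosure Ω)).injective
  rw [map_prod]
  have e1 : algebraMap Ω (AlgebraicClosure Ω) (ι (Algebra.norm K x)) =
      algebraMap K (AlgebraicClosure Ω) (Algebra.norm K x) := rfl
  rw [e1, hnorm]
  symm
  exact Fintype.prod_bijective _ hbij _ _ (fun i => rfl)

/-- the degree is forced. -/
theorem finrank_eq_of_embeddings (ι : K →+* Ω) {n : ℕ} (τ : Fin n → E →+* Ω)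
    (hτ : Function.Injective τ) (hι : ∀ i, (τ i).comp (algebraMap K E) = ι)
    (hn : Module.finrank K E ≤ n) : Module.finrank K E = n :=
  le_antisymm hn (le_finrank_of_embeddings ι τ hτ hι)

end Fermat.Agent.S37.KronEmb
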