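import Mathlib
import Fermat.Agent.FF.ModRealEv
import Fermat.Agent.FF.ModDist
import Fermat.Agent.S28.UnitHNF
import Fermat.Agent.S28.JConj
import Fermat.Agent.S18.CuspLTwist
import Fermat.Prelude.Def_ModularCurve_HeckeOperator

/-!
# S37 (E1), part 1 (helper3): expansions of the conjugates of `F_{Nℓ}` over `F_N`

* `expL M`            : the expansion at `∞` on `LN M = Frac (RN M)`;
* `conjExp M γ`          : `F_M → ℚ̄((u))`, `f ↦` expansion of `f ∘ γ` (`u = q^(1/M)`);
* `ringHom_ext_FN`    : two ring homomorphisms on `F_N` which agree on the constants and on the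
                        generators `j(dτ)`, `d ∣ N`, are equal;
* `conjExp_one`          : `conjExp M 1 f = qExpand M f`.
-/

set_option autoImplicit false
set_option linter.unusedSectionVars false
set_option linter.style.haveILetI false

open scoped MatrixGroups
open UpperHalfPlane hiding I

namespace Fermat.Agent.S37.Kron

open Fermat.Agent.FF Fermat.Agent.S28 ModularCurve

section expL

variable (M : ℕ) [NeZero M]

/-- the expansion at `∞` on the fraction field `LN M` -/
noncomputable def expL : LN M →+* LaurentSeries Kbar :=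
  IsFractionRing.lift (expInf_injective M)

theorem expL_algebraMap (r : RN M) : expL M (algebraMap (RN M) (LN M) r) = expInf M r :=
  IsFractionRing.lift_algebraMap _ _

theorem expL_const (c : Kbar) : expL M (algebraMap Kbar (LN M) c) = HahnSeries.C c := by
  rw [IsScalarTower.algebraMap_apply Kbar (RN M) (LN M), expL_algebraMap, expInf_algebraMap]

theorem expL_PhiN (f : FN M) : expL M (PhiN M f) = qExpand Kbar M (f : LaurentSeries Kbar) := by
  obtain ⟨A, B, -, -, -, hf, hq⟩ := exists_PhiN_eq_div M f
  rw [hf, map_div₀, expL_algebraMap, expL_algebraMap, hq]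

/-- the expansion at `∞` of `f ∘ γ` -/
noncomputable def conjExp (γ : SL(2, ℤ)) : FN M →+* LaurentSeries Kbar :=
  (expL M).comp ((sigmaL M γ).comp (PhiN M))

theorem conjExp_apply (γ : SL(2, ℤ)) (f : FN M) :
    conjExp M γ f = expL M (sigmaL M γ (PhiN M f)) := rfl

theorem conjExp_one (f : FN M) : conjExp M 1 f = qExpand Kbar M (f : LaurentSeries Kbar) := by
  rw [conjExp_apply, sigmaL_one, expL_PhiN]

theorem conjExp_const (γ : SL(2, ℤ)) (c : Kbar) :
    conjExp M γ (algebraMap Kbar (FN M) c) = HahnSeries.C c := by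
  rw [conjExp_apply, PhiN_map_const, sigmaL_const, expL_const]

theorem conjExp_JdF (γ : SL(2, ℤ)) (d : ℕ) [NeZero d] (hd : d ∣ M) :
    conjExp M γ (JdF M d hd) = expInf M (compSL M γ (jR M d hd)) := by
  rw [conjExp_apply, PhiN_Jd M d hd _ (JdF_coe M d hd), sigmaL_algebraMap, expL_algebraMap]

theorem conjExp_of_mem_Gamma0 (γ : SL(2, ℤ)) (hγ : γ ∈ CongruenceSubgroup.Gamma0 M) (f : FN M) :
    conjExp M γ f = qExpand Kbar M (f : LaurentSeries Kbar) := by
  rw [conjExp_apply, PhiN_invariant M γ hγ, expL_PhiN]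

end expL

section ext

variable (N : ℕ) [NeZero N]

/-- two ring homomorphisms on `F_N` which agree on the constants and on the generators are
equal -/
theorem ringHom_ext_FN {E : Type*} [DivisionRing E] (φ₁ φ₂ : FN N →+* E)
    (hc : ∀ c : Kbar, φ₁ (algebraMap Kbar (FN N) c) = φ₂ (algebraMap Kbar (FN N) c))
    (hg : ∀ (d : ℕ) [NeZero d] (hd : d ∣ N), φ₁ (JdF N d hd) = φ₂ (JdF N d hd)) :
    φ₁ = φ₂ := by
  have key : ∀ (x : LaurentSeries Kbar) (hx : x ∈ IntermediateField.adjoin Kbar (genSet N))
      (hx' : x ∈ ModularCurve.modularFunctionFieldBar N),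
      φ₁ ⟨x, hx'⟩ = φ₂ ⟨x, hx'⟩ := by
    intro x hx
    induction hx using IntermediateField.adjoin_induction with
    | mem x hx =>
      intro hx'
      obtain ⟨d, hd0, hd, rfl⟩ := hx
      exact hg d hd
    | algebraMap c =>
      intro hx'
      exact hc c
    | add x y hx hy ihx ihy =>
      intro hx'
      have hxF : x ∈ ModularCurve.modularFunctionFieldBar N := by
        rw [modularFunctionFieldBar_eq_adjoin]; exact hx
      have hyF : y ∈ ModularCurve.modularFunctionFieldBar N := by
        rw [modularFunctionFieldBar_eq_adjoin]; exact hy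
      have e : (⟨x + y, hx'⟩ : FN N) = ⟨x, hxF⟩ + ⟨y, hyF⟩ := rfl
      rw [e, map_add, map_add, ihx hxF, ihy hyF]
    | inv x hx ihx =>
      intro hx'
      have hxF : x ∈ ModularCurve.modularFunctionFieldBar N := by
        rw [modularFunctionFieldBar_eq_adjoin]; exact hx
      have e : (⟨x⁻¹, hx'⟩ : FN N) = (⟨x, hxF⟩ : FN N)⁻¹ := rfl
      rw [e, map_inv₀, map_inv₀, ihx hxF]
    | mul x y hx hy ihx ihy =>
      intro hx'
      have hxF : x ∈ ModularCurve.modularFunctionFieldBar N := by
        rw [modularFunctionFieldBar_eq_adjoin]; exact hx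
      have hyF : y ∈ ModularCurve.modularFunctionFieldBar N := by
        rw [modularFunctionFieldBar_eq_adjoin]; exact hy
      have e : (⟨x * y, hx'⟩ : FN N) = ⟨x, hxF⟩ * ⟨y, hyF⟩ := rfl
      rw [e, map_mul, map_mul, ihx hxF, ihy hyF]
  ext f
  exact key f.1 (FN_le_adjoin N f.2) f.2

end ext

end Fermat.Agent.S37.Kron
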