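import Mathlib
import Fermat.Agent.S37.KronExp

/-!
# S37 (E1), part 2 (helper3): the conjugates of `F_{Nℓ}` over `F_N`

`α, β : F_N → F_{Nℓ}` the two degeneracy maps (`α` = inclusion, `β f = f(q^ℓ)`).
For `γ ∈ Γ₀(N)`:

* `conjExp_alpha` : `conjExp (Nℓ) γ (α y) = qExpand (Nℓ) y`  (so `f ↦ f ∘ γ` is an `F_N`-embedding);
* `conjExp_beta`  : if moreover `γ ∉ Γ₀(Nℓ)` then there is `ζ` with `ζ ^ ℓ = 1` and
                 `conjExp (Nℓ) γ (β y) = qExpand N (twHom ζ y)` for all `y ∈ F_N`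
                 (the expansion of `y ((τ + b) / ℓ)` is `y (ζ q^(1/ℓ))`).
-/

set_option autoImplicit false
set_option linter.unusedSectionVars false
set_option linter.style.haveILetI false

open scoped MatrixGroups
open UpperHalfPlane hiding I
open Complex Real

namespace Fermat.Agent.S37.Kron

open Fermat.Agent.FF Fermat.Agent.S28 Fermat.Agent.S18.CuspL ModularCurve

variable (N ℓ : ℕ) [NeZero N] [NeZero ℓ]

/-- `j(dτ)`, `d ∣ N`, is invariant under `Γ₀(N)` also at level `N ℓ` -/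
theorem compSL_jR_of_dvd (d : ℕ) [NeZero d] (hd : d ∣ N) (γ : SL(2, ℤ))
    (hγ : γ ∈ CongruenceSubgroup.Gamma0 N) :
    compSL (N * ℓ) γ (jR (N * ℓ) d (hd.trans (dvd_mul_right N ℓ))) =
      jR (N * ℓ) d (hd.trans (dvd_mul_right N ℓ)) := by
  apply RN.ext
  intro τ
  exact jFun_scale_eq_of_mem_Gamma0 N d hd γ hγ (fun τ => scaleH d (γ • τ)) (scaleH d)
    (fun τ => rfl) (fun τ => rfl) τ

theorem alpha_JdF (d : ℕ) [NeZero d] (hd : d ∣ N) :
    heckeAlphaBar Kbar N ℓ (JdF N d hd) = JdF (N * ℓ) d (hd.trans (dvd_mul_right N ℓ)) :=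
  Subtype.ext rfl

theorem coe_algebraMap_FN (M : ℕ) [NeZero M] (c : Kbar) :
    ((algebraMap Kbar (FN M) c : FN M) : LaurentSeries Kbar) = HahnSeries.C c := by
  show algebraMap Kbar (LaurentSeries Kbar) c = _
  rw [ModularCurve.algebraMap_laurentSeries_eq_single]
  rfl

/-- **(b)**: composition with `γ ∈ Γ₀(N)` is the identity on `F_N ⊂ F_{Nℓ}` -/
theorem conjExp_alpha (γ : SL(2, ℤ)) (hγ : γ ∈ CongruenceSubgroup.Gamma0 N) (y : FN N) :
    conjExp (N * ℓ) γ (heckeAlphaBar Kbar N ℓ y) =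
      qExpand Kbar (N * ℓ) (y : LaurentSeries Kbar) := by
  have h : (conjExp (N * ℓ) γ).comp (heckeAlphaBar Kbar N ℓ).toRingHom =
      (qExpand Kbar (N * ℓ)).comp (ModularCurve.modularFunctionFieldBar N).val.toRingHom := by
    apply ringHom_ext_FN
    · intro c
      show conjExp (N * ℓ) γ (heckeAlphaBar Kbar N ℓ (algebraMap Kbar (FN N) c)) =
        qExpand Kbar (N * ℓ) ((algebraMap Kbar (FN N) c : FN N) : LaurentSeries Kbar)
      rw [AlgHom.commutes, conjExp_const, coe_algebraMap_FN, qExpand_C]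
    · intro d _ hd
      show conjExp (N * ℓ) γ (heckeAlphaBar Kbar N ℓ (JdF N d hd)) =
        qExpand Kbar (N * ℓ) ((JdF N d hd : FN N) : LaurentSeries Kbar)
      rw [alpha_JdF, conjExp_JdF, compSL_jR_of_dvd N ℓ d hd γ hγ, expInf_jR, JdF_coe]
  exact congrArg (fun φ : FN N →+* LaurentSeries Kbar => φ y) h


theorem beta_JdF (d : ℕ) [NeZero d] (hd : d ∣ N) :
    heckeBetaBar Kbar N ℓ (JdF N d hd) =
      JdF (N * ℓ) (ℓ * d) (by rw [mul_comm N ℓ]; exact mul_dvd_mul_left ℓ hd) := by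
  apply Subtype.ext
  show qExpand Kbar ℓ (Jd d) = Jd (ℓ * d)
  rw [Jd, Jd, ← qExpand_qExpand d ℓ ModularCurve.jq]
  exact (ModularCurve.coeffMap_qExpand (algebraMap ℚ Kbar) ℓ _).symm

/-- formal: twisting commutes with `q ↦ q^d` -/
theorem dmul_qExpand {R : Type*} [Field R] (ξ : R) (d : ℕ) [NeZero d] (x : LaurentSeries R) :
    dmul (fun n : ℤ => ξ ^ n) (qExpand R d x) =
      qExpand R d (dmul (fun n : ℤ => (ξ ^ d) ^ n) x) := by
  ext n
  rw [dmul_coeff]
  by_cases h : (d : ℤ) ∣ n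
  · obtain ⟨m, rfl⟩ := h
    rw [qExpand_coeff_mul, qExpand_coeff_mul, dmul_coeff, zpow_mul, zpow_natCast]
  · rw [qExpand_coeff_of_not_dvd d _ h, qExpand_coeff_of_not_dvd d _ h, mul_zero]

theorem twHom_qExpand_pow {R : Type*} [Field R] (ξ : R) (hξ : ξ ≠ 0) (d : ℕ) [NeZero d]
    (x : LaurentSeries R) :
    twHom ξ hξ (qExpand R d x) = qExpand R d (twHom (ξ ^ d) (pow_ne_zero d hξ) x) :=
  dmul_qExpand ξ d x

theorem twHom_C {R : Type*} [Field R] (ξ : R) (hξ : ξ ≠ 0) (c : R) :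
    twHom ξ hξ (HahnSeries.C c) = HahnSeries.C c := by
  ext n
  rw [twHom_coeff]
  show ξ ^ n * (HahnSeries.single 0 c).coeff n = (HahnSeries.single 0 c).coeff n
  by_cases h : n = 0
  · rw [h, zpow_zero, one_mul]
  · rw [HahnSeries.coeff_single_of_ne h, mul_zero]

theorem zetaC_pow_nat (b : ℤ) (ℓ' d : ℕ) : zetaC b ℓ' ^ d = zetaC ((d : ℤ) * b) ℓ' := by
  rw [zetaC, zetaC, ← Complex.exp_nat_mul]
  congr 1
  push_cast
  ring

/-- **(c)**: the expansion of `(β y) ∘ γ`, `γ ∈ Γ₀(N) ∖ Γ₀(Nℓ)`, is `y(ζ q^(1/ℓ))` -/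
theorem conjExp_beta (hℓ : ℓ.Prime) (hℓN : ¬ ℓ ∣ N) (γ : SL(2, ℤ))
    (hγ : γ ∈ CongruenceSubgroup.Gamma0 N) (hγ' : γ ∉ CongruenceSubgroup.Gamma0 (N * ℓ)) :
    ∃ (ζ : Kbar) (hζ : ζ ≠ 0), ζ ^ ℓ = 1 ∧ ∀ y : FN N,
      conjExp (N * ℓ) γ (heckeBetaBar Kbar N ℓ y) =
        qExpand Kbar N (twHom ζ hζ (y : LaurentSeries Kbar)) := by
  have hℓpos : 0 < ℓ := hℓ.pos
  obtain ⟨δ, a, d', b, ha, hd', had, -, -, e10, -, hact⟩ := exists_hnf_scale_full ℓ hℓpos γ
  have hNγ : (N : ℤ) ∣ γ 1 0 := by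
    rw [CongruenceSubgroup.Gamma0_mem] at hγ
    exact (ZMod.intCast_zmod_eq_zero_iff_dvd _ _).mp hγ
  have ha1 : a = 1 := by
    rcases (Nat.dvd_prime hℓ).mp (Dvd.intro d' had) with h | h
    · exact h
    · exfalso
      apply hγ'
      rw [CongruenceSubgroup.Gamma0_mem]
      apply (ZMod.intCast_zmod_eq_zero_iff_dvd _ _).mpr
      have h1 : (ℓ : ℤ) ∣ γ 1 0 := by
        rw [e10, h]
        exact Dvd.intro_left _ rfl
      have hcop : IsCoprime (N : ℤ) (ℓ : ℤ) := by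
        rw [Int.isCoprime_iff_gcd_eq_one, Int.gcd_natCast_natCast]
        exact Nat.Coprime.symm ((Nat.Prime.coprime_iff_not_dvd hℓ).mpr hℓN)
      have := hcop.mul_dvd hNγ h1
      exact_mod_cast this
  subst ha1
  have hd'ℓ : d' = ℓ := by simpa using had
  subst hd'ℓ
  have hδ : δ ∈ CongruenceSubgroup.Gamma0 N := by
    rw [CongruenceSubgroup.Gamma0_mem]
    apply (ZMod.intCast_zmod_eq_zero_iff_dvd _ _).mpr
    have : δ 1 0 = γ 1 0 := by rw [e10]; simp
    rw [this]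
    exact hNγ
  obtain ⟨ζ, hζ⟩ := exists_preimage_of_pow_eq_one iotaK d' hd' (zetaC b d') (zetaC_pow b d' hd')
  have hζℓ : ζ ^ d' = 1 := by
    apply iotaK_injective
    rw [map_pow, hζ, zetaC_pow b d' hd', map_one]
  have hζ0 : ζ ≠ 0 := by
    rintro rfl
    rw [zero_pow hd'.ne'] at hζℓ
    exact zero_ne_one hζℓ
  refine ⟨ζ, hζ0, hζℓ, ?_⟩
  have h : (conjExp (N * d') γ).comp (heckeBetaBar Kbar N d').toRingHom =
      (qExpand Kbar N).comp ((twHom ζ hζ0).comp
        (ModularCurve.modularFunctionFieldBar N).val.toRingHom) := by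
    apply ringHom_ext_FN
    · intro c
      show conjExp (N * d') γ (heckeBetaBar Kbar N d' (algebraMap Kbar (FN N) c)) =
        qExpand Kbar N (twHom ζ hζ0 ((algebraMap Kbar (FN N) c : FN N) : LaurentSeries Kbar))
      rw [AlgHom.commutes, conjExp_const, coe_algebraMap_FN, twHom_C, qExpand_C]
    · intro d _ hd
      show conjExp (N * d') γ (heckeBetaBar Kbar N d' (JdF N d hd)) =
        qExpand Kbar N (twHom ζ hζ0 ((JdF N d hd : FN N) : LaurentSeries Kbar))
      rw [beta_JdF, conjExp_JdF, JdF_coe]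
      apply expInf_eq
      show IsExp (N * d') (iotaL _) _
      have hd0 : 0 < d := Nat.pos_of_ne_zero (NeZero.ne d)
      have h2 := isExp_jFun_affine d d' N ((d : ℤ) * b) hd0 hd'
      have hlev : 1 * d' * N = N * d' := by ring
      rw [hlev] at h2
      have hser : iotaL (qExpand Kbar N (twHom ζ hζ0 (Jd d))) =
          qExpand ℂ N (qExpand ℂ d
            (dmul (fun n => cexp (2 * π * I * (((d : ℤ) * b : ℤ) : ℂ) / (((1 : ℕ) : ℂ) * d')) ^ n)
              (ModularCurve.coeffEmb ℂ ModularCurve.jq))) := by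
        rw [iotaL, ModularCurve.coeffMap_qExpand, twHom_apply, coeffMap_dmul]
        congr 1
        have e1 : ModularCurve.coeffMap iotaK (Jd d) =
            qExpand ℂ d (ModularCurve.coeffEmb ℂ ModularCurve.jq) := by
          rw [Jd, ← iotaL, iotaL_coeffEmb]
          exact ModularCurve.coeffMap_qExpand (algebraMap ℚ ℂ) d ModularCurve.jq
        rw [e1]
        have e2 : (fun n : ℤ => iotaK (ζ ^ n)) = fun n : ℤ => (zetaC b d') ^ n := by
          funext n
          rw [map_zpow₀, hζ]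
        rw [e2, dmul_qExpand, zetaC_pow_nat]
        rfl
      rw [hser]
      refine h2.congr ?_
      intro τ
      have h3 := hact τ (scaleH d' (γ • τ)) (by simp)
      have h4 : scaleH (d' * d) (γ • τ) = scaleH d (scaleH d' (γ • τ)) := by
        apply UpperHalfPlane.ext
        simp only [coe_scaleH]
        push_cast
        ring
      show _ = jFun (scaleH (d' * d) (γ • τ))
      rw [h4, h3]
      rw [jFun_scale_eq_of_mem_Gamma0 N d hd δ hδ (fun σ => scaleH d (δ • σ)) (scaleH d)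
        (fun σ => rfl) (fun σ => rfl) (affineMap 1 d' b ha hd' τ)]
      congr 1
      apply UpperHalfPlane.ext
      simp only [coe_scaleH, coe_affineMap]
      have : (d' : ℂ) ≠ 0 := by exact_mod_cast hd'.ne'
      push_cast
      field_simp
  exact fun y => congrArg (fun φ : FN N →+* LaurentSeries Kbar => φ y) h

end Fermat.Agent.S37.Kron
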