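import Mathlib
import Fermat.Agent.S37.KronConj

/-!
# S37 (E1), part 3 (helper3): the `ℓ + 1` embeddings of `F_{Nℓ}` over `F_N`

`exists_family`: there are `ℓ + 1` pairwise distinct ring homomorphisms
`τ i : F_{Nℓ} → ℚ̄((u))`, `u = q^(1/(Nℓ))`, which all restrict to `y ↦ y(u^(Nℓ))` on `F_N`
(via `α`), with `τ 0 (β y) = y(u^(Nℓ²))` and `τ (b+1) (β y) = y(ζ_b u^N)`, `ζ_b ^ ℓ = 1`.
-/

set_option autoImplicit false
set_option linter.unusedSectionVars false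
set_option linter.style.haveILetI false

open scoped MatrixGroups
open UpperHalfPlane hiding I

namespace Fermat.Agent.S37.Kron

open Fermat.Agent.FF Fermat.Agent.S28 Fermat.Agent.S18.CuspL ModularCurve

section gamma

variable (N : ℕ)

/-- the matrix `(1 0; N 1)` -/
def gammaN : SL(2, ℤ) := ⟨!![1, 0; (N : ℤ), 1], by simp [Matrix.det_fin_two]⟩

theorem gammaN_apply : (gammaN N) 1 0 = (N : ℤ) := rfl

theorem gammaN_mem [NeZero N] : gammaN N ∈ CongruenceSubgroup.Gamma0 N := by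
  rw [CongruenceSubgroup.Gamma0_mem, gammaN_apply]
  simp

theorem gammaN_not_mem [NeZero N] (ℓ : ℕ) (hℓ : 1 < ℓ) :
    gammaN N ∉ CongruenceSubgroup.Gamma0 (N * ℓ) := by
  rw [CongruenceSubgroup.Gamma0_mem, gammaN_apply]
  intro h
  have h1 : ((N * ℓ : ℕ) : ℤ) ∣ (N : ℤ) := (ZMod.intCast_zmod_eq_zero_iff_dvd _ _).mp h
  have h2 : N * ℓ ∣ N := by exact_mod_cast h1
  have hN : 0 < N := Nat.pos_of_ne_zero (NeZero.ne N)
  have h3 := Nat.le_of_dvd hN h2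
  nlinarith

end gamma

section twist

variable {R : Type*} [Field R]

theorem twHom_twHom (a b : R) (ha : a ≠ 0) (hb : b ≠ 0) (x : LaurentSeries R) :
    twHom a ha (twHom b hb x) = twHom (a * b) (mul_ne_zero ha hb) x := by
  ext n
  rw [twHom_coeff, twHom_coeff, twHom_coeff, mul_zpow, mul_assoc]

theorem twSer_one_eq (e : ℕ) [NeZero e] (ξ : R) (hξ : ξ ≠ 0) (x : LaurentSeries R) :
    twSer R 1 e ξ x = qExpand R e (twHom ξ hξ x) := by
  rw [twSer, qExpand_one_apply, twHom_apply]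

end twist

variable (N ℓ : ℕ) [NeZero N] [NeZero ℓ]

theorem coeff_Jd_one_neg_one : (Jd 1).coeff (-1) = 1 := by
  have h1 : Jd 1 = ModularCurve.jqModC Kbar := by
    rw [Jd, qExpand_one_apply]
    exact coeffEmb_jq_eq_jqModC Kbar
  rw [h1]
  have h2 := leadingCoeff_jqModC' (R := Kbar)
  rw [HahnSeries.leadingCoeff_eq, order_jqModC'] at h2
  exact h2


/-- **the `ℓ + 1` embeddings** of `F_{Nℓ}` over `F_N` -/
theorem exists_family (hℓ : ℓ.Prime) (hℓN : ¬ ℓ ∣ N) :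
    ∃ (τ : Fin (ℓ + 1) → (FN (N * ℓ) →+* LaurentSeries Kbar)) (ζ : Fin ℓ → Kbar),
      Function.Injective τ ∧ (∀ b, ζ b ^ ℓ = 1) ∧
      (∀ i (y : FN N), τ i (heckeAlphaBar Kbar N ℓ y) =
        qExpand Kbar (N * ℓ) (y : LaurentSeries Kbar)) ∧
      (∀ y : FN N, τ 0 (heckeBetaBar Kbar N ℓ y) =
        qExpand Kbar (N * ℓ) (qExpand Kbar ℓ (y : LaurentSeries Kbar))) ∧
      (∀ (b : Fin ℓ) (y : FN N), τ b.succ (heckeBetaBar Kbar N ℓ y) =
        twSer Kbar 1 N (ζ b) (y : LaurentSeries Kbar)) := by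
  classical
  have hN0 : 0 < N := Nat.pos_of_ne_zero (NeZero.ne N)
  obtain ⟨ζ0, hζ0ne, hζ0ℓ, hβ⟩ := conjExp_beta N ℓ hℓ hℓN (gammaN N) (gammaN_mem N)
    (gammaN_not_mem N ℓ hℓ.one_lt)
  haveI : NeZero ((N * ℓ : ℕ) : Kbar) := ⟨by exact_mod_cast (NeZero.ne (N * ℓ))⟩
  obtain ⟨w, hw⟩ := HasEnoughRootsOfUnity.exists_primitiveRoot Kbar (N * ℓ)
  have hw0 : w ≠ 0 := hw.ne_zero (NeZero.ne (N * ℓ))
  have hwN : IsPrimitiveRoot (w ^ N) ℓ :=
    hw.pow (Nat.pos_of_ne_zero (NeZero.ne (N * ℓ))) rfl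
  have hwb : ∀ b : ℕ, w ^ b ≠ 0 := fun b => pow_ne_zero b hw0
  have hwbM : ∀ b : ℕ, (w ^ b) ^ (N * ℓ) = 1 := by
    intro b
    rw [← pow_mul, mul_comm, pow_mul, hw.pow_eq_one, one_pow]
  set ζ : Fin ℓ → Kbar := fun b => (w ^ (b : ℕ)) ^ N * ζ0 with hζdef
  have hζne : ∀ b, ζ b ≠ 0 := fun b => mul_ne_zero (pow_ne_zero N (hwb b)) hζ0ne
  set τ : Fin (ℓ + 1) → (FN (N * ℓ) →+* LaurentSeries Kbar) :=
    Fin.cons (conjExp (N * ℓ) 1)
      (fun b : Fin ℓ => (twHom (w ^ (b : ℕ)) (hwb b)).comp (conjExp (N * ℓ) (gammaN N))) with hτ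
  have hτ0 : τ 0 = conjExp (N * ℓ) 1 := rfl
  have hτs : ∀ b : Fin ℓ, τ b.succ =
      (twHom (w ^ (b : ℕ)) (hwb b)).comp (conjExp (N * ℓ) (gammaN N)) := fun b => by
    rw [hτ, Fin.cons_succ]
  have hβ0 : ∀ y : FN N, τ 0 (heckeBetaBar Kbar N ℓ y) =
      qExpand Kbar (N * ℓ) (qExpand Kbar ℓ (y : LaurentSeries Kbar)) := by
    intro y
    rw [hτ0, conjExp_one, coe_heckeBetaBar]
  have hβs : ∀ (b : Fin ℓ) (y : FN N), τ b.succ (heckeBetaBar Kbar N ℓ y) =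
      twSer Kbar 1 N (ζ b) (y : LaurentSeries Kbar) := by
    intro b y
    rw [hτs, RingHom.comp_apply, hβ y, twHom_qExpand_pow, twHom_twHom _ _ _ hζ0ne,
      twSer_one_eq N (ζ b) (hζne b)]
  refine ⟨τ, ζ, ?_, ?_, ?_, hβ0, hβs⟩
  · -- injectivity
    set θ : FN N := jBar N with hθ
    have hθc : ((θ : FN N) : LaurentSeries Kbar) = Jd 1 := jBar_coe N
    have hc0 : (τ 0 (heckeBetaBar Kbar N ℓ θ)).coeff (-(N : ℤ)) = 0 := by
      rw [hβ0, qExpand_qExpand]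
      apply qExpand_coeff_of_not_dvd
      rintro ⟨c, hc⟩
      have h1 : (N : ℤ) * (-1) = (N : ℤ) * ((ℓ : ℤ) * ℓ * c) := by
        rw [mul_neg_one, hc]; push_cast; ring
      have h2 := mul_left_cancel₀ (by exact_mod_cast hN0.ne' : (N : ℤ) ≠ 0) h1
      have h3 : (ℓ : ℤ) ∣ 1 := ⟨-(ℓ * c), by linarith⟩
      have h4 : ℓ ∣ 1 := by exact_mod_cast h3
      exact hℓ.one_lt.ne' (Nat.dvd_one.mp h4)
    have hcs : ∀ b : Fin ℓ, (τ b.succ (heckeBetaBar Kbar N ℓ θ)).coeff (-(N : ℤ)) = (ζ b)⁻¹ := by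
      intro b
      rw [hβs, twSer_one_eq N (ζ b) (hζne b), hθc]
      have : (-(N : ℤ)) = (N : ℤ) * (-1) := by ring
      rw [this, qExpand_coeff_mul, twHom_coeff, coeff_Jd_one_neg_one, mul_one, zpow_neg_one]
    intro i j hij
    have hcoef : (τ i (heckeBetaBar Kbar N ℓ θ)).coeff (-(N : ℤ)) =
        (τ j (heckeBetaBar Kbar N ℓ θ)).coeff (-(N : ℤ)) := by rw [hij]
    induction i using Fin.cases with
    | zero =>
      induction j using Fin.cases with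
      | zero => rfl
      | succ b' =>
        exfalso
        rw [hc0, hcs] at hcoef
        exact inv_ne_zero (hζne b') hcoef.symm
    | succ b =>
      induction j using Fin.cases with
      | zero =>
        exfalso
        rw [hc0, hcs] at hcoef
        exact inv_ne_zero (hζne b) hcoef
      | succ b' =>
        rw [hcs, hcs] at hcoef
        have h1 : ζ b = ζ b' := inv_injective hcoef
        have h2 : (w ^ (b : ℕ)) ^ N = (w ^ (b' : ℕ)) ^ N := mul_right_cancel₀ hζ0ne h1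
        rw [← pow_mul, ← pow_mul, mul_comm (b : ℕ) N, mul_comm (b' : ℕ) N, pow_mul, pow_mul] at h2
        have h3 := hwN.pow_inj b.2 b'.2 h2
        rw [Fin.ext h3]
  · intro b
    show ((w ^ (b : ℕ)) ^ N * ζ0) ^ ℓ = 1
    rw [mul_pow, hζ0ℓ, mul_one, ← pow_mul, hwbM]
  · intro i y
    induction i using Fin.cases with
    | zero =>
      rw [hτ0, conjExp_one, coe_heckeAlphaBar]
    | succ b =>
      rw [hτs, RingHom.comp_apply, conjExp_alpha N ℓ (gammaN N) (gammaN_mem N) y,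
        twHom_qExpand _ _ (N * ℓ) (hwbM b)]

end Fermat.Agent.S37.Kron
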