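import Mathlib
import Fermat.Agent.S18.LatticeKL
import Fermat.Agent.S18.GaussDatum
import Fermat.Agent.S28.UnitSer
import Fermat.Prelude.Thm_ModularCurve_coeffMap_qExpand

/-!
# S37, piece (E1-x3): the formal part of the Kronecker congruence for norms

* `pow_char_eq_qExpand` : in characteristic `ℓ`, `y ^ ℓ = y^(ℓ)(q^ℓ)` for Laurent series
  (`y^(ℓ)` = coefficientwise Frobenius);
* `redQ_dmul` : the twist `y(ζ q)`, `ζ ^ ℓ = 1`, of a `q`-integral series has the same
  reduction as `y` (residue characteristic `ℓ`);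
* `redQ_qExpand`, `redQ_of_qExpand` : `RedQ` and `q ↦ q^M`;
* `kronecker_formal` : if `z(q^M) = y(q^(ℓ M)) · ∏_b y(ζ_b q^N)` (`M = N ℓ`, `ζ_b ^ ℓ = 1`) then
  `z` is `q`-integral with reduction `ybar(q^ℓ) · ybar^(ℓ)(q)`.
-/

set_option autoImplicit false

noncomputable section

open HahnSeries ModularCurve

namespace Fermat.Agent.S37.Kron

open Fermat.Agent.S18 Fermat.Agent.FF Fermat.Agent.S28

/-! ### Frobenius on Laurent series -/

section Frob

variable (k : Type*) [Field k] (ℓ : ℕ) [Fact ℓ.Prime] [CharP k ℓ]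

instance instNeZeroPrime : NeZero ℓ := ⟨(Fact.out : ℓ.Prime).ne_zero⟩

theorem qExpand_ofPowerSeries (R : Type*) [CommRing R] (n : ℕ) [NeZero n] (p : PowerSeries R) :
    qExpand R n (HahnSeries.ofPowerSeries ℤ R p) =
      HahnSeries.ofPowerSeries ℤ R (PowerSeries.expand n (NeZero.ne n) p) := by
  ext m
  by_cases hm : (n : ℤ) ∣ m
  · obtain ⟨c, rfl⟩ := hm
    rw [qExpand_coeff_mul]
    rcases le_or_gt 0 c with hc | hc
    · lift c to ℕ using hc
      rw [HahnSeries.ofPowerSeries_apply_coeff,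
        show (n : ℤ) * (c : ℤ) = ((n * c : ℕ) : ℤ) by push_cast; ring,
        HahnSeries.ofPowerSeries_apply_coeff, PowerSeries.coeff_expand_mul]
    · rw [ofPowerSeries_coeff_of_neg _ hc, ofPowerSeries_coeff_of_neg]
      have hn : (0 : ℤ) < n := by exact_mod_cast Nat.pos_of_ne_zero (NeZero.ne n)
      exact mul_neg_of_pos_of_neg hn hc
  · rw [qExpand_coeff_of_not_dvd n _ hm]
    rcases le_or_gt 0 m with hc | hc
    · lift m to ℕ using hc
      rw [HahnSeries.ofPowerSeries_apply_coeff, PowerSeries.coeff_expand_of_not_dvd]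
      intro h
      exact hm (by exact_mod_cast h)
    · rw [ofPowerSeries_coeff_of_neg _ hc]

theorem powerSeries_pow_char (p : PowerSeries k) :
    p ^ ℓ = PowerSeries.expand ℓ (NeZero.ne ℓ) (PowerSeries.map (frobenius k ℓ) p) := by
  have h := MvPowerSeries.map_frobenius_expand (σ := Unit) (R := k) ℓ (NeZero.ne ℓ) (f := p)
  rw [← h]
  exact (PowerSeries.map_expand ℓ (NeZero.ne ℓ) (frobenius k ℓ) p)

/-- **Frobenius on Laurent series**: `y ^ ℓ = y^(ℓ)(q^ℓ)`. -/
theorem pow_char_eq_qExpand (y : LaurentSeries k) :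
    y ^ ℓ = qExpand k ℓ (coeffMap (frobenius k ℓ) y) := by
  have hy := LaurentSeries.single_order_mul_powerSeriesPart y
  have h1 : (HahnSeries.single y.order (1 : k)) ^ ℓ = HahnSeries.single ((ℓ : ℤ) * y.order) 1 := by
    rw [HahnSeries.single_pow, one_pow]
    congr 1
  have h2 : qExpand k ℓ (coeffMap (frobenius k ℓ) (HahnSeries.single y.order (1 : k))) =
      HahnSeries.single ((ℓ : ℤ) * y.order) 1 := by
    rw [coeffMap_single, qExpand_single, map_one]
  have h3 : (HahnSeries.ofPowerSeries ℤ k y.powerSeriesPart) ^ ℓ =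
      qExpand k ℓ (coeffMap (frobenius k ℓ) (HahnSeries.ofPowerSeries ℤ k y.powerSeriesPart)) := by
    rw [← map_pow, powerSeries_pow_char, coeffMap_ofPowerSeries, qExpand_ofPowerSeries]
  conv_lhs => rw [← hy]
  conv_rhs => rw [← hy]
  rw [mul_pow, map_mul, map_mul, h1, h2, h3]

end Frob

/-! ### reduction of twists -/

section Twist

variable {L : Type*} [Field L] {A : ValuationSubring L} {k : Type*} [Field k] {π : A →+* k}

theorem mem_of_pow_eq_one {ζ : L} {n : ℕ} (hn : n ≠ 0) (hζ : ζ ^ n = 1) : ζ ∈ A := by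
  rw [← A.valuation_le_one_iff]
  have h1 : (A.valuation ζ) ^ n = 1 := by rw [← map_pow, hζ, map_one]
  exact le_of_eq ((pow_eq_one_iff_of_nonneg zero_le hn).mp h1)

/-- the unit of `A` given by a root of unity -/
def rootUnit {ζ : L} {n : ℕ} (hn : n ≠ 0) (hζ : ζ ^ n = 1) : (A : Type _)ˣ where
  val := ⟨ζ, mem_of_pow_eq_one hn hζ⟩
  inv := ⟨ζ ^ (n - 1), A.pow_mem (mem_of_pow_eq_one hn hζ) _⟩
  val_inv := by
    apply Subtype.ext
    show ζ * ζ ^ (n - 1) = 1
    rw [← pow_succ', Nat.sub_add_cancel (Nat.pos_of_ne_zero hn), hζ]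
  inv_val := by
    apply Subtype.ext
    show ζ ^ (n - 1) * ζ = 1
    rw [← pow_succ, Nat.sub_add_cancel (Nat.pos_of_ne_zero hn), hζ]

theorem coe_rootUnit_zpow {ζ : L} {n : ℕ} (hn : n ≠ 0) (hζ : ζ ^ n = 1) (m : ℤ) :
    ((((rootUnit (A := A) hn hζ) ^ m : (A : Type _)ˣ) : A) : L) = ζ ^ m := by
  have h := map_zpow (Units.map (A.subtype : A →* L)) (rootUnit (A := A) hn hζ) m
  have h2 := congrArg Units.val h
  rw [Units.val_zpow_eq_zpow_val] at h2
  exact h2

theorem residue_rootUnit (ℓ : ℕ) [Fact ℓ.Prime] [CharP k ℓ] {ζ : L} (hζ : ζ ^ ℓ = 1) :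
    π (rootUnit (A := A) (Fact.out : ℓ.Prime).ne_zero hζ : A) = 1 := by
  set u : A := (rootUnit (A := A) (Fact.out : ℓ.Prime).ne_zero hζ : A) with hu
  have h1 : u ^ ℓ = 1 := by
    apply Subtype.ext
    exact hζ
  have h2 : (π u - 1) ^ ℓ = 0 := by
    rw [sub_pow_char, ← map_pow, h1, map_one, one_pow, sub_self]
  exact sub_eq_zero.mp (pow_eq_zero_iff (Fact.out : ℓ.Prime).ne_zero |>.mp h2)

/-- **the twist by an `ℓ`-th root of unity does not change the reduction** -/
theorem redQ_dmul (ℓ : ℕ) [Fact ℓ.Prime] [CharP k ℓ] {ζ : L} (hζ : ζ ^ ℓ = 1)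
    {y : LaurentSeries L} {yb : LaurentSeries k} (hy : RedQ A π y yb) :
    RedQ A π (dmul (fun n => ζ ^ n) y) yb := by
  obtain ⟨y', rfl, rfl⟩ := hy
  let u := rootUnit (A := A) (Fact.out : ℓ.Prime).ne_zero hζ
  refine ⟨dmul (fun n => ((u ^ n : (A : Type _)ˣ) : A)) y', ?_, ?_⟩
  · rw [coeffMap_dmul]
    congr 1
    funext n
    exact coe_rootUnit_zpow _ hζ n
  · rw [coeffMap_dmul]
    ext n
    rw [dmul_coeff]
    have h1 : π ((u ^ n : (A : Type _)ˣ) : A) = 1 := by
      have h := map_zpow (Units.map (π : A →* k)) u n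
      have h2 := congrArg Units.val h
      rw [Units.val_zpow_eq_zpow_val] at h2
      have h3 : ((Units.map (π : A →* k) u : kˣ) : k) = 1 := residue_rootUnit ℓ hζ
      rw [h3, one_zpow] at h2
      exact h2
    rw [h1, one_mul]

theorem redQ_qExpand (M : ℕ) [NeZero M] {y : LaurentSeries L} {yb : LaurentSeries k}
    (hy : RedQ A π y yb) : RedQ A π (qExpand L M y) (qExpand k M yb) := by
  obtain ⟨y', rfl, rfl⟩ := hy
  exact ⟨qExpand A M y', coeffMap_qExpand _ _ _, coeffMap_qExpand _ _ _⟩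

theorem redQ_of_qExpand (M : ℕ) [NeZero M] {y : LaurentSeries L} {yb : LaurentSeries k}
    (hy : RedQ A π (qExpand L M y) (qExpand k M yb)) : RedQ A π y yb := by
  obtain ⟨w', hw1, hw2⟩ := hy
  have hcoef : ∀ n : ℤ, y.coeff n ∈ A := by
    intro n
    have h := congrArg (fun z => z.coeff ((M : ℤ) * n)) hw1
    simp only [coeffMap_coeff, qExpand_coeff_mul] at h
    rw [← h]
    exact (w'.coeff _).2
  obtain ⟨y', hy'⟩ := Lat.exists_lift_of_coeff_mem A y hcoef
  have hy'' : coeffMap A.subtype y' = y := hy'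
  refine ⟨y', hy'', ?_⟩
  have h1 : qExpand A M y' = w' := by
    apply GaussD.coeffMap_subtype_injective
    rw [coeffMap_qExpand, hy'', hw1]
  apply qExpand_injective M
  rw [← coeffMap_qExpand, h1, hw2]

theorem redQ_twSer (ℓ : ℕ) [Fact ℓ.Prime] [CharP k ℓ] (N : ℕ) [NeZero N] {ζ : L}
    (hζ : ζ ^ ℓ = 1) {y : LaurentSeries L} {yb : LaurentSeries k} (hy : RedQ A π y yb) :
    RedQ A π (twSer L 1 N ζ y) (qExpand k N yb) := by
  rw [twSer, qExpand_one_apply]
  exact redQ_qExpand N (redQ_dmul ℓ hζ hy)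

theorem redQ_prod {ι : Type*} (s : Finset ι) (f : ι → LaurentSeries L) (g : LaurentSeries k)
    (h : ∀ i ∈ s, RedQ A π (f i) g) : RedQ A π (∏ i ∈ s, f i) (g ^ s.card) := by
  classical
  induction s using Finset.induction_on with
  | empty => simpa using (GaussD.redQ_one : RedQ A π 1 1)
  | insert a s ha ih =>
    rw [Finset.prod_insert ha, Finset.card_insert_of_notMem ha, pow_succ']
    exact GaussD.redQ_mul (h a (Finset.mem_insert_self a s))
      (ih fun i hi => h i (Finset.mem_insert_of_mem hi))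

/-- **(E1-x3), the formal Kronecker congruence**: if
`z(q^M) = y(q^(ℓ M)) · ∏_b y(ζ_b q^N)`, `M = N ℓ`, `ζ_b ^ ℓ = 1`, and `y` is `q`-integral with
reduction `yb`, then `z` is `q`-integral with reduction `yb(q^ℓ) · yb^(ℓ)(q)`. -/
theorem kronecker_formal (ℓ : ℕ) [Fact ℓ.Prime] [CharP k ℓ] (N : ℕ) [NeZero N]
    (z y : LaurentSeries L) (ζ : Fin ℓ → L) (hζ : ∀ b, ζ b ^ ℓ = 1)
    (hz : qExpand L (N * ℓ) z =
      qExpand L (N * ℓ) (qExpand L ℓ y) * ∏ b : Fin ℓ, twSer L 1 N (ζ b) y)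
    {yb : LaurentSeries k} (hy : RedQ A π y yb) :
    RedQ A π z (qExpand k ℓ yb * coeffMap (frobenius k ℓ) yb) := by
  apply redQ_of_qExpand (N * ℓ)
  rw [hz, map_mul]
  refine GaussD.redQ_mul (redQ_qExpand _ (redQ_qExpand _ hy)) ?_
  have h1 := redQ_prod (A := A) (π := π) Finset.univ (fun b : Fin ℓ => twSer L 1 N (ζ b) y)
    (qExpand k N yb) (fun b _ => redQ_twSer ℓ N (hζ b) hy)
  rw [Finset.card_univ, Fintype.card_fin, ← map_pow, pow_char_eq_qExpand k ℓ yb,
    qExpand_qExpand] at h1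
  exact h1

end Twist

end Fermat.Agent.S37.Kron
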