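import Mathlib
import Fermat.Agent.S37.KronFamily
import Fermat.Agent.S37.KronEmb
import Fermat.Agent.S37.KronFormal
import Fermat.Agent.S37.E0Modular
import Fermat.Agent.S37.KronDegree

/-!
# S37 (E1), part 4 (helper3): the Kronecker congruence for norms

* `qExpand_norm_beta` : `Nm_{F_{Nℓ}/F_N} (y(q^ℓ)) (u^(Nℓ)) = y(u^(Nℓ²)) · ∏_b y(ζ_b u^N)`,
                        `ζ_b ^ ℓ = 1`  (norm = product of the `ℓ + 1` conjugates);
* `kronecker_norm_of_deg` : if `y ∈ F_N` is `q`-integral with reduction `yb`, then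
                        `Nm (β y)` is `q`-integral with reduction `yb(q^ℓ) · yb^(ℓ)(q)`.

* `kronecker_norm`    : the same, unconditionally (`[F_{Nℓ} : F_N] = ℓ + 1`, helper8's
                        `finrank_along`);
* `kronecker_norm'`   : in the form `∃ wb, qExpand ℓ wb = yb ^ ℓ ∧ RedQ (Nm (β y)) (yb(q^ℓ) * wb)`.
-/

set_option autoImplicit false
set_option linter.unusedSectionVars false
set_option linter.style.haveILetI false

open scoped MatrixGroups
open AlgebraicCurve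

namespace Fermat.Agent.S37.Kron

open Fermat.Agent.FF Fermat.Agent.S28 Fermat.Agent.S18 ModularCurve

variable (N ℓ : ℕ) [NeZero N] [NeZero ℓ]

/-- the norm from `F_{Nℓ}` to `F_N` (along `α`) -/
noncomputable def normAlpha (f : FN (N * ℓ)) : FN N :=
  letI := algebraAlong (heckeAlphaBar Kbar N ℓ)
  Algebra.norm (FN N) f

/-- **norm = product of the conjugates** -/
theorem qExpand_norm_beta (hℓ : ℓ.Prime) (hℓN : ¬ ℓ ∣ N)
    (hdeg : (letI := algebraAlong (heckeAlphaBar Kbar N ℓ);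
      Module.finrank (FN N) (FN (N * ℓ))) ≤ ℓ + 1) :
    ∃ ζ : Fin ℓ → Kbar, (∀ b, ζ b ^ ℓ = 1) ∧ ∀ y : FN N,
      qExpand Kbar (N * ℓ) ((normAlpha N ℓ (heckeBetaBar Kbar N ℓ y) : FN N) : LaurentSeries Kbar) =
        qExpand Kbar (N * ℓ) (qExpand Kbar ℓ (y : LaurentSeries Kbar)) *
          ∏ b : Fin ℓ, twSer Kbar 1 N (ζ b) (y : LaurentSeries Kbar) := by
  obtain ⟨τ, ζ, hτ, hζ, hα, hβ0, hβs⟩ := exists_family N ℓ hℓ hℓN
  refine ⟨ζ, hζ, fun y => ?_⟩
  letI := algebraAlong (heckeAlphaBar Kbar N ℓ)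
  haveI : Module.Finite (FN N) (FN (N * ℓ)) := E0M.finiteAlong_alpha N ℓ
  set ι : FN N →+* LaurentSeries Kbar :=
    (qExpand Kbar (N * ℓ)).comp (ModularCurve.modularFunctionFieldBar N).val.toRingHom with hι
  have hcomp : ∀ i, (τ i).comp (algebraMap (FN N) (FN (N * ℓ))) = ι := by
    intro i
    ext1 y
    exact hα i y
  have h := KronEmb.norm_eq_prod_of_embeddings ι τ hτ hcomp hdeg (heckeBetaBar Kbar N ℓ y)
  rw [Fin.prod_univ_succ, hβ0] at h
  simp only [hβs] at h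
  exact h


/-- **(E1) Kronecker congruence for norms**, under the degree hypothesis -/
theorem kronecker_norm_of_deg (hℓ : ℓ.Prime) (hℓN : ¬ ℓ ∣ N)
    (hdeg : (letI := algebraAlong (heckeAlphaBar Kbar N ℓ);
      Module.finrank (FN N) (FN (N * ℓ))) ≤ ℓ + 1)
    (A : ValuationSubring Kbar) {k : Type*} [Field k] (π : A →+* k) [Fact ℓ.Prime] [CharP k ℓ]
    (y : FN N) (yb : LaurentSeries k) (hy : RedQ A π (y : LaurentSeries Kbar) yb) :
    RedQ A π ((normAlpha N ℓ (heckeBetaBar Kbar N ℓ y) : FN N) : LaurentSeries Kbar)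
      (qExpand k ℓ yb * coeffMap (frobenius k ℓ) yb) := by
  obtain ⟨ζ, hζ, h⟩ := qExpand_norm_beta N ℓ hℓ hℓN hdeg
  exact kronecker_formal ℓ N _ _ ζ hζ (h y) hy


/-- **(E1) Kronecker congruence for norms**: if `y ∈ F_N` is `q`-integral with reduction `yb`,
then `Nm_{F_{Nℓ}/F_N} (y(q^ℓ))` is `q`-integral with reduction `yb(q^ℓ) · yb^(ℓ)(q)`. -/
theorem kronecker_norm (hℓ : ℓ.Prime) (hℓN : ¬ ℓ ∣ N)
    (A : ValuationSubring Kbar) {k : Type*} [Field k] (π : A →+* k) [Fact ℓ.Prime] [CharP k ℓ]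
    (y : FN N) (yb : LaurentSeries k) (hy : RedQ A π (y : LaurentSeries Kbar) yb) :
    RedQ A π ((normAlpha N ℓ (heckeBetaBar Kbar N ℓ y) : FN N) : LaurentSeries Kbar)
      (qExpand k ℓ yb * coeffMap (frobenius k ℓ) yb) :=
  kronecker_norm_of_deg N ℓ hℓ hℓN (finrank_along N ℓ hℓ hℓN).le A π y yb hy

/-- **(E1)** in the shape of the contract: `wb` with `wb(q^ℓ) = yb ^ ℓ`. -/
theorem kronecker_norm' (hℓ : ℓ.Prime) (hℓN : ¬ ℓ ∣ N)
    (A : ValuationSubring Kbar) {k : Type*} [Field k] (π : A →+* k) [CharP k ℓ]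
    (y : FN N) (yb : LaurentSeries k) (hy : RedQ A π (y : LaurentSeries Kbar) yb) :
    ∃ wb : LaurentSeries k, qExpand k ℓ wb = yb ^ ℓ ∧
      RedQ A π ((normAlpha N ℓ (heckeBetaBar Kbar N ℓ y) : FN N) : LaurentSeries Kbar)
        (qExpand k ℓ yb * wb) := by
  haveI : Fact ℓ.Prime := ⟨hℓ⟩
  exact ⟨coeffMap (frobenius k ℓ) yb, (pow_char_eq_qExpand k ℓ yb).symm,
    kronecker_norm N ℓ hℓ hℓN A π y yb hy⟩

end Fermat.Agent.S37.Kron
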