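/-
S37 (item 88), piece (C) (lead): the reduction map `ρ`.

ABSTRACT: `φ : F → F'` an integral extension of function fields over `L`, `R` a reduction datum
on `F'` with residue function field `Fb / k`, `r : Place L F' → Place k Fb` compatible with
divisors of units (`DivCompatR`).  Then

* `rhoDiv φ hφ r := r_* ∘ φ^* : Divisor L F →+ Divisor k Fb`;
* `rhoDiv_apply_of_unit` (hC1): `rhoDiv (div y) = div (red u)` for every unit `u = c • φ y` of `R.O`;
* `isPrincipal_rhoDiv` : principal divisors go to principal divisors;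
* `rhoPic : Pic0 L F →+ Pic k Fb`, `rhoPic_mk`, `rhoPic_eq_zero_iff`.
-/
import Mathlib
import Fermat.Prelude.Def_AlgebraicCurve_Correspondence
import Fermat.Agent.S18.MaxPrinciple

set_option autoImplicit false
set_option linter.unusedSectionVars false

open AlgebraicCurve

noncomputable section

namespace Fermat.Agent.S37.RedMap

open Fermat.Agent.S18 Fermat.Agent.S18.RPrime

section Abstract

variable {L F F' k Fb : Type*} [Field L] [Field F] [Field F'] [Algebra L F] [Algebra L F']
  [Field k] [Field Fb] [Algebra k Fb] [HasPrincipalDivisors L F']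
  (φ : F →ₐ[L] F') (hφ : φ.toRingHom.IsIntegral) (r : Place L F' → Place k Fb)

/-- the reduction map on divisors: pull back to `F'`, then push forward along `r`. -/
def rhoDiv : Divisor L F →+ Divisor k Fb :=
  (Finsupp.mapDomain.addMonoidHom r).comp (Divisor.pullbackAlong φ hφ)

theorem rhoDiv_apply (D : Divisor L F) :
    rhoDiv φ hφ r D = Finsupp.mapDomain r (Divisor.pullbackAlong φ hφ D) := rfl

/-- the pullback of `div y` is `div (φ y)`. -/
theorem pullbackAlong_apply_eq_ord {y : F} {D : Divisor L F}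
    (hD : ∀ v : Place L F, D v = v.ord y) (w : Place L F') :
    Divisor.pullbackAlong φ hφ D w = w.ord (φ y) := by
  letI := algebraAlong φ
  haveI := isScalarTower_along φ
  haveI := isIntegral_along φ hφ
  exact Divisor.pullback_apply_eq_ord hD w

/-- the order of a nonzero constant is `0`. -/
theorem ord_algebraMap_eq_zero (w : Place L F') {c : L} (hc : c ≠ 0) :
    w.ord (algebraMap L F' c) = 0 :=
  RPrime.ord_const w hc

theorem ord_smul_eq (w : Place L F') {c : L} (hc : c ≠ 0) {y : F'} (hy : y ≠ 0) :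
    w.ord (c • y) = w.ord y := by
  rw [Algebra.smul_def, w.ord_mul ((map_ne_zero _).2 hc) hy, ord_algebraMap_eq_zero w hc,
    zero_add]

variable {φ hφ r}

/-- **(hC1)**: `ρ (div y) = div (red u)` for a unit `u = c • φ y` of the Gauss ring. -/
theorem rhoDiv_apply_of_unit {R : RedDatum L F' k Fb} (hr : DivCompatR R r)
    {y : F} (hy : y ≠ 0) {D : Divisor L F} (hD : ∀ v : Place L F, D v = v.ord y)
    (u : R.O) (hu : IsUnit u) {c : L} (hc : c ≠ 0) (hcu : (u : F') = c • φ y)
    (Q : Place k Fb) : rhoDiv φ hφ r D Q = Q.ord (R.red u) := by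
  rw [rhoDiv_apply]
  refine hr u hu _ (fun w => ?_) Q
  have hy' : φ y ≠ 0 := (map_ne_zero φ).2 hy
  rw [pullbackAlong_apply_eq_ord φ hφ hD w, hcu, ord_smul_eq w hc hy']

theorem red_ne_zero_of_isUnit {R : RedDatum L F' k Fb} {u : R.O} (hu : IsUnit u) :
    R.red u ≠ 0 :=
  (hu.map R.red).ne_zero

/-- principal divisors go to principal divisors. -/
theorem isPrincipal_rhoDiv {R : RedDatum L F' k Fb} (hr : DivCompatR R r)
    {D : Divisor L F} (hD : D.IsPrincipal) : (rhoDiv φ hφ r D).IsPrincipal := by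
  obtain ⟨y, hy, hDy⟩ := hD
  obtain ⟨c, hc, hmem, hu⟩ := R.exists_scale (φ y) ((map_ne_zero φ).2 hy)
  exact ⟨R.red ⟨c • φ y, hmem⟩, red_ne_zero_of_isUnit hu,
    fun Q => rhoDiv_apply_of_unit hr hy hDy ⟨c • φ y, hmem⟩ hu hc rfl Q⟩

variable (φ hφ r)

/-- the reduction map on divisor classes, `Pic⁰(F) → Pic(Fb)`. -/
def rhoPic (hprin : ∀ D : Divisor L F, D.IsPrincipal → (rhoDiv φ hφ r D).IsPrincipal) :
    Pic0 L F →+ Pic k Fb :=
  QuotientAddGroup.map _ _
    ((rhoDiv φ hφ r).comp (Divisor.degZero (K := L) (F := F)).subtype)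
    (by
      intro D hD
      rw [AddSubgroup.mem_addSubgroupOf] at hD
      exact hprin _ hD)

variable {φ hφ r}

theorem rhoPic_mk (hprin : ∀ D : Divisor L F, D.IsPrincipal → (rhoDiv φ hφ r D).IsPrincipal)
    (D : Divisor.degZero (K := L) (F := F)) :
    rhoPic φ hφ r hprin (Pic0.mk D) =
      QuotientAddGroup.mk (rhoDiv φ hφ r (D : Divisor L F)) := rfl

theorem rhoPic_mk_eq_zero_iff
    (hprin : ∀ D : Divisor L F, D.IsPrincipal → (rhoDiv φ hφ r D).IsPrincipal)
    (D : Divisor.degZero (K := L) (F := F)) :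
    rhoPic φ hφ r hprin (Pic0.mk D) = 0 ↔ (rhoDiv φ hφ r (D : Divisor L F)).IsPrincipal := by
  rw [rhoPic_mk]
  exact QuotientAddGroup.eq_zero_iff _

theorem pic0_mk_eq_zero_iff (D : Divisor.degZero (K := L) (F := F)) :
    (Pic0.mk D : Pic0 L F) = 0 ↔ (D : Divisor L F).IsPrincipal := by
  unfold Pic0.mk
  rw [QuotientAddGroup.eq_zero_iff, AddSubgroup.mem_addSubgroupOf]
  rfl

/-- equality of two maps `Pic⁰(F) → X` from equality on degree `0` divisors. -/
theorem rhoPic_ext {X : Type*} [AddCommGroup X] (f g : Pic0 L F →+ X)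
    (h : ∀ D : Divisor.degZero (K := L) (F := F), f (Pic0.mk D) = g (Pic0.mk D)) : f = g := by
  refine DFunLike.ext _ _ fun x => ?_
  obtain ⟨D, rfl⟩ := Pic0.mk_surjective x
  exact h D

/-- **(A3) on `Pic⁰`** from the statement on divisors. -/
theorem rhoPic_injOn_torsion
    (hprin : ∀ D : Divisor L F, D.IsPrincipal → (rhoDiv φ hφ r D).IsPrincipal) (m : ℕ)
    (hinj : ∀ D : Divisor L F, (m • D).IsPrincipal →
      Divisor.IsPrincipal (Finsupp.mapDomain r (Divisor.pullbackAlong φ hφ D)) →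
      D.IsPrincipal)
    (z : Pic0 L F) (hmz : m • z = 0) (hz : rhoPic φ hφ r hprin z = 0) : z = 0 := by
  obtain ⟨D, rfl⟩ := Pic0.mk_surjective z
  rw [pic0_mk_eq_zero_iff]
  refine hinj _ ?_ ((rhoPic_mk_eq_zero_iff hprin D).1 hz)
  have h2 : (Pic0.mk (m • D) : Pic0 L F) = 0 := by
    rw [← hmz]; rfl
  exact (pic0_mk_eq_zero_iff (m • D)).1 h2

end Abstract

end Fermat.Agent.S37.RedMap
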