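/-
S37 (item 88), wiring pieces (W2) + (W4) (helper2).

(W2) `picSmul σb : Pic k Fb →+ Pic k Fb`, the map induced on divisor classes by a semilinear
automorphism `σb` of `Fb / k` (`picSmul σb (mk D) = mk (σb • D)`); it is a group action
(`picSmul_one`, `picSmul_mul`), in particular `picSmul σb⁻¹ ∘ picSmul σb = id`.
`picVer ℓ σb := ℓ • picSmul σb⁻¹` (the Verschiebung when `σb` is the coefficient Frobenius) and
`picVer_picSmul : picVer ℓ σb (picSmul σb x) = ℓ • x`   (= (E2) on `Pic`).

(W4) the Galois action on `J₀(N) = Pic⁰(F_N)` on classes of divisors: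
`σ • Pic0.mk D = Pic0.mk (degZeroSMulHom (arithmeticGalois _ σ) D)`.

(W5) the descent of (D) to classes: `rhoPic (g • x) = picSmul σb (rhoPic x)` from the relation
on divisors of degree `0`.
-/
import Mathlib
import Fermat.Prelude.Def_ModularCurve_ArithmeticGalois
import Fermat.Agent.S37.RedMap

set_option autoImplicit false

open AlgebraicCurve ModularCurve

noncomputable section

namespace Fermat.Agent.S37.PicMaps

section W2

variable {k Fb : Type*} [Field k] [Field Fb] [Algebra k Fb]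

/-- the class of a divisor in `Pic`. -/
def picMk : Divisor k Fb →+ Pic k Fb :=
  QuotientAddGroup.mk' (Divisor.principal (K := k) (F := Fb))

theorem picMk_apply (D : Divisor k Fb) :
    picMk D = (QuotientAddGroup.mk D : Pic k Fb) := rfl

theorem picMk_surjective : Function.Surjective (picMk (k := k) (Fb := Fb)) :=
  QuotientAddGroup.mk_surjective

theorem picMk_eq_zero_iff (D : Divisor k Fb) : picMk D = 0 ↔ D.IsPrincipal := by
  rw [picMk_apply]
  exact QuotientAddGroup.eq_zero_iff _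

theorem picMk_eq_iff (D E : Divisor k Fb) : picMk D = picMk E ↔ (D - E).IsPrincipal := by
  rw [← sub_eq_zero, ← map_sub, picMk_eq_zero_iff]

/-- the action of a semilinear automorphism on divisors, as an additive map. -/
def divSmul (σb : SemilinearAut k Fb) : Divisor k Fb →+ Divisor k Fb :=
  DistribSMul.toAddMonoidHom (Divisor k Fb) σb

@[simp]
theorem divSmul_apply (σb : SemilinearAut k Fb) (D : Divisor k Fb) :
    divSmul σb D = σb • D := rfl

/-- **(W2)** the action of a semilinear automorphism on `Pic`. -/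
def picSmul (σb : SemilinearAut k Fb) : Pic k Fb →+ Pic k Fb :=
  QuotientAddGroup.map _ _ (divSmul σb) (by
    intro D hD
    exact SemilinearAut.smul_mem_principal σb hD)

theorem picSmul_mk (σb : SemilinearAut k Fb) (D : Divisor k Fb) :
    picSmul σb (QuotientAddGroup.mk D : Pic k Fb) = (QuotientAddGroup.mk (σb • D) : Pic k Fb) :=
  rfl

theorem picSmul_picMk (σb : SemilinearAut k Fb) (D : Divisor k Fb) :
    picSmul σb (picMk D) = picMk (σb • D) := rfl

theorem picSmul_one : picSmul (1 : SemilinearAut k Fb) = AddMonoidHom.id (Pic k Fb) := by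
  refine DFunLike.ext _ _ fun x => ?_
  obtain ⟨D, rfl⟩ := picMk_surjective x
  rw [picSmul_picMk, one_smul]
  rfl

theorem picSmul_mul (σ τ : SemilinearAut k Fb) :
    picSmul (σ * τ) = (picSmul σ).comp (picSmul τ) := by
  refine DFunLike.ext _ _ fun x => ?_
  obtain ⟨D, rfl⟩ := picMk_surjective x
  rw [AddMonoidHom.comp_apply, picSmul_picMk, picSmul_picMk, picSmul_picMk, mul_smul]

theorem picSmul_mul_apply (σ τ : SemilinearAut k Fb) (x : Pic k Fb) :
    picSmul (σ * τ) x = picSmul σ (picSmul τ x) := by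
  rw [picSmul_mul]
  rfl

theorem picSmul_inv_picSmul (σb : SemilinearAut k Fb) (x : Pic k Fb) :
    picSmul σb⁻¹ (picSmul σb x) = x := by
  rw [← picSmul_mul_apply, inv_mul_cancel, picSmul_one]
  rfl

theorem picSmul_picSmul_inv (σb : SemilinearAut k Fb) (x : Pic k Fb) :
    picSmul σb (picSmul σb⁻¹ x) = x := by
  rw [← picSmul_mul_apply, mul_inv_cancel, picSmul_one]
  rfl

theorem picSmul_inv_comp (σb : SemilinearAut k Fb) :
    (picSmul σb⁻¹).comp (picSmul σb) = AddMonoidHom.id (Pic k Fb) :=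
  DFunLike.ext _ _ fun x => picSmul_inv_picSmul σb x

theorem picSmul_injective (σb : SemilinearAut k Fb) : Function.Injective (picSmul σb) :=
  Function.LeftInverse.injective (picSmul_inv_picSmul σb)

/-- the "Verschiebung" attached to `σb`: `ℓ • σb⁻¹` on divisors. -/
def divVer (ℓ : ℕ) (σb : SemilinearAut k Fb) : Divisor k Fb →+ Divisor k Fb :=
  ℓ • divSmul σb⁻¹

theorem divVer_apply (ℓ : ℕ) (σb : SemilinearAut k Fb) (D : Divisor k Fb) :
    divVer ℓ σb D = ℓ • (σb⁻¹ • D) := rfl

theorem divVer_divSmul (ℓ : ℕ) (σb : SemilinearAut k Fb) (D : Divisor k Fb) :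
    divVer ℓ σb (divSmul σb D) = ℓ • D := by
  rw [divVer_apply, divSmul_apply, inv_smul_smul]

theorem divSmul_divVer (ℓ : ℕ) (σb : SemilinearAut k Fb) (D : Divisor k Fb) :
    divSmul σb (divVer ℓ σb D) = ℓ • D := by
  rw [divVer_apply, map_nsmul, divSmul_apply, smul_inv_smul]

/-- the "Verschiebung" attached to `σb`: `ℓ • σb⁻¹` on `Pic`. -/
def picVer (ℓ : ℕ) (σb : SemilinearAut k Fb) : Pic k Fb →+ Pic k Fb :=
  ℓ • picSmul σb⁻¹

theorem picVer_apply (ℓ : ℕ) (σb : SemilinearAut k Fb) (x : Pic k Fb) :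
    picVer ℓ σb x = ℓ • picSmul σb⁻¹ x := rfl

theorem picVer_picMk (ℓ : ℕ) (σb : SemilinearAut k Fb) (D : Divisor k Fb) :
    picVer ℓ σb (picMk D) = picMk (divVer ℓ σb D) := by
  rw [picVer_apply, picSmul_picMk, divVer_apply, map_nsmul]

/-- **(E2) on `Pic`**: `V ∘ F = ℓ`. -/
theorem picVer_picSmul (ℓ : ℕ) (σb : SemilinearAut k Fb) (x : Pic k Fb) :
    picVer ℓ σb (picSmul σb x) = ℓ • x := by
  rw [picVer_apply, picSmul_inv_picSmul]

theorem picSmul_picVer (ℓ : ℕ) (σb : SemilinearAut k Fb) (x : Pic k Fb) :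
    picSmul σb (picVer ℓ σb x) = ℓ • x := by
  rw [picVer_apply, map_nsmul, picSmul_picSmul_inv]

end W2

section W4

/-- **(W4)** the Galois action on `J₀(N)` on classes of divisors. -/
theorem galois_smul_mk (N : ℕ) (σ : AlgebraicClosure ℚ ≃ₐ[ℚ] AlgebraicClosure ℚ)
    (D : Divisor.degZero (K := AlgebraicClosure ℚ) (F := modularFunctionFieldBar N)) :
    σ • (Pic0.mk D : JZero N) =
      Pic0.mk (SemilinearAut.degZeroSMulHom (arithmeticGalois (modularFunctionFieldFull N) σ) D) :=
  rfl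

theorem coe_galois_degZeroSMulHom (N : ℕ) (σ : AlgebraicClosure ℚ ≃ₐ[ℚ] AlgebraicClosure ℚ)
    (D : Divisor.degZero (K := AlgebraicClosure ℚ) (F := modularFunctionFieldBar N)) :
    ((SemilinearAut.degZeroSMulHom (arithmeticGalois (modularFunctionFieldFull N) σ) D :
        Divisor.degZero (K := AlgebraicClosure ℚ) (F := modularFunctionFieldBar N)) :
      Divisor (AlgebraicClosure ℚ) (modularFunctionFieldBar N)) =
      arithmeticGalois (modularFunctionFieldFull N) σ •
        (D : Divisor (AlgebraicClosure ℚ) (modularFunctionFieldBar N)) := rfl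

end W4

section W5

variable {L F F' k Fb : Type*} [Field L] [Field F] [Field F'] [Algebra L F] [Algebra L F']
  [Field k] [Field Fb] [Algebra k Fb] [HasPrincipalDivisors L F']
  {φ : F →ₐ[L] F'} {hφ : φ.toRingHom.IsIntegral} {r : Place L F' → Place k Fb}

theorem rhoPic_mk_eq_picMk
    (hprin : ∀ D : Divisor L F, D.IsPrincipal → (RedMap.rhoDiv φ hφ r D).IsPrincipal)
    (D : Divisor.degZero (K := L) (F := F)) :
    RedMap.rhoPic φ hφ r hprin (Pic0.mk D) = picMk (RedMap.rhoDiv φ hφ r (D : Divisor L F)) :=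
  rfl

/-- **(W5)** descent of (D) to divisor classes: `ρ (g • x) = σb • ρ x`. -/
theorem rhoPic_smul
    (hprin : ∀ D : Divisor L F, D.IsPrincipal → (RedMap.rhoDiv φ hφ r D).IsPrincipal)
    (g : SemilinearAut L F) (σb : SemilinearAut k Fb)
    (h : ∀ D : Divisor L F, Divisor.degree D = 0 →
      RedMap.rhoDiv φ hφ r (g • D) = σb • RedMap.rhoDiv φ hφ r D)
    (x : Pic0 L F) :
    RedMap.rhoPic φ hφ r hprin (g • x) = picSmul σb (RedMap.rhoPic φ hφ r hprin x) := by
  obtain ⟨D, rfl⟩ := Pic0.mk_surjective x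
  rw [SemilinearAut.pic0_smul_mk, rhoPic_mk_eq_picMk, rhoPic_mk_eq_picMk, picSmul_picMk,
    SemilinearAut.coe_degZeroSMulHom, h _ (Divisor.mem_degZero.1 D.2)]

/-- the same for the identity on the reduction side (inertia): `ρ (g • x) = ρ x`. -/
theorem rhoPic_smul_of_one
    (hprin : ∀ D : Divisor L F, D.IsPrincipal → (RedMap.rhoDiv φ hφ r D).IsPrincipal)
    (g : SemilinearAut L F)
    (h : ∀ D : Divisor L F, Divisor.degree D = 0 →
      RedMap.rhoDiv φ hφ r (g • D) = RedMap.rhoDiv φ hφ r D)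
    (x : Pic0 L F) :
    RedMap.rhoPic φ hφ r hprin (g • x) = RedMap.rhoPic φ hφ r hprin x := by
  obtain ⟨D, rfl⟩ := Pic0.mk_surjective x
  rw [SemilinearAut.pic0_smul_mk, rhoPic_mk_eq_picMk, rhoPic_mk_eq_picMk,
    SemilinearAut.coe_degZeroSMulHom, h _ (Divisor.mem_degZero.1 D.2)]

/-- descent of a relation `ρ ∘ T = Fm ∘ ρ + V ∘ ρ` from divisors of degree `0` to classes. -/
theorem rhoPic_relation
    (hprin : ∀ D : Divisor L F, D.IsPrincipal → (RedMap.rhoDiv φ hφ r D).IsPrincipal)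
    (T : Pic0 L F →+ Pic0 L F)
    (Td : Divisor.degZero (K := L) (F := F) → Divisor.degZero (K := L) (F := F))
    (hT : ∀ D : Divisor.degZero (K := L) (F := F), T (Pic0.mk D) = Pic0.mk (Td D))
    (ℓ : ℕ) (σb : SemilinearAut k Fb)
    (h : ∀ D : Divisor.degZero (K := L) (F := F),
      RedMap.rhoDiv φ hφ r (Td D : Divisor L F) =
        σb • RedMap.rhoDiv φ hφ r (D : Divisor L F) +
          ℓ • (σb⁻¹ • RedMap.rhoDiv φ hφ r (D : Divisor L F)))
    (x : Pic0 L F) :
    RedMap.rhoPic φ hφ r hprin (T x) =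
      picSmul σb (RedMap.rhoPic φ hφ r hprin x) +
        picVer ℓ σb (RedMap.rhoPic φ hφ r hprin x) := by
  obtain ⟨D, rfl⟩ := Pic0.mk_surjective x
  rw [hT, rhoPic_mk_eq_picMk, rhoPic_mk_eq_picMk, picSmul_picMk, picVer_picMk, divVer_apply,
    ← map_add, h D]

end W5

end Fermat.Agent.S37.PicMaps
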