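import Mathlib
import Fermat.Prelude.Def_AlgebraicCurve_Correspondence
import Fermat.Agent.FF.AFinite

/-!
# S37: integrality and finiteness of a `K`-embedding of function fields

For a `K`-embedding `φ : F → F'` and `t : F` with `F'` finite over `K(φ t)`:
`φ` is integral and `F'` is finite over `F` along `φ`.  In characteristic `0`, it is enough that
`F'` is finite over `K(x')` for ONE transcendental `x'` and that `t` is transcendental.
-/

set_option autoImplicit false
set_option linter.style.haveILetI false
set_option linter.unusedSectionVars false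

open AlgebraicCurve IntermediateField

noncomputable section

namespace Fermat.Agent.S37.AlongFin

variable {K F F' : Type*} [Field K] [Field F] [Field F'] [Algebra K F] [Algebra K F']

theorem adjoin_le_fieldRange (φ : F →ₐ[K] F') (t : F) : K⟮φ t⟯ ≤ φ.fieldRange := by
  rw [IntermediateField.adjoin_le_iff]
  rintro _ rfl
  exact ⟨t, rfl⟩

/-- `F'` is finite over `F` along `φ` as soon as it is finite over `K(φ t)`. -/
theorem finiteAlong_of_adjoin (φ : F →ₐ[K] F') (t : F) [FiniteDimensional K⟮φ t⟯ F'] :
    FiniteAlong K φ := by
  letI := algebraAlong φ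
  let e : F ≃ₐ[K] φ.fieldRange := AlgEquiv.ofInjectiveField φ
  let g : K⟮φ t⟯ →+* F :=
    (e.symm : φ.fieldRange →+* F).comp
      (IntermediateField.inclusion (adjoin_le_fieldRange φ t)).toRingHom
  letI : Algebra K⟮φ t⟯ F := g.toAlgebra
  haveI : IsScalarTower K⟮φ t⟯ F F' := IsScalarTower.of_algebraMap_eq fun y => by
    show (y : F') = φ (e.symm (IntermediateField.inclusion (adjoin_le_fieldRange φ t) y))
    have h1 : (e (e.symm (IntermediateField.inclusion (adjoin_le_fieldRange φ t) y)) : F')
        = φ (e.symm (IntermediateField.inclusion (adjoin_le_fieldRange φ t) y)) := rfl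
    rw [← h1, AlgEquiv.apply_symm_apply]
    rfl
  show Module.Finite F F'
  exact Module.Finite.of_restrictScalars_finite K⟮φ t⟯ F F'

theorem isIntegral_of_finiteAlong (φ : F →ₐ[K] F') (h : FiniteAlong K φ) :
    φ.toRingHom.IsIntegral := by
  letI := algebraAlong φ
  haveI : Module.Finite F F' := h
  intro x
  exact Algebra.IsIntegral.isIntegral (R := F) x

theorem isIntegral_of_adjoin (φ : F →ₐ[K] F') (t : F) [FiniteDimensional K⟮φ t⟯ F'] :
    φ.toRingHom.IsIntegral :=
  isIntegral_of_finiteAlong φ (finiteAlong_of_adjoin φ t)

section CharZero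

variable [CharZero K]

theorem transcendental_map (φ : F →ₐ[K] F') {t : F} (ht : Transcendental K t) :
    Transcendental K (φ t) := by
  intro h
  exact ht ((isAlgebraic_algHom_iff φ φ.injective).mp h)

/-- in characteristic `0`: `F'` finite over `K(x')` for one transcendental `x'`, `t : F`
transcendental; then `F'` is finite over `F` along every `K`-embedding. -/
theorem finiteAlong_of_transcendental (φ : F →ₐ[K] F') {t : F} (ht : Transcendental K t)
    (x' : F') (hx' : Transcendental K x') [FiniteDimensional K⟮x'⟯ F'] : FiniteAlong K φ := by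
  haveI : FiniteDimensional K⟮φ t⟯ F' :=
    Fermat.Agent.FF.finiteDimensional_of_transcendental x' hx' (φ t) (transcendental_map φ ht)
  exact finiteAlong_of_adjoin φ t

theorem isIntegral_of_transcendental (φ : F →ₐ[K] F') {t : F} (ht : Transcendental K t)
    (x' : F') (hx' : Transcendental K x') [FiniteDimensional K⟮x'⟯ F'] :
    φ.toRingHom.IsIntegral :=
  isIntegral_of_finiteAlong φ (finiteAlong_of_transcendental φ ht x' hx')

end CharZero

end Fermat.Agent.S37.AlongFin
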