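import Mathlib
import Fermat.Agent.S37.PullBound
import Fermat.Agent.S37.AlongFinite
import Fermat.Agent.S18.GenusAsm
import Fermat.Agent.S18.DescentBasic

/-!
# S37, piece (C-bound), modular instantiation

For `N ∣ N'`: the inclusion `incl : F_N → F_N'` of the modular function fields over `ℚ̄` is
integral and finite, `F_N'` has principal divisors of degree `0`, and the divisors
`r_* (incl^* P)` have coefficients in `[0, B]` for a bound `B` independent of the place `P`
of `F_N` and of the map of places `r`.
-/

set_option autoImplicit false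
set_option linter.style.haveILetI false
set_option linter.unusedSectionVars false

open AlgebraicCurve IntermediateField ModularCurve

noncomputable section

namespace Fermat.Agent.S37.PullBound

open Fermat.Agent.FF Fermat.Agent.S18

section Level

variable (N : ℕ) [NeZero N]

/-- principal divisors of the modular function field `F_N / ℚ̄` have degree `0`. -/
theorem hasPrincipalDivisors_bar :
    HasPrincipalDivisors (AlgebraicClosure ℚ) ↥(modularFunctionFieldBar N) :=
  ⟨(GenusAsm.curveRR_zero N).exists_div⟩

theorem deg_bar_eq_one (P : Place (AlgebraicClosure ℚ) ↥(modularFunctionFieldBar N)) :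
    P.deg = 1 :=
  (GenusAsm.curveRR_zero N).deg_one P

theorem transcendental_jBar : Transcendental (AlgebraicClosure ℚ) (jBar N) :=
  (Char0.modularRamification N).transc

theorem finiteDimensional_jBar :
    FiniteDimensional (AlgebraicClosure ℚ)⟮jBar N⟯ ↥(modularFunctionFieldBar N) :=
  (Char0.modularRamification N).findim

/-- every `ℚ̄`-embedding of a function field with a transcendental element into `F_N` is
finite. -/
theorem finiteAlong_bar {F : Type*} [Field F] [Algebra (AlgebraicClosure ℚ) F]
    (φ : F →ₐ[AlgebraicClosure ℚ] ↥(modularFunctionFieldBar N)) {t : F}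
    (ht : Transcendental (AlgebraicClosure ℚ) t) : FiniteAlong (AlgebraicClosure ℚ) φ := by
  haveI := finiteDimensional_jBar N
  exact AlongFin.finiteAlong_of_transcendental φ ht (jBar N) (transcendental_jBar N)

theorem isIntegral_bar {F : Type*} [Field F] [Algebra (AlgebraicClosure ℚ) F]
    (φ : F →ₐ[AlgebraicClosure ℚ] ↥(modularFunctionFieldBar N)) {t : F}
    (ht : Transcendental (AlgebraicClosure ℚ) t) : φ.toRingHom.IsIntegral :=
  AlongFin.isIntegral_of_finiteAlong φ (finiteAlong_bar N φ ht)

/-- **(C-bound)** for an arbitrary integral `ℚ̄`-embedding `φ : F_N → F_N'` (any two levels) and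
any instance of `HasPrincipalDivisors`. -/
theorem exists_bound_bar (N' : ℕ) [NeZero N']
    [HasPrincipalDivisors (AlgebraicClosure ℚ) ↥(modularFunctionFieldBar N')]
    (φ : ↥(modularFunctionFieldBar N) →ₐ[AlgebraicClosure ℚ] ↥(modularFunctionFieldBar N'))
    (hφ : φ.toRingHom.IsIntegral) {k Fb : Type*} [Field k] [Field Fb] [Algebra k Fb] :
    ∃ B : ℤ, ∀ (r : Place (AlgebraicClosure ℚ) ↥(modularFunctionFieldBar N') → Place k Fb)
      (P : Place (AlgebraicClosure ℚ) ↥(modularFunctionFieldBar N)) (Q : Place k Fb),
      0 ≤ Finsupp.mapDomain r (Divisor.pullbackAlong φ hφ (Finsupp.single P 1)) Q ∧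
        Finsupp.mapDomain r (Divisor.pullbackAlong φ hφ (Finsupp.single P 1)) Q ≤ B :=
  exists_bound_mapDomain_pullback φ hφ (GenusAsm.curveRR_zero N)
    (fun w => by rw [deg_bar_eq_one N' w]; exact one_pos)

end Level

section Incl

variable {N N' : ℕ} [NeZero N] [NeZero N'] (h : N ∣ N')

/-- the inclusion `F_N → F_N'` for `N ∣ N'`. -/
def inclBar : ↥(modularFunctionFieldBar N) →ₐ[AlgebraicClosure ℚ] ↥(modularFunctionFieldBar N') :=
  IntermediateField.inclusion (Descent.modularFunctionFieldBar_mono h)

theorem coe_inclBar (f : ↥(modularFunctionFieldBar N)) :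
    ((inclBar h f : ↥(modularFunctionFieldBar N')) : LaurentSeries (AlgebraicClosure ℚ)) = f :=
  IntermediateField.coe_inclusion (Descent.modularFunctionFieldBar_mono h) f

theorem inclBar_jBar : inclBar h (jBar N) = jBar N' := by
  apply Subtype.ext
  rw [coe_inclBar, MScal.coe_jBar, MScal.coe_jBar]

theorem inclBar_finiteAlong : FiniteAlong (AlgebraicClosure ℚ) (inclBar h) :=
  finiteAlong_bar N' (inclBar h) (transcendental_jBar N)

theorem inclBar_isIntegral : (inclBar h).toRingHom.IsIntegral :=
  isIntegral_bar N' (inclBar h) (transcendental_jBar N)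

/-- **(C-bound), modular form** (`hC2` of the contract): for every map of places `r`, the
coefficients of `r_* (incl^* P)` are in `[0, B]`, `B` independent of `P`, `r`. -/
theorem exists_bound_inclBar {k Fb : Type*} [Field k] [Field Fb] [Algebra k Fb] :
    letI := hasPrincipalDivisors_bar N'
    ∃ B : ℤ, ∀ (r : Place (AlgebraicClosure ℚ) ↥(modularFunctionFieldBar N') → Place k Fb)
      (P : Place (AlgebraicClosure ℚ) ↥(modularFunctionFieldBar N)) (Q : Place k Fb),
      0 ≤ Finsupp.mapDomain r
          (Divisor.pullbackAlong (inclBar h) (inclBar_isIntegral h) (Finsupp.single P 1)) Q ∧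
        Finsupp.mapDomain r
          (Divisor.pullbackAlong (inclBar h) (inclBar_isIntegral h) (Finsupp.single P 1)) Q
            ≤ B := by
  letI := hasPrincipalDivisors_bar N'
  exact exists_bound_mapDomain_pullback (inclBar h) (inclBar_isIntegral h)
    (GenusAsm.curveRR_zero N) (fun w => by rw [deg_bar_eq_one N' w]; exact one_pos)

end Incl

end Fermat.Agent.S37.PullBound
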