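import Mathlib
import Fermat.Prelude.Def_AlgebraicCurve_Correspondence
import Fermat.Prelude.Def_ModularCurve_ArithmeticGalois

/-!
# S37, piece (D), pullback side (helper2): the pullback of divisors commutes with semilinear
automorphisms

`φ : F →ₐ[K] F'` integral, `g`, `g'` semilinear automorphisms of `F`, `F'` intertwined by `φ`.
Then `pullbackAlong φ (g • D) = g' • pullbackAlong φ D`.

Modular case: the inclusion `F_N ≤ F_N'` intertwines the arithmetic Galois actions.
-/

set_option autoImplicit false
set_option linter.unusedSectionVars false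
set_option linter.style.haveILetI false

open AlgebraicCurve

noncomputable section

namespace Fermat.Agent.S37.PullEquiv

section Abstract

variable {K F F' : Type*} [Field K] [Field F] [Field F'] [Algebra K F] [Algebra K F']
variable (φ : F →ₐ[K] F') (hφ : φ.toRingHom.IsIntegral)
variable {g : SemilinearAut K F} {g' : SemilinearAut K F'}

theorem mem_restrictAlong_iff (w : Place K F') (x : F) :
    x ∈ (w.restrictAlong φ hφ).toValuationSubring ↔ φ x ∈ w.toValuationSubring :=
  Iff.rfl

open scoped Pointwise in
/-- `restrictAlong` is equivariant -/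
theorem restrictAlong_smul (h : SemilinearAut.IntertwinesAlong φ.toRingHom g g')
    (w : Place K F') :
    (g' • w).restrictAlong φ hφ = g • (w.restrictAlong φ hφ) := by
  apply Place.ext
  ext x
  rw [mem_restrictAlong_iff, SemilinearAut.smul_toValuationSubring,
    SemilinearAut.smul_toValuationSubring,
    ValuationSubring.mem_pointwise_smul_iff_inv_smul_mem,
    ValuationSubring.mem_pointwise_smul_iff_inv_smul_mem, mem_restrictAlong_iff]
  have := h.inv x
  rw [show (φ.toRingHom x) = φ x from rfl] at this
  rw [this]
  rfl

/-- `ord` of a translated place -/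
theorem ord_smul_place (g' : SemilinearAut K F') (w : Place K F') (f : F') :
    (g' • w).ord f = w.ord (g'⁻¹ • f) := by
  have := SemilinearAut.ord_smul g' w (g'⁻¹ • f)
  rwa [smul_inv_smul] at this

include hφ in
/-- the ramification index is invariant -/
theorem ramificationIndexAlong_smul (h : SemilinearAut.IntertwinesAlong φ.toRingHom g g')
    (w : Place K F') :
    (g' • w).ramificationIndexAlong φ = w.ramificationIndexAlong φ := by
  obtain ⟨π, hπ⟩ := IsDiscreteValuationRing.exists_irreducible
    (w.restrictAlong φ hφ).toValuationSubring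
  have h1 : w.ord (φ (π : F)) = w.ramificationIndexAlong φ := by
    rw [Place.ord_restrictAlong φ hφ, (w.restrictAlong φ hφ).ord_coe_irreducible hπ, mul_one]
  have h2 : (g' • w).ord (φ (g • (π : F))) = (g' • w).ramificationIndexAlong φ := by
    rw [Place.ord_restrictAlong φ hφ, restrictAlong_smul φ hφ h,
      SemilinearAut.ord_smul, (w.restrictAlong φ hφ).ord_coe_irreducible hπ, mul_one]
  have h3 : (g' • w).ord (φ (g • (π : F))) = w.ord (φ (π : F)) := by
    have := h (π : F)
    rw [show (φ.toRingHom (π : F)) = φ (π : F) from rfl,
      show (φ.toRingHom (g • (π : F))) = φ (g • (π : F)) from rfl] at this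
    rw [← this, SemilinearAut.ord_smul]
  have : ((g' • w).ramificationIndexAlong φ : ℤ) = w.ramificationIndexAlong φ := by
    rw [← h1, ← h2, h3]
  exact_mod_cast this

variable [HasPrincipalDivisors K F']

/-- **the pullback of divisors is equivariant** -/
theorem pullbackAlong_smul (h : SemilinearAut.IntertwinesAlong φ.toRingHom g g')
    (D : Divisor K F) :
    Divisor.pullbackAlong φ hφ (g • D) = g' • Divisor.pullbackAlong φ hφ D := by
  ext w
  rw [Divisor.pullbackAlong_apply, SemilinearAut.divisor_smul_apply,
    SemilinearAut.divisor_smul_apply, Divisor.pullbackAlong_apply]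
  have hinv := h.inv
  rw [restrictAlong_smul φ hφ hinv, ramificationIndexAlong_smul φ hφ hinv]

end Abstract

section Modular

open ModularCurve

variable {L : Type*} [Field L] [Algebra ℚ L]

/-- the inclusion `F₀ ≤ F₁` intertwines the arithmetic Galois actions -/
theorem intertwines_inclusion {F₀ F₁ : IntermediateField ℚ (LaurentSeries ℚ)}
    (hle : laurentBaseChange L F₀ ≤ laurentBaseChange L F₁) (σ : L ≃ₐ[ℚ] L) :
    SemilinearAut.IntertwinesAlong (IntermediateField.inclusion hle).toRingHom
      (arithmeticGalois F₀ σ) (arithmeticGalois F₁ σ) := by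
  intro x
  apply Subtype.ext
  rfl

/-- the modular case: `N`, `N'` with `F_N ≤ F_N'` -/
theorem intertwines_modular (N N' : ℕ)
    (hle : modularFunctionFieldBar N ≤ modularFunctionFieldBar N')
    (σ : AlgebraicClosure ℚ ≃ₐ[ℚ] AlgebraicClosure ℚ) :
    SemilinearAut.IntertwinesAlong (IntermediateField.inclusion hle).toRingHom
      (arithmeticGalois (modularFunctionFieldFull N) σ)
      (arithmeticGalois (modularFunctionFieldFull N') σ) :=
  intertwines_inclusion hle σ

/-- the pullback `Div(F_N) → Div(F_N')` commutes with the arithmetic Galois action -/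
theorem pullbackAlong_galois (N N' : ℕ)
    (hle : modularFunctionFieldBar N ≤ modularFunctionFieldBar N')
    (hφ : (IntermediateField.inclusion hle).toRingHom.IsIntegral)
    [HasPrincipalDivisors (AlgebraicClosure ℚ) (modularFunctionFieldBar N')]
    (σ : AlgebraicClosure ℚ ≃ₐ[ℚ] AlgebraicClosure ℚ)
    (D : Divisor (AlgebraicClosure ℚ) (modularFunctionFieldBar N)) :
    Divisor.pullbackAlong (IntermediateField.inclusion hle) hφ
        (arithmeticGalois (modularFunctionFieldFull N) σ • D) =
      arithmeticGalois (modularFunctionFieldFull N') σ •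
        Divisor.pullbackAlong (IntermediateField.inclusion hle) hφ D :=
  pullbackAlong_smul _ hφ (intertwines_modular N N' hle σ) D

end Modular

end Fermat.Agent.S37.PullEquiv
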