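import Fermat.Agent.S37.ESAssembly

/-!
# S37 (item 88), pieces (E3) + (A2), abstract: the Eichler–Shimura relation on divisors

`ρ : Div(F) → Div(Fb)` (reduction), `S` (a Frobenius element acting on `Div(F)`),
`T` (the Hecke correspondence), `Fm`, `V` on `Div(Fb)` (Frobenius `φ_*` and Verschiebung
`ℓ φ_*⁻¹`).  All maps send places to effective divisors of BOUNDED degree (`IsBddMap`).  From
* `ρ (T (div y)) = (Fm + V) (ρ (div y))` for every function `y ≠ 0` (Kronecker),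
* `ρ ∘ S = Fm ∘ ρ` on divisors of degree `0`,
* `V ∘ Fm = ℓ`,
we get `ρ (S² D - T S D + ℓ D) = 0` for every divisor `D` of degree `0`.
-/

set_option autoImplicit false

open AlgebraicCurve Fermat.Agent.S18.RPrime

noncomputable section

namespace Fermat.Agent.S37.E3

/-- an additive map of divisors sending places to effective divisors of degree `≤ B`. -/
structure IsBddMap {K₁ F₁ K₂ F₂ : Type*} [Field K₁] [Field F₁] [Algebra K₁ F₁]
    [Field K₂] [Field F₂] [Algebra K₂ F₂]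
    (ρ : Divisor K₁ F₁ →+ Divisor K₂ F₂) (B : ℕ) : Prop where
  nonneg : ∀ P : Place K₁ F₁, 0 ≤ ρ (Finsupp.single P 1)
  degree_le : ∀ P : Place K₁ F₁, Divisor.degree (ρ (Finsupp.single P 1)) ≤ B

section BddMap

variable {K₁ F₁ K₂ F₂ : Type*} [Field K₁] [Field F₁] [Algebra K₁ F₁]
    [Field K₂] [Field F₂] [Algebra K₂ F₂]
    {ρ : Divisor K₁ F₁ →+ Divisor K₂ F₂} {d : ℕ}

theorem IsEffMap.isBddMap (h : IsEffMap ρ d) : IsBddMap ρ d :=
  ⟨h.nonneg, fun P => (h.degree P).le⟩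

theorem IsBddMap.mono (h : IsBddMap ρ d) {d' : ℕ} (hd : d ≤ d') : IsBddMap ρ d' :=
  ⟨h.nonneg, fun P => (h.degree_le P).trans (by exact_mod_cast hd)⟩

theorem IsBddMap.map_nonneg (h : IsBddMap ρ d) {E : Divisor K₁ F₁} (hE : 0 ≤ E) :
    0 ≤ ρ E := by
  rw [map_eq_sum_single ρ E, Finsupp.sum]
  exact Finset.sum_nonneg fun P _ =>
    smul_nonneg (Finsupp.le_def.mp hE P) (h.nonneg P)

theorem IsBddMap.degree_map_le (h : IsBddMap ρ d) (hdeg : ∀ P : Place K₁ F₁, P.deg = 1)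
    {E : Divisor K₁ F₁} (hE : 0 ≤ E) : Divisor.degree (ρ E) ≤ d * Divisor.degree E := by
  rw [map_eq_sum_single ρ E, Finsupp.sum, map_sum, degree_eq_sum hdeg E, Finsupp.sum,
    Finset.mul_sum]
  refine Finset.sum_le_sum fun P _ => ?_
  have h0 : 0 ≤ E P := Finsupp.le_def.mp hE P
  rw [map_zsmul, smul_eq_mul, mul_comm]
  exact mul_le_mul_of_nonneg_right (h.degree_le P) h0

theorem IsBddMap.comp {K₃ F₃ : Type*} [Field K₃] [Field F₃] [Algebra K₃ F₃]
    {σ : Divisor K₂ F₂ →+ Divisor K₃ F₃} {e : ℕ} (hσ : IsBddMap σ e) (hρ : IsBddMap ρ d)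
    (hdeg : ∀ Q : Place K₂ F₂, Q.deg = 1) : IsBddMap (σ.comp ρ) (e * d) where
  nonneg P := hσ.map_nonneg (hρ.nonneg P)
  degree_le P := by
    rw [AddMonoidHom.comp_apply]
    refine (hσ.degree_map_le hdeg (hρ.nonneg P)).trans ?_
    push_cast
    exact mul_le_mul_of_nonneg_left (hρ.degree_le P) (by positivity)

theorem IsBddMap.add {σ : Divisor K₁ F₁ →+ Divisor K₂ F₂} {e : ℕ} (hρ : IsBddMap ρ d)
    (hσ : IsBddMap σ e) : IsBddMap (ρ + σ) (d + e) where
  nonneg P := add_nonneg (hρ.nonneg P) (hσ.nonneg P)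
  degree_le P := by
    rw [AddMonoidHom.add_apply, map_add]
    have h1 := hρ.degree_le P
    have h2 := hσ.degree_le P
    push_cast
    omega

theorem IsBddMap.apply_mem (h : IsBddMap ρ d) (hdeg : ∀ Q : Place K₂ F₂, Q.deg = 1)
    (P : Place K₁ F₁) (Q : Place K₂ F₂) :
    0 ≤ ρ (Finsupp.single P 1) Q ∧ ρ (Finsupp.single P 1) Q ≤ d := by
  refine ⟨Finsupp.le_def.mp (h.nonneg P) Q, ?_⟩
  exact (apply_le_degree hdeg (h.nonneg P) Q).trans (h.degree_le P)

/-- the push-forward along a map of places is bounded by `1`. -/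
theorem isBddMap_mapDomain (hdeg : ∀ Q : Place K₂ F₂, Q.deg = 1)
    (r : Place K₁ F₁ → Place K₂ F₂) :
    IsBddMap (Finsupp.mapDomain.addMonoidHom r : Divisor K₁ F₁ →+ Divisor K₂ F₂) 1 where
  nonneg P := by
    rw [Finsupp.mapDomain.addMonoidHom_apply, Finsupp.mapDomain_single]
    exact single_one_nonneg _
  degree_le P := by
    rw [Finsupp.mapDomain.addMonoidHom_apply, Finsupp.mapDomain_single,
      degree_single_one hdeg]
    rfl

end BddMap

variable {K F : Type*} [Field K] [Field F] [Algebra K F]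
  {k Fb : Type*} [Field k] [Field Fb] [Algebra k Fb]

/-- rigidity for two bounded maps. -/
theorem eq_of_eq_on_principal' {g : ℕ} (hK : CurveRR K F g) (hk : ∀ Q : Place k Fb, Q.deg = 1)
    (Φ₁ Φ₂ : Divisor K F →+ Divisor k Fb) {B₁ B₂ : ℕ} (h1 : IsBddMap Φ₁ B₁)
    (h2 : IsBddMap Φ₂ B₂)
    (hfun : ∀ (y : F), y ≠ 0 → ∀ D : Divisor K F, (∀ v, D v = v.ord y) → Φ₁ D = Φ₂ D)
    (D : Divisor K F) (hD : Divisor.degree D = 0) : Φ₁ D = Φ₂ D := by
  have := Fermat.Agent.S37.rigidity_div hK (Φ₁ - Φ₂)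
    (fun y hy D' hD' => by
      rw [AddMonoidHom.sub_apply, hfun y hy D' hD', sub_self])
    ((B₁ : ℤ) + B₂)
    (fun P Q => by
      rw [AddMonoidHom.sub_apply, Finsupp.sub_apply]
      have a1 := h1.apply_mem hk P Q
      have a2 := h2.apply_mem hk P Q
      rw [abs_le]
      constructor <;> omega)
    D hD
  rw [AddMonoidHom.sub_apply] at this
  exact sub_eq_zero.mp this

/-- **(E3)** in the form `ρ ∘ T = (Fm + V) ∘ ρ` on degree `0`. -/
theorem rho_hecke_eq {g : ℕ} (hK : CurveRR K F g) (hk : ∀ Q : Place k Fb, Q.deg = 1)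
    (ρ : Divisor K F →+ Divisor k Fb) (T : Divisor K F →+ Divisor K F)
    (Fm V : Divisor k Fb →+ Divisor k Fb) {d e a b : ℕ}
    (hρ : IsBddMap ρ d) (hT : IsBddMap T e) (hFm : IsBddMap Fm a) (hV : IsBddMap V b)
    (hfun : ∀ (y : F), y ≠ 0 → ∀ D : Divisor K F, (∀ v, D v = v.ord y) →
      ρ (T D) = Fm (ρ D) + V (ρ D))
    (D : Divisor K F) (hD : Divisor.degree D = 0) : ρ (T D) = Fm (ρ D) + V (ρ D) :=
  eq_of_eq_on_principal' hK hk (ρ.comp T) ((Fm + V).comp ρ) (hρ.comp hT hK.deg_one)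
    ((hFm.add hV).comp hρ hk) (fun y hy D' hD' => hfun y hy D' hD') D hD

/-- **(A2) on divisors**: the Eichler–Shimura relation after reduction. -/
theorem es_relation_div {g : ℕ} (hK : CurveRR K F g) (hk : ∀ Q : Place k Fb, Q.deg = 1)
    (ρ : Divisor K F →+ Divisor k Fb) (S T : Divisor K F →+ Divisor K F)
    (Fm V : Divisor k Fb →+ Divisor k Fb) {d e a b : ℕ} (ℓ : ℕ)
    (hρ : IsBddMap ρ d) (hT : IsBddMap T e) (hFm : IsBddMap Fm a) (hV : IsBddMap V b)
    (hSdeg : ∀ D : Divisor K F, Divisor.degree D = 0 → Divisor.degree (S D) = 0)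
    (hS : ∀ D : Divisor K F, Divisor.degree D = 0 → ρ (S D) = Fm (ρ D))
    (hVF : ∀ E : Divisor k Fb, V (Fm E) = ℓ • E)
    (hfun : ∀ (y : F), y ≠ 0 → ∀ D : Divisor K F, (∀ v, D v = v.ord y) →
      ρ (T D) = Fm (ρ D) + V (ρ D))
    (D : Divisor K F) (hD : Divisor.degree D = 0) :
    ρ (S (S D) - T (S D) + ℓ • D) = 0 := by
  have hSD := hSdeg D hD
  have h1 : ρ (S (S D)) = Fm (Fm (ρ D)) := by rw [hS (S D) hSD, hS D hD]
  have h2 : ρ (T (S D)) = Fm (Fm (ρ D)) + ℓ • ρ D := by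
    rw [rho_hecke_eq hK hk ρ T Fm V hρ hT hFm hV hfun (S D) hSD, hS D hD, hVF]
  rw [map_add, map_sub, map_nsmul, h1, h2]
  abel

end Fermat.Agent.S37.E3
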