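/-
S37 (item 88), piece (D), rigidity wiring (helper4).

ABSTRACT: `R` a reduction datum for `(F, Fb)`, `r` a place reduction compatible with the divisors
of units (`DivCompatR R r`), `σ`, `σb` semilinear automorphisms of `F`, `Fb` such that the
reduction is `(σ, σb)`-equivariant.  Then `r_* (σ • D) = σb • r_* D` for every divisor `D` of
degree `0` (on principal divisors by `DivCompatR`, in general by rigidity).
-/
import Mathlib
import Fermat.Agent.S37.ESRelation
import Fermat.Agent.S18.MaxPrinciple
import Fermat.Prelude.Def_AlgebraicCurve_BaseChangeGalois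

set_option autoImplicit false

open AlgebraicCurve Fermat.Agent.S18.RPrime

noncomputable section

namespace Fermat.Agent.S37.GalEquiv

variable {K F k Fb : Type*} [Field K] [Field F] [Algebra K F]
  [Field k] [Field Fb] [Algebra k Fb]

/-- the reduction `R.red` is equivariant for `(σ, σb)`. -/
def RedEquivariant (R : RedDatum K F k Fb) (σ : SemilinearAut K F) (σb : SemilinearAut k Fb) :
    Prop :=
  ∀ y : R.O, ∃ h : σ • (y : F) ∈ R.O, R.red ⟨σ • (y : F), h⟩ = σb • R.red y

/-- the action of a semilinear automorphism on divisors, as an additive map. -/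
def smulHom (σ : SemilinearAut K F) : Divisor K F →+ Divisor K F :=
  DistribSMul.toAddMonoidHom (Divisor K F) σ

@[simp] theorem smulHom_apply (σ : SemilinearAut K F) (D : Divisor K F) :
    smulHom σ D = σ • D := rfl

theorem isBddMap_smulHom (hdeg : ∀ P : Place K F, P.deg = 1) (σ : SemilinearAut K F) :
    E3.IsBddMap (smulHom σ) 1 where
  nonneg P := by
    rw [smulHom_apply, SemilinearAut.smul_single]
    exact single_one_nonneg _
  degree_le P := by
    rw [smulHom_apply, SemilinearAut.degree_smul, Divisor.degree_single, hdeg P]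
    simp

theorem ord_smul_const (P : Place K F) {c : K} (hc : c ≠ 0) (y : F) :
    P.ord (c • y) = P.ord y := by
  rcases eq_or_ne y 0 with rfl | hy
  · simp
  rw [Algebra.smul_def, Place.ord_mul _ (by simpa using hc) hy, ord_const P hc, zero_add]

/-- **(D) on principal divisors.** -/
theorem mapDomain_smul_principal (R : RedDatum K F k Fb) (r : Place K F → Place k Fb)
    (hr : DivCompatR R r) (σ : SemilinearAut K F) (σb : SemilinearAut k Fb)
    (hσ : RedEquivariant R σ σb) (y : F) (hy : y ≠ 0) (D : Divisor K F)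
    (hD : ∀ v, D v = v.ord y) :
    Finsupp.mapDomain r (σ • D) = σb • Finsupp.mapDomain r D := by
  obtain ⟨c, hc, h, hu⟩ := R.exists_scale y hy
  set u : R.O := ⟨c • y, h⟩ with hu_def
  have hDu : ∀ P : Place K F, D P = P.ord (u : F) := fun P => by
    rw [hD P]; exact (ord_smul_const P hc y).symm
  obtain ⟨h', hred⟩ := hσ u
  set u' : R.O := ⟨σ • (u : F), h'⟩ with hu'_def
  have hredu : R.red u ≠ 0 := (hu.map R.red).ne_zero
  have hu' : IsUnit u' := by
    apply R.isUnit_of_red_ne_zero
    rw [hred]
    intro h0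
    apply hredu
    have := congrArg (σb⁻¹ • ·) h0
    simpa using this
  have hD' : ∀ P : Place K F, (σ • D) P = P.ord (u' : F) := fun P => by
    rw [SemilinearAut.divisor_smul_apply, hDu]
    have := SemilinearAut.ord_smul σ (σ⁻¹ • P) (u : F)
    rw [smul_inv_smul] at this
    exact this.symm
  ext Q
  rw [hr u' hu' (σ • D) hD' Q, hred, SemilinearAut.divisor_smul_apply,
    hr u hu D hDu (σb⁻¹ • Q)]
  have := SemilinearAut.ord_smul σb (σb⁻¹ • Q) (R.red u)
  rw [smul_inv_smul] at this
  exact this

/-- **(D), abstract**: `r_* (σ • D) = σb • r_* D` on divisors of degree `0`. -/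
theorem mapDomain_smul_of_degree_zero {g : ℕ} (hK : CurveRR K F g)
    (hk : ∀ Q : Place k Fb, Q.deg = 1)
    (R : RedDatum K F k Fb) (r : Place K F → Place k Fb)
    (hr : DivCompatR R r) (σ : SemilinearAut K F) (σb : SemilinearAut k Fb)
    (hσ : RedEquivariant R σ σb) (D : Divisor K F) (hD : Divisor.degree D = 0) :
    Finsupp.mapDomain r (σ • D) = σb • Finsupp.mapDomain r D := by
  have h1 : E3.IsBddMap ((Finsupp.mapDomain.addMonoidHom r : Divisor K F →+ Divisor k Fb).comp
      (smulHom σ)) (1 * 1) :=
    (E3.isBddMap_mapDomain hk r).comp (isBddMap_smulHom hK.deg_one σ) hK.deg_one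
  have h2 : E3.IsBddMap ((smulHom σb).comp
      (Finsupp.mapDomain.addMonoidHom r : Divisor K F →+ Divisor k Fb)) (1 * 1) :=
    (isBddMap_smulHom hk σb).comp (E3.isBddMap_mapDomain hk r) hk
  exact E3.eq_of_eq_on_principal' hK hk _ _ h1 h2
    (fun y hy D' hD' => mapDomain_smul_principal R r hr σ σb hσ y hy D' hD') D hD

end Fermat.Agent.S37.GalEquiv
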