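/-
S37 (item 88), piece (D), rigidity wiring, part 2 (helper4): the reduction map
`ρ_div = r_* ∘ φ^*` commutes with a pair of compatible semilinear automorphisms.
-/
import Mathlib
import Fermat.Agent.S37.GalEquiv
import Fermat.Agent.S37.PullEquiv
import Fermat.Agent.S37.RedMap
import Fermat.Agent.S18.GaussDatum

set_option autoImplicit false

open AlgebraicCurve Fermat.Agent.S18 Fermat.Agent.S18.RPrime

noncomputable section

namespace Fermat.Agent.S37.GalEquiv

section Gauss

variable {L : Type*} [Field L] {A : ValuationSubring L} {k : Type*} [Field k] {π : A →+* k}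
  {F : IntermediateField L (LaurentSeries L)} {Fb : IntermediateField k (LaurentSeries k)}

/-- `RedV`-equivariance gives equivariance of the Gauss reduction datum. -/
theorem redEquivariant_gaussDatum (H : GaussD.Hyp A π F Fb) (σ : SemilinearAut L F)
    (σb : SemilinearAut k Fb)
    (hσ : ∀ (y : F) (yb : Fb), RedV A π F Fb y yb → RedV A π F Fb (σ • y) (σb • yb)) :
    RedEquivariant (GaussD.gaussDatum H) σ σb := by
  intro y
  have h1 := hσ _ _ (GaussD.redV_gaussDatum_red H y)
  exact ⟨⟨_, h1⟩, (GaussD.gaussDatum_red_eq_iff H _ _).2 h1⟩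

end Gauss

section Rho

variable {K F F' k Fb : Type*} [Field K] [Field F] [Field F'] [Algebra K F] [Algebra K F']
  [Field k] [Field Fb] [Algebra k Fb] [HasPrincipalDivisors K F']

/-- **(D) for `ρ_div`**: `ρ_div (g • D) = σb • ρ_div D` on divisors of degree `0`. -/
theorem rhoDiv_smul_of_degree_zero {g0 : ℕ} (φ : F →ₐ[K] F') (hφ : φ.toRingHom.IsIntegral)
    (hK' : CurveRR K F' g0) (hk : ∀ Q : Place k Fb, Q.deg = 1)
    (R : RedDatum K F' k Fb) (r : Place K F' → Place k Fb) (hr : DivCompatR R r)
    (g : SemilinearAut K F) (g' : SemilinearAut K F') (σb : SemilinearAut k Fb)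
    (hint : SemilinearAut.IntertwinesAlong φ.toRingHom g g')
    (hσ : RedEquivariant R g' σb)
    (hdeg : ∀ D : Divisor K F, Divisor.degree D = 0 →
      Divisor.degree (Divisor.pullbackAlong φ hφ D) = 0)
    (D : Divisor K F) (hD : Divisor.degree D = 0) :
    RedMap.rhoDiv φ hφ r (g • D) = σb • RedMap.rhoDiv φ hφ r D := by
  rw [RedMap.rhoDiv_apply, RedMap.rhoDiv_apply, PullEquiv.pullbackAlong_smul φ hφ hint D]
  exact mapDomain_smul_of_degree_zero hK' hk R r hr g' σb hσ _ (hdeg D hD)

end Rho

end Fermat.Agent.S37.GalEquiv
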