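/-
S37 (item 88), final assembly, part 1 (helper4): the maps on `Pic (Fb)` induced by semilinear
automorphisms, and the passage from divisors to classes for `ρ = rhoPic`.
-/
import Mathlib
import Fermat.Agent.S37.GalEquivRho
import Fermat.Agent.S37.ESFun

set_option autoImplicit false

open AlgebraicCurve Fermat.Agent.S18 Fermat.Agent.S18.RPrime

noncomputable section

namespace Fermat.Agent.S37.Asm

section PicMap

variable {k Fb : Type*} [Field k] [Field Fb] [Algebra k Fb]

/-- the action of a semilinear automorphism on `Pic`. -/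
def picSmulHom (σb : SemilinearAut k Fb) : Pic k Fb →+ Pic k Fb :=
  QuotientAddGroup.map _ _ (GalEquiv.smulHom σb)
    (fun _ hD => SemilinearAut.smul_mem_principal σb hD)

theorem picSmulHom_mk (σb : SemilinearAut k Fb) (E : Divisor k Fb) :
    picSmulHom σb (QuotientAddGroup.mk E) = QuotientAddGroup.mk (σb • E) := rfl

theorem picSmulHom_inv_apply (σb : SemilinearAut k Fb) (y : Pic k Fb) :
    picSmulHom σb⁻¹ (picSmulHom σb y) = y := by
  obtain ⟨E, rfl⟩ := QuotientAddGroup.mk_surjective y
  rw [picSmulHom_mk, picSmulHom_mk, inv_smul_smul]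

theorem picSmulHom_one (y : Pic k Fb) : picSmulHom (1 : SemilinearAut k Fb) y = y := by
  obtain ⟨E, rfl⟩ := QuotientAddGroup.mk_surjective y
  rw [picSmulHom_mk, one_smul]

end PicMap

section Rho

variable {K F F' k Fb : Type*} [Field K] [Field F] [Field F'] [Algebra K F] [Algebra K F']
  [Field k] [Field Fb] [Algebra k Fb] [HasPrincipalDivisors K F']

/-- **(D) on classes.** -/
theorem rhoPic_smul {g0 : ℕ} (φ : F →ₐ[K] F') (hφ : φ.toRingHom.IsIntegral)
    (hK' : CurveRR K F' g0) (hk : ∀ Q : Place k Fb, Q.deg = 1)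
    (R : RedDatum K F' k Fb) (r : Place K F' → Place k Fb) (hr : DivCompatR R r)
    (hprin : ∀ D : Divisor K F, D.IsPrincipal → (RedMap.rhoDiv φ hφ r D).IsPrincipal)
    (g : SemilinearAut K F) (g' : SemilinearAut K F') (σb : SemilinearAut k Fb)
    (hint : SemilinearAut.IntertwinesAlong φ.toRingHom g g')
    (hσ : GalEquiv.RedEquivariant R g' σb)
    (hdeg : ∀ D : Divisor K F, Divisor.degree D = 0 →
      Divisor.degree (Divisor.pullbackAlong φ hφ D) = 0)
    (x : Pic0 K F) :
    RedMap.rhoPic φ hφ r hprin (g • x) = picSmulHom σb (RedMap.rhoPic φ hφ r hprin x) := by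
  obtain ⟨D, rfl⟩ := Pic0.mk_surjective x
  rw [SemilinearAut.pic0_smul_mk, RedMap.rhoPic_mk, RedMap.rhoPic_mk, picSmulHom_mk,
    SemilinearAut.coe_degZeroSMulHom]
  congr 1
  exact GalEquiv.rhoDiv_smul_of_degree_zero φ hφ hK' hk R r hr g g' σb hint hσ hdeg _
    (Divisor.mem_degZero.mp D.2)

end Rho

end Fermat.Agent.S37.Asm
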