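import Fermat.Agent.S37.RedGal

/-!
# S37 (item 88), piece (E2) (helper9): Frobenius on `Fbar_N` and on its divisors

`frobAutC k N ℓ : SemilinearAut k Fbar_N` is the coefficientwise Frobenius `φ`.
Relative Frobenius `Fr(y) = y(q^ℓ) = (φ⁻¹ y)^ℓ`.  If `z = y(q^ℓ) · φ(y)` (Kronecker), then
`div z = ℓ • (φ⁻¹ • div y) + φ • div y` (prelude action of `SemilinearAut` on divisors).
-/

set_option autoImplicit false

noncomputable section

open HahnSeries AlgebraicCurve ModularCurve IsLocalRing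

namespace Fermat.Agent.S37

section FrobC

variable (k : Type*) [Field k] (N : ℕ) (ℓ : ℕ) [hℓ : Fact ℓ.Prime] [CharP k ℓ] [PerfectRing k ℓ]

/-- the coefficientwise Frobenius of `Fbar_N`. -/
def frobAutC : SemilinearAut k (modularFunctionFieldFullC k N) :=
  coeffAutC k N (frobeniusEquiv k ℓ)

theorem coe_frobAutC_smul (y : modularFunctionFieldFullC k N) :
    ((frobAutC k N ℓ • y : modularFunctionFieldFullC k N) : LaurentSeries k)
      = coeffMap (frobenius k ℓ) (y : LaurentSeries k) :=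
  rfl

theorem qExpand_frobAutC_smul (y : modularFunctionFieldFullC k N) :
    haveI : NeZero ℓ := ⟨hℓ.out.ne_zero⟩
    qExpand k ℓ ((frobAutC k N ℓ • y : modularFunctionFieldFullC k N) : LaurentSeries k)
      = (y : LaurentSeries k) ^ ℓ := by
  haveI : NeZero ℓ := ⟨hℓ.out.ne_zero⟩
  rw [coe_frobAutC_smul, ← pow_char_eq_qExpand]

/-- relative Frobenius: `y(q^ℓ) = (φ⁻¹ y)^ℓ`. -/
theorem qExpand_eq_pow (y : modularFunctionFieldFullC k N) :
    haveI : NeZero ℓ := ⟨hℓ.out.ne_zero⟩
    qExpand k ℓ (y : LaurentSeries k)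
      = (((frobAutC k N ℓ)⁻¹ • y : modularFunctionFieldFullC k N) : LaurentSeries k) ^ ℓ := by
  haveI : NeZero ℓ := ⟨hℓ.out.ne_zero⟩
  rw [← qExpand_frobAutC_smul k N ℓ ((frobAutC k N ℓ)⁻¹ • y), smul_inv_smul]

/-- Kronecker's right hand side inside `Fbar_N`. -/
theorem eq_of_kronecker (y z : modularFunctionFieldFullC k N)
    (h : haveI : NeZero ℓ := ⟨hℓ.out.ne_zero⟩
      (z : LaurentSeries k) = qExpand k ℓ (y : LaurentSeries k)
        * coeffMap (frobenius k ℓ) (y : LaurentSeries k)) :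
    z = ((frobAutC k N ℓ)⁻¹ • y) ^ ℓ * (frobAutC k N ℓ • y) := by
  apply Subtype.ext
  rw [h, qExpand_eq_pow k N ℓ y]
  rfl

theorem ord_kronecker (Q : Place k (modularFunctionFieldFullC k N))
    (y z : modularFunctionFieldFullC k N) (hy : y ≠ 0)
    (h : haveI : NeZero ℓ := ⟨hℓ.out.ne_zero⟩
      (z : LaurentSeries k) = qExpand k ℓ (y : LaurentSeries k)
        * coeffMap (frobenius k ℓ) (y : LaurentSeries k)) :
    Q.ord z = (ℓ : ℤ) * (frobAutC k N ℓ • Q).ord y + ((frobAutC k N ℓ)⁻¹ • Q).ord y := by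
  rw [eq_of_kronecker k N ℓ y z h]
  have h1 : (frobAutC k N ℓ)⁻¹ • y ≠ 0 := by
    intro h0
    apply hy
    have := congrArg (fun t => frobAutC k N ℓ • t) h0
    simpa using this
  have h2 : frobAutC k N ℓ • y ≠ 0 := by
    intro h0
    apply hy
    have := congrArg (fun t => (frobAutC k N ℓ)⁻¹ • t) h0
    simpa using this
  rw [Place.ord_mul _ (pow_ne_zero _ h1) h2, ← zpow_natCast, Place.ord_zpow]
  congr 1
  · congr 1
    conv_lhs => rw [← inv_smul_smul (frobAutC k N ℓ) Q]
    exact SemilinearAut.ord_smul _ _ _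
  · conv_lhs => rw [← smul_inv_smul (frobAutC k N ℓ) Q]
    exact SemilinearAut.ord_smul _ _ _

/-- **(E2)**: `div(y(q^ℓ) φ(y)) = ℓ • (φ⁻¹ • div y) + φ • div y`. -/
theorem div_kronecker (y z : modularFunctionFieldFullC k N) (hy : y ≠ 0)
    (h : haveI : NeZero ℓ := ⟨hℓ.out.ne_zero⟩
      (z : LaurentSeries k) = qExpand k ℓ (y : LaurentSeries k)
        * coeffMap (frobenius k ℓ) (y : LaurentSeries k))
    (D E : Divisor k (modularFunctionFieldFullC k N)) (hD : ∀ Q, D Q = Q.ord y)
    (hE : ∀ Q, E Q = Q.ord z) :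
    E = (ℓ : ℤ) • ((frobAutC k N ℓ)⁻¹ • D) + frobAutC k N ℓ • D := by
  ext Q
  rw [hE, ord_kronecker k N ℓ Q y z hy h, Finsupp.add_apply, Finsupp.smul_apply,
    SemilinearAut.divisor_smul_apply, SemilinearAut.divisor_smul_apply, inv_inv, hD, hD,
    smul_eq_mul]

end FrobC

section FrobeniusElement

variable (A : ValuationSubring (AlgebraicClosure ℚ)) (N : ℕ) (ℓ : ℕ) [hℓ : Fact ℓ.Prime]
  [CharP (ResidueField A) ℓ] [PerfectRing (ResidueField A) ℓ]

/-- a Frobenius element at `A` induces the Frobenius of the residue field. -/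
theorem resAut_of_isFrobeniusAt {σ : AlgebraicClosure ℚ ≃ₐ[ℚ] AlgebraicClosure ℚ}
    (h : A.IsFrobeniusAt σ ℓ) :
    resAut A ⟨σ, h.mem_decompositionSubgroup⟩ = frobeniusEquiv (ResidueField A) ℓ := by
  apply RingEquiv.ext
  intro x
  rw [resAut_apply, h.smul_residue_eq]
  rfl

/-- **(D) for Frobenius elements**: `RedV y yb → RedV (σ y) (φ yb)`. -/
theorem redV_frobenius {σ : AlgebraicClosure ℚ ≃ₐ[ℚ] AlgebraicClosure ℚ}
    (h : A.IsFrobeniusAt σ ℓ) {y : modularFunctionFieldBar N}
    {yb : modularFunctionFieldFullC (ResidueField A) N}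
    (hy : S18.RedV A (residue A) (modularFunctionFieldBar N)
      (modularFunctionFieldFullC (ResidueField A) N) y yb) :
    S18.RedV A (residue A) (modularFunctionFieldBar N)
      (modularFunctionFieldFullC (ResidueField A) N)
      (arithmeticGalois (modularFunctionFieldFull N) σ • y)
      (frobAutC (ResidueField A) N ℓ • yb) := by
  have := redV_galois A N ⟨σ, h.mem_decompositionSubgroup⟩ hy
  rw [resAut_of_isFrobeniusAt A ℓ h] at this
  exact this

end FrobeniusElement

section Inertia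

variable (A : ValuationSubring (AlgebraicClosure ℚ)) (N : ℕ)

theorem coeffAutC_one_smul (k : Type*) [Field k] (yb : modularFunctionFieldFullC k N) :
    coeffAutC k N (1 : RingAut k) • yb = yb := by
  rw [map_one, one_smul]

/-- **(D) for inertia**: `RedV y yb → RedV (τ y) yb`. -/
theorem redV_inertia {τ : AlgebraicClosure ℚ ≃ₐ[ℚ] AlgebraicClosure ℚ}
    (h : τ ∈ A.inertiaSubgroupIn ℚ) {y : modularFunctionFieldBar N}
    {yb : modularFunctionFieldFullC (ResidueField A) N}
    (hy : S18.RedV A (residue A) (modularFunctionFieldBar N)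
      (modularFunctionFieldFullC (ResidueField A) N) y yb) :
    S18.RedV A (residue A) (modularFunctionFieldBar N)
      (modularFunctionFieldFullC (ResidueField A) N)
      (arithmeticGalois (modularFunctionFieldFull N) τ • y) yb := by
  obtain ⟨g, hg, hgτ⟩ := Subgroup.mem_map.mp h
  subst hgτ
  have h1 : resAut A g = 1 := resAut_eq_one_of_mem_inertia A hg
  have h3 := redV_galois A N g hy
  rw [h1, coeffAutC_one_smul] at h3
  exact h3

end Inertia

end Fermat.Agent.S37
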