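import Fermat.Agent.S37.CoeffAut
import Fermat.Agent.S18.Defs
import Fermat.Prelude.Def_ModularCurve_ArithmeticGalois

/-!
# S37 (item 88), piece (D), reduction side (helper9)

Galois equivariance of the Gauss reduction: for `g` in the decomposition group of `A`,
`RedV y yb → RedV (g • y) (gbar • yb)`, where `gbar` is the induced automorphism of the residue
field, acting coefficientwise on `Fbar_N`.  For `g` in the inertia group `gbar = 1`; for a
Frobenius element `gbar = Frob`.
-/

set_option autoImplicit false

noncomputable section

open HahnSeries AlgebraicCurve ModularCurve IsLocalRing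

namespace Fermat.Agent.S37

section RedQ

variable {L : Type*} [Field L] (A : ValuationSubring L) {k : Type*} [Field k] (π : A →+* k)

theorem redQ_coeffMap (τ : L →+* L) (τA : A →+* A) (hτA : ∀ a : A, ((τA a : A) : L) = τ a)
    (τb : k →+* k) (hτb : ∀ a : A, π (τA a) = τb (π a)) {y : LaurentSeries L}
    {yb : LaurentSeries k} (h : S18.RedQ A π y yb) :
    S18.RedQ A π (coeffMap τ y) (coeffMap τb yb) := by
  obtain ⟨y', rfl, rfl⟩ := h
  refine ⟨coeffMap τA y', ?_, ?_⟩
  · rw [coeffMap_coeffMap, coeffMap_coeffMap]
    exact coeffMap_congr (RingHom.ext hτA) _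
  · rw [coeffMap_coeffMap, coeffMap_coeffMap]
    exact coeffMap_congr (RingHom.ext hτb) _

end RedQ

section Decomposition

variable (A : ValuationSubring (AlgebraicClosure ℚ)) (N : ℕ)

/-- the automorphism of the residue field induced by an element of the decomposition group. -/
def resAut (g : A.decompositionSubgroup ℚ) : RingAut (ResidueField A) :=
  MulSemiringAction.toRingAut (A.decompositionSubgroup ℚ) (ResidueField A) g

theorem resAut_apply (g : A.decompositionSubgroup ℚ) (x : ResidueField A) :
    resAut A g x = g • x := rfl

theorem resAut_residue (g : A.decompositionSubgroup ℚ) (a : A) :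
    resAut A g (residue A a) = residue A (g • a) :=
  rfl

theorem resAut_mul (g h : A.decompositionSubgroup ℚ) :
    resAut A (g * h) = resAut A g * resAut A h :=
  map_mul _ g h

theorem resAut_eq_one_of_mem_inertia {g : A.decompositionSubgroup ℚ}
    (hg : g ∈ A.inertiaSubgroup ℚ) : resAut A g = 1 :=
  hg

theorem redQ_galois (g : A.decompositionSubgroup ℚ) {y : LaurentSeries (AlgebraicClosure ℚ)}
    {yb : LaurentSeries (ResidueField A)} (h : S18.RedQ A (residue A) y yb) :
    S18.RedQ A (residue A)
      (coeffMap (((g : AlgebraicClosure ℚ ≃ₐ[ℚ] AlgebraicClosure ℚ) :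
        AlgebraicClosure ℚ →+* AlgebraicClosure ℚ)) y)
      (coeffMap ((resAut A g : ResidueField A ≃+* ResidueField A) :
        ResidueField A →+* ResidueField A) yb) :=
  redQ_coeffMap A (residue A) _
    (MulSemiringAction.toRingHom (A.decompositionSubgroup ℚ) A g) (fun _ => rfl) _
    (fun _ => rfl) h

/-- **(D), reduction side**: `RedV` is equivariant for the decomposition group. -/
theorem redV_galois (g : A.decompositionSubgroup ℚ) {y : modularFunctionFieldBar N}
    {yb : modularFunctionFieldFullC (ResidueField A) N}
    (h : S18.RedV A (residue A) (modularFunctionFieldBar N)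
      (modularFunctionFieldFullC (ResidueField A) N) y yb) :
    S18.RedV A (residue A) (modularFunctionFieldBar N)
      (modularFunctionFieldFullC (ResidueField A) N)
      (arithmeticGalois (modularFunctionFieldFull N)
        (g : AlgebraicClosure ℚ ≃ₐ[ℚ] AlgebraicClosure ℚ) • y)
      (coeffAutC (ResidueField A) N (resAut A g) • yb) := by
  obtain ⟨u, v, ub, vb, hu, hv, hvb, hyv, hyb⟩ := h
  refine ⟨arithmeticGalois (modularFunctionFieldFull N)
      (g : AlgebraicClosure ℚ ≃ₐ[ℚ] AlgebraicClosure ℚ) • u,
    arithmeticGalois (modularFunctionFieldFull N)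
      (g : AlgebraicClosure ℚ ≃ₐ[ℚ] AlgebraicClosure ℚ) • v,
    coeffAutC (ResidueField A) N (resAut A g) • ub,
    coeffAutC (ResidueField A) N (resAut A g) • vb,
    redQ_galois A g hu, redQ_galois A g hv, ?_, ?_, ?_⟩
  · intro h0
    apply hvb
    have h1 : coeffRingAutC (ResidueField A) N (resAut A g) vb = 0 := h0
    exact (map_eq_zero_iff _ (RingEquiv.injective _)).mp h1
  · show arithmeticRingAut (modularFunctionFieldFull N) _ y
      * arithmeticRingAut (modularFunctionFieldFull N) _ v
      = arithmeticRingAut (modularFunctionFieldFull N) _ u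
    rw [← map_mul, hyv]
  · show coeffRingAutC (ResidueField A) N (resAut A g) yb
      * coeffRingAutC (ResidueField A) N (resAut A g) vb
      = coeffRingAutC (ResidueField A) N (resAut A g) ub
    rw [← map_mul, hyb]

end Decomposition

end Fermat.Agent.S37
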