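import Mathlib
import Fermat.Agent.S18.RPrimeDefs
import Fermat.Agent.S18.RPrimeOnto
import Fermat.Agent.S18.RPrimeIndep
import Fermat.Agent.S18.MaxPrinciple
import Fermat.Prelude.Def_AlgebraicCurve_Correspondence

/-!
# S37, piece (F-abs) (helper6): injectivity of the reduction on `m`-torsion, at divisor level

Abstract setting: `φ : F → F'` function fields over `L` (levels `N ∣ N'`), a reduction datum `R` on
`F'` with place reduction `r` (compatible with divisors of units), `CT` at the upper level,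
"no zero, no pole => constant" in the reduced field, descent of `m`-th roots from `F'` to `F`.

`inj_abs` : if `m D = div f` in `F` and `r_* (φ^* D)` is principal in `Fb`, then `D` is principal.
-/

set_option autoImplicit false
set_option linter.unusedSectionVars false
set_option linter.style.haveILetI false

noncomputable section

open AlgebraicCurve

namespace Fermat.Agent.S37.Inj

open Fermat.Agent.S18.RPrime

variable {L F F' k Fb : Type*} [Field L] [Field F] [Field F'] [Algebra L F] [Algebra L F']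
  [Field k] [Field Fb] [Algebra k Fb]

section Pull

variable [HasPrincipalDivisors L F'] (φ : F →ₐ[L] F') (hφ : φ.toRingHom.IsIntegral)

/-- the pullback of the divisor of `f` is the divisor of `φ f`. -/
theorem pullbackAlong_apply_eq_ord {f : F} {D : Divisor L F} (hD : ∀ v : Place L F, D v = v.ord f)
    (w : Place L F') : Divisor.pullbackAlong φ hφ D w = w.ord (φ f) := by
  letI := algebraAlong φ
  haveI := isScalarTower_along φ
  haveI := isIntegral_along φ hφ
  exact Divisor.pullback_apply_eq_ord hD w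

end Pull

section Main

variable [HasPrincipalDivisors L F'] (φ : F →ₐ[L] F') (hφ : φ.toRingHom.IsIntegral)
variable (R : RedDatum L F' k Fb) (r : Place L F' → Place k Fb)

theorem mapDomain_sub_apply (D E : Divisor L F') (Q : Place k Fb) :
    Finsupp.mapDomain r (D - E) Q = Finsupp.mapDomain r D Q - Finsupp.mapDomain r E Q := by
  have h := map_sub (Finsupp.mapDomain.addMonoidHom (M := ℤ) r) D E
  have h' : Finsupp.mapDomain r (D - E) = Finsupp.mapDomain r D - Finsupp.mapDomain r E := h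
  rw [h', Finsupp.sub_apply]

theorem mapDomain_nsmul_apply (m : ℕ) (D : Divisor L F') (Q : Place k Fb) :
    Finsupp.mapDomain r (m • D) Q = (m : ℤ) * Finsupp.mapDomain r D Q := by
  have h := map_nsmul (Finsupp.mapDomain.addMonoidHom (M := ℤ) r) m D
  have h' : Finsupp.mapDomain r (m • D) = m • Finsupp.mapDomain r D := h
  rw [h', Finsupp.smul_apply, nsmul_eq_mul]

/-- **(F-abs)** -/
theorem inj_abs (hsurj : Function.Surjective R.red) (hr : DivCompatR R r) (m : ℕ) (hm : 0 < m)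
    (hCT : ∀ u : R.O, R.red u = 1 → (∀ P : Place L F', (m : ℤ) ∣ P.ord (u : F')) →
      ∃ h : F', h ^ m = (u : F'))
    (hconstb : ∀ t : Fb, t ≠ 0 → (∀ Q : Place k Fb, Q.ord t = 0) →
      ∃ c : k, t = algebraMap k Fb c)
    (hroot : ∀ c : L, ∃ d : L, d ^ m = c)
    (hdesc : ∀ f : F, f ≠ 0 → (∀ v : Place L F, (m : ℤ) ∣ v.ord f) →
      (∃ h : F', h ^ m = φ f) → ∃ h0 : F, h0 ^ m = f)
    (D : Divisor L F) (f : F) (hf : f ≠ 0) (hfD : ∀ v : Place L F, (m : ℤ) * D v = v.ord f)
    (gb : Fb) (hgb : gb ≠ 0)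
    (hρ : ∀ Q : Place k Fb, Finsupp.mapDomain r (Divisor.pullbackAlong φ hφ D) Q = Q.ord gb) :
    ∃ h0 : F, h0 ≠ 0 ∧ ∀ v : Place L F, D v = v.ord h0 := by
  have hm0 : (m : ℤ) ≠ 0 := by exact_mod_cast hm.ne'
  -- the lift `G` of `gb`
  obtain ⟨G, hG⟩ := hsurj gb
  have hGunit : IsUnit G := R.isUnit_of_red_ne_zero G (by rw [hG]; exact hgb)
  have hG0 : (G : F') ≠ 0 := coe_ne_zero_of_isUnit hGunit
  obtain ⟨divG, hdivG, -⟩ := HasPrincipalDivisors.exists_divisor (K := L) (G : F') hG0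
  have hrG : ∀ Q, Finsupp.mapDomain r divG Q = Q.ord gb := fun Q => by
    rw [hr G hGunit divG hdivG Q, hG]
  -- `f1 = φ f / G ^ m`
  set D' := Divisor.pullbackAlong φ hφ D with hD'
  have hφf : φ f ≠ 0 := by
    simpa using hf
  have hpull : ∀ P : Place L F', (m : ℤ) * D' P = P.ord (φ f) := fun P => by
    have h1 := pullbackAlong_apply_eq_ord φ hφ (f := f) (D := m • D)
      (fun v => by rw [Finsupp.smul_apply, nsmul_eq_mul]; exact hfD v) P
    rw [map_nsmul, Finsupp.smul_apply, nsmul_eq_mul] at h1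
    exact h1
  set f1 : F' := φ f * ((G : F') ^ m)⁻¹ with hf1def
  have hf1 : f1 ≠ 0 := mul_ne_zero hφf (inv_ne_zero (pow_ne_zero m hG0))
  have hordf1 : ∀ P : Place L F', P.ord f1 = (m : ℤ) * D' P - (m : ℤ) * divG P := fun P => by
    rw [hf1def, P.ord_mul hφf (inv_ne_zero (pow_ne_zero m hG0)), P.ord_inv, ord_pow,
      hpull P, hdivG P]
    ring
  -- scale `f1` to a unit
  obtain ⟨c, hc, hmem, hunit⟩ := R.exists_scale f1 hf1
  have hcF : algebraMap L F' c ≠ 0 := by simpa using hc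
  have hordu : ∀ P : Place L F', P.ord (c • f1) = (m : ℤ) * D' P - (m : ℤ) * divG P := fun P => by
    rw [Algebra.smul_def, P.ord_mul hcF hf1, ord_const P hc, zero_add, hordf1 P]
  have hEu : ∀ P : Place L F', (m • D' - m • divG) P = P.ord (c • f1) := fun P => by
    rw [hordu P, Finsupp.sub_apply, Finsupp.smul_apply, Finsupp.smul_apply, nsmul_eq_mul,
      nsmul_eq_mul]
  have hub : ∀ Q : Place k Fb, Q.ord (R.red ⟨c • f1, hmem⟩) = 0 := fun Q => by
    rw [← hr ⟨c • f1, hmem⟩ hunit (m • D' - m • divG) hEu Q, mapDomain_sub_apply,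
      mapDomain_nsmul_apply, mapDomain_nsmul_apply, hρ Q, hrG Q, sub_self]
  have hubne : R.red ⟨c • f1, hmem⟩ ≠ 0 := by
    intro h0
    have := hunit.map R.red
    rw [h0] at this
    exact not_isUnit_zero this
  obtain ⟨a, ha⟩ := hconstb _ hubne hub
  have ha0 : a ≠ 0 := by
    rintro rfl
    rw [map_zero] at ha
    exact hubne ha
  -- normalise the reduction to `1`
  obtain ⟨c2, hc2mem, hc2⟩ := R.const_surj a⁻¹
  have hc20 : c2 ≠ 0 := by
    rintro rfl
    have h1 : (⟨algebraMap L F' 0, hc2mem⟩ : R.O) = 0 := Subtype.ext (map_zero _)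
    rw [h1, map_zero] at hc2
    have : algebraMap k Fb a⁻¹ ≠ 0 := by simpa using ha0
    exact this hc2.symm
  set u2 : R.O := ⟨algebraMap L F' c2, hc2mem⟩ * ⟨c • f1, hmem⟩ with hu2
  have hu2red : R.red u2 = 1 := by
    rw [hu2, map_mul, hc2, ha, ← map_mul, inv_mul_cancel₀ ha0, map_one]
  have hu2coe : (u2 : F') = algebraMap L F' c2 * (c • f1) := rfl
  have hc2F : algebraMap L F' c2 ≠ 0 := by simpa using hc20
  have hcf1 : c • f1 ≠ 0 := by
    rw [Algebra.smul_def]
    exact mul_ne_zero hcF hf1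
  have hu2div : ∀ P : Place L F', (m : ℤ) ∣ P.ord (u2 : F') := fun P => by
    rw [hu2coe, P.ord_mul hc2F hcf1, ord_const P hc20, zero_add, hordu P]
    exact ⟨D' P - divG P, by ring⟩
  obtain ⟨h, hh⟩ := hCT u2 hu2red hu2div
  -- `φ f` is an `m`-th power
  obtain ⟨d, hd⟩ := hroot (c2 * c)⁻¹
  have hpow : (algebraMap L F' d * (G : F') * h) ^ m = φ f := by
    rw [mul_pow, mul_pow, hh, hu2coe, ← map_pow, hd, Algebra.smul_def, hf1def, map_inv₀, map_mul]
    field_simp
  -- descent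
  have hdivf : ∀ v : Place L F, (m : ℤ) ∣ v.ord f := fun v => ⟨D v, (hfD v).symm⟩
  obtain ⟨h0, hh0⟩ := hdesc f hf hdivf ⟨_, hpow⟩
  have hh00 : h0 ≠ 0 := by
    rintro rfl
    rw [zero_pow hm.ne'] at hh0
    exact hf hh0.symm
  refine ⟨h0, hh00, fun v => ?_⟩
  have h1 : (m : ℤ) * D v = (m : ℤ) * v.ord h0 := by
    rw [hfD v, ← hh0, ord_pow]
  exact mul_left_cancel₀ hm0 h1

/-- **(F-abs)**, in the shape consumed by `RedMap` (lead). -/
theorem isPrincipal_of_torsion (hsurj : Function.Surjective R.red) (hr : DivCompatR R r)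
    (hconst : ∀ t : Fb, t ≠ 0 → (∀ Q : Place k Fb, Q.ord t = 0) →
      ∃ c : k, t = algebraMap k Fb c)
    (hCT : ∀ (f : R.O) (m : ℕ), ((m : ℕ) : k) ≠ 0 → R.red f = 1 →
      (∀ P : Place L F', (m : ℤ) ∣ P.ord (f : F')) → ∃ h : F', h ^ m = (f : F'))
    (hroot : ∀ (c : L) (m : ℕ), 0 < m → ∃ d : L, d ^ m = c)
    (hdesc : ∀ (f : F) (m : ℕ), 0 < m → (∀ v : Place L F, (m : ℤ) ∣ v.ord f) →
      (∃ h : F', h ^ m = φ f) → ∃ h₀ : F, h₀ ^ m = f)
    (m : ℕ) (hm : ((m : ℕ) : k) ≠ 0) (D : Divisor L F) (hmD : (m • D).IsPrincipal)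
    (hρ : Divisor.IsPrincipal
      (Finsupp.mapDomain r (Divisor.pullbackAlong φ hφ D) : Divisor k Fb)) :
    D.IsPrincipal := by
  have hmpos : 0 < m := Nat.pos_of_ne_zero (fun h => hm (by rw [h, Nat.cast_zero]))
  obtain ⟨f, hf, hfD⟩ := hmD
  obtain ⟨gb, hgb, hgD⟩ := hρ
  exact inj_abs φ hφ R r hsurj hr m hmpos (fun u => hCT u m hm) hconst (fun c => hroot c m hmpos)
    (fun f _ => hdesc f m hmpos) D f hf
    (fun v => by rw [← hfD v, Finsupp.smul_apply, nsmul_eq_mul]) gb hgb hgD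

end Main

end Fermat.Agent.S37.Inj
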