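/-
S37 (item 88), pieces (C) + (F) (lead): the reduction map `ρ` for the modular pair and (A3).

`N' = tameLevel N ℓ`, `F = F_N`, `F' = F_{N'}` over `ℚ̄`, `Fb = F̄_{N'}` over the residue field `k`
of `A`.  `rTame` is a place reduction `Place F' → Place Fb` compatible with divisors of units
(chosen from `CTM.exists_wireData`); `rhoDivTame = r_* ∘ incl^*`, `rhoTame : J₀(N) →+ Pic(Fb)`.

* `rhoDivTame_div` (hC1): `ρ (div y) = div yb` if `RedV (incl y) yb`, `yb ≠ 0`;
* `rhoTame_injOn_torsion` (A3): `ρ` is injective on the prime-to-`ℓ` torsion.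
-/
import Mathlib
import Fermat.Agent.S37.RedMap
import Fermat.Agent.S37.InjAbs
import Fermat.Agent.S18.CTModularFinal
import Fermat.Agent.S18.GenusMain
import Fermat.Agent.S18.Assembly

set_option autoImplicit false
set_option linter.unusedSectionVars false
set_option linter.style.haveILetI false
set_option synthInstance.maxHeartbeats 400000
set_option maxHeartbeats 1600000

open AlgebraicCurve ModularCurve

noncomputable section

namespace Fermat.Agent.S37.RedMap

open Fermat.Agent.S18 Fermat.Agent.S18.RPrime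

section Tame

variable (N : ℕ) [NeZero N] {ℓ : ℕ} (hℓ : ℓ.Prime) (hℓN : ¬ ℓ ∣ N)
variable (A : ValuationSubring (AlgebraicClosure ℚ)) (hA : A.LiesOverPrime ℓ)

/-- the tame level is nonzero. -/
theorem neZero_tame (ℓ : ℕ) : NeZero (tameLevel N ℓ) := ⟨Descent.tameLevel_ne_zero N ℓ⟩

/-- principal divisors exist at every level. -/
theorem hasPrincipalDivisors_bar (M : ℕ) [NeZero M] :
    HasPrincipalDivisors (AlgebraicClosure ℚ) (modularFunctionFieldBar M) :=
  ⟨(GenusAsm.curveRR_zero M).exists_div⟩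

theorem hasPrincipalDivisors_tame (ℓ : ℕ) :
    HasPrincipalDivisors (AlgebraicClosure ℚ) (modularFunctionFieldBar (tameLevel N ℓ)) :=
  haveI := neZero_tame N ℓ
  hasPrincipalDivisors_bar (tameLevel N ℓ)

/-- the inclusion `F_N ⊂ F_{N'}`. -/
def inclTame (ℓ : ℕ) :
    modularFunctionFieldBar N →ₐ[AlgebraicClosure ℚ] modularFunctionFieldBar (tameLevel N ℓ) :=
  IntermediateField.inclusion (Descent.le_tame N ℓ)

theorem coe_inclTame (ℓ : ℕ) (y : modularFunctionFieldBar N) :
    ((inclTame N ℓ y : modularFunctionFieldBar (tameLevel N ℓ)) :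
      LaurentSeries (AlgebraicClosure ℚ)) = (y : LaurentSeries (AlgebraicClosure ℚ)) :=
  IntermediateField.coe_inclusion (Descent.le_tame N ℓ) y

/-- the Gauss reduction datum at the tame level. -/
def tameDatum : RedDatum (AlgebraicClosure ℚ) (modularFunctionFieldBar (tameLevel N ℓ))
    (IsLocalRing.ResidueField A)
    (modularFunctionFieldFullC (IsLocalRing.ResidueField A) (tameLevel N ℓ)) :=
  haveI := neZero_tame N ℓ
  MScal.modularDatum (tameLevel N ℓ) hℓ (CTM.not_dvd_tameLevel N hℓ hℓN) A hA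

theorem tameDatum_red_eq_iff (y : (tameDatum N hℓ hℓN A hA).O)
    (yb : modularFunctionFieldFullC (IsLocalRing.ResidueField A) (tameLevel N ℓ)) :
    (tameDatum N hℓ hℓN A hA).red y = yb ↔
      RedV A (IsLocalRing.residue A) (modularFunctionFieldBar (tameLevel N ℓ))
        (modularFunctionFieldFullC (IsLocalRing.ResidueField A) (tameLevel N ℓ))
        (y : modularFunctionFieldBar (tameLevel N ℓ)) yb :=
  haveI := neZero_tame N ℓ
  GaussD.gaussDatum_red_eq_iff _ y yb

theorem mem_tameDatum_O {y : modularFunctionFieldBar (tameLevel N ℓ)} :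
    y ∈ (tameDatum N hℓ hℓN A hA).O ↔
      ∃ yb : modularFunctionFieldFullC (IsLocalRing.ResidueField A) (tameLevel N ℓ),
        RedV A (IsLocalRing.residue A) (modularFunctionFieldBar (tameLevel N ℓ))
          (modularFunctionFieldFullC (IsLocalRing.ResidueField A) (tameLevel N ℓ)) y yb :=
  Iff.rfl

theorem tameDatum_red_surjective : Function.Surjective (tameDatum N hℓ hℓN A hA).red :=
  haveI := neZero_tame N ℓ
  GaussD.gaussDatum_red_surjective _

include hℓ hℓN hA in
/-- **CT at the tame level** (S18). -/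
theorem ctModular_tame : CTModular A (tameLevel N ℓ) :=
  haveI := neZero_tame N ℓ
  CTM.ctModular_of_curveRR (tameLevel N ℓ) hℓ (CTM.not_dvd_tameLevel N hℓ hℓN) A hA
    (CTM.one_lt_tameLevel N ℓ) (GenusFin.exists_genus_tame N hℓ hℓN A hA)

/-- a place reduction compatible with divisors of units exists at the tame level. -/
theorem exists_rTame :
    ∃ r : Place (AlgebraicClosure ℚ) (modularFunctionFieldBar (tameLevel N ℓ)) →
        Place (IsLocalRing.ResidueField A)
          (modularFunctionFieldFullC (IsLocalRing.ResidueField A) (tameLevel N ℓ)),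
      DivCompatR (tameDatum N hℓ hℓN A hA) r := by
  haveI := neZero_tame N ℓ
  obtain ⟨g, hK, hk⟩ := GenusFin.exists_genus_tame N hℓ hℓN A hA
  obtain ⟨r, W⟩ := CTM.exists_wireData (tameLevel N ℓ) hℓ (CTM.not_dvd_tameLevel N hℓ hℓN) A hA
    (CTM.one_lt_tameLevel N ℓ) hK hk
  exact ⟨r, W.hr⟩

/-- **the place reduction** `r'` at the tame level. -/
def rTame : Place (AlgebraicClosure ℚ) (modularFunctionFieldBar (tameLevel N ℓ)) →
    Place (IsLocalRing.ResidueField A)
      (modularFunctionFieldFullC (IsLocalRing.ResidueField A) (tameLevel N ℓ)) :=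
  Classical.choose (exists_rTame N hℓ hℓN A hA)

theorem rTame_divCompat : DivCompatR (tameDatum N hℓ hℓN A hA) (rTame N hℓ hℓN A hA) :=
  Classical.choose_spec (exists_rTame N hℓ hℓN A hA)

variable (hint : (inclTame N ℓ).toRingHom.IsIntegral)

/-- **the reduction map on divisors**, `Div(F_N) → Div(F̄_{N'})`. -/
def rhoDivTame : Divisor (AlgebraicClosure ℚ) (modularFunctionFieldBar N) →+
    Divisor (IsLocalRing.ResidueField A)
      (modularFunctionFieldFullC (IsLocalRing.ResidueField A) (tameLevel N ℓ)) :=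
  haveI := hasPrincipalDivisors_tame N ℓ
  rhoDiv (inclTame N ℓ) hint (rTame N hℓ hℓN A hA)

theorem rhoDivTame_apply (D : Divisor (AlgebraicClosure ℚ) (modularFunctionFieldBar N)) :
    rhoDivTame N hℓ hℓN A hA hint D =
      haveI := hasPrincipalDivisors_tame N ℓ
      Finsupp.mapDomain (rTame N hℓ hℓN A hA) (Divisor.pullbackAlong (inclTame N ℓ) hint D) :=
  rfl

/-- **(hC1)**: `ρ (div y) = div yb` for `y ∈ F_N` with Gauss reduction `yb ≠ 0` (at level `N'`). -/
theorem rhoDivTame_div {y : modularFunctionFieldBar N}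
    {yb : modularFunctionFieldFullC (IsLocalRing.ResidueField A) (tameLevel N ℓ)}
    (hred : RedV A (IsLocalRing.residue A) (modularFunctionFieldBar (tameLevel N ℓ))
      (modularFunctionFieldFullC (IsLocalRing.ResidueField A) (tameLevel N ℓ))
      (inclTame N ℓ y) yb) (hyb : yb ≠ 0)
    {D : Divisor (AlgebraicClosure ℚ) (modularFunctionFieldBar N)}
    (hD : ∀ v : Place (AlgebraicClosure ℚ) (modularFunctionFieldBar N), D v = v.ord y)
    (Q : Place (IsLocalRing.ResidueField A)
      (modularFunctionFieldFullC (IsLocalRing.ResidueField A) (tameLevel N ℓ))) :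
    rhoDivTame N hℓ hℓN A hA hint D Q = Q.ord yb := by
  haveI := hasPrincipalDivisors_tame N ℓ
  have hmem : inclTame N ℓ y ∈ (tameDatum N hℓ hℓN A hA).O :=
    (mem_tameDatum_O N hℓ hℓN A hA).2 ⟨yb, hred⟩
  have hredu : (tameDatum N hℓ hℓN A hA).red ⟨inclTame N ℓ y, hmem⟩ = yb :=
    (tameDatum_red_eq_iff N hℓ hℓN A hA ⟨_, hmem⟩ yb).2 hred
  have hu : IsUnit (⟨inclTame N ℓ y, hmem⟩ : (tameDatum N hℓ hℓN A hA).O) :=
    (tameDatum N hℓ hℓN A hA).isUnit_of_red_ne_zero _ (by rw [hredu]; exact hyb)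
  have hy : y ≠ 0 := by
    rintro rfl
    have h0 : (tameDatum N hℓ hℓN A hA).red ⟨inclTame N ℓ 0, hmem⟩ = 0 := by
      have : (⟨inclTame N ℓ 0, hmem⟩ : (tameDatum N hℓ hℓN A hA).O) = 0 :=
        Subtype.ext (map_zero _)
      rw [this, map_zero]
    exact hyb (hredu.symm.trans h0)
  have := rhoDiv_apply_of_unit (φ := inclTame N ℓ) (hφ := hint)
    (rTame_divCompat N hℓ hℓN A hA) hy hD ⟨inclTame N ℓ y, hmem⟩ hu one_ne_zero
    (by rw [one_smul]) Q
  rw [hredu] at this
  exact this

theorem isPrincipal_rhoDivTame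
    {D : Divisor (AlgebraicClosure ℚ) (modularFunctionFieldBar N)} (hD : D.IsPrincipal) :
    (rhoDivTame N hℓ hℓN A hA hint D).IsPrincipal :=
  haveI := hasPrincipalDivisors_tame N ℓ
  isPrincipal_rhoDiv (rTame_divCompat N hℓ hℓN A hA) hD

/-- **the reduction map** `ρ : J₀(N) → Pic(F̄_{N'})`. -/
def rhoTame : JZero N →+ Pic (IsLocalRing.ResidueField A)
    (modularFunctionFieldFullC (IsLocalRing.ResidueField A) (tameLevel N ℓ)) :=
  haveI := hasPrincipalDivisors_tame N ℓ
  rhoPic (inclTame N ℓ) hint (rTame N hℓ hℓN A hA)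
    (fun _ hD => isPrincipal_rhoDiv (rTame_divCompat N hℓ hℓN A hA) hD)

theorem rhoTame_mk
    (D : Divisor.degZero (K := AlgebraicClosure ℚ) (F := modularFunctionFieldBar N)) :
    rhoTame N hℓ hℓN A hA hint (Pic0.mk D) =
      QuotientAddGroup.mk (rhoDivTame N hℓ hℓN A hA hint
        (D : Divisor (AlgebraicClosure ℚ) (modularFunctionFieldBar N))) := rfl

include hℓ hℓN hA in
/-- **(A3)** at divisor level. -/
theorem isPrincipal_of_torsion_tame (m : ℕ) (hm : ¬ ℓ ∣ m)
    (D : Divisor (AlgebraicClosure ℚ) (modularFunctionFieldBar N))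
    (hmD : (m • D).IsPrincipal)
    (hρ : (rhoDivTame N hℓ hℓN A hA hint D).IsPrincipal) : D.IsPrincipal := by
  haveI := hasPrincipalDivisors_tame N ℓ
  haveI := neZero_tame N ℓ
  refine Inj.isPrincipal_of_torsion (inclTame N ℓ) hint (tameDatum N hℓ hℓN A hA)
    (rTame N hℓ hℓN A hA) (tameDatum_red_surjective N hℓ hℓN A hA)
    (rTame_divCompat N hℓ hℓN A hA) ?_ ?_ MInf.exists_root ?_ m
    (natCast_residue_ne_zero hℓ A hA m hm) D hmD hρ
  · -- constants
    intro t _ ht
    exact const_of_ord_eq_zero (tameLevel N ℓ) hℓ (CTM.not_dvd_tameLevel N hℓ hℓN) A hA t ht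
  · -- CT
    intro f m' hm' hred hdiv
    exact ctModular_tame N hℓ hℓN A hA (f : modularFunctionFieldBar (tameLevel N ℓ)) m' hm'
      ((tameDatum_red_eq_iff N hℓ hℓN A hA f 1).1 hred) hdiv
  · -- descent
    intro f m' hm' hdiv hex
    exact (Descent.descentStatement_tame N ℓ (f : LaurentSeries (AlgebraicClosure ℚ)) f.2
      (Descent.le_tame N ℓ f.2) m' hm' hdiv).2 hex

include hℓ hℓN hA in
/-- **(A3)**: `ρ` is injective on the prime-to-`ℓ` torsion of `J₀(N)`. -/
theorem rhoTame_injOn_torsion (m : ℕ) (hm : ¬ ℓ ∣ m) (z : JZero N) (hmz : m • z = 0)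
    (hz : rhoTame N hℓ hℓN A hA hint z = 0) : z = 0 := by
  haveI := hasPrincipalDivisors_tame N ℓ
  exact rhoPic_injOn_torsion (φ := inclTame N ℓ) (hφ := hint) (r := rTame N hℓ hℓN A hA) _ m
    (fun D hmD hρ => isPrincipal_of_torsion_tame N hℓ hℓN A hA hint m hm D hmD hρ) z hmz hz

include hℓ hℓN hA in
/-- **(A3)** in the form of the contract: injective on `p`-power torsion, `p ≠ ℓ` prime. -/
theorem rhoTame_injOn_pTorsion (p : ℕ) (hp : ¬ ℓ ∣ p) (z : JZero N)
    (hz0 : ∃ n : ℕ, p ^ n • z = 0) (hz : rhoTame N hℓ hℓN A hA hint z = 0) : z = 0 := by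
  obtain ⟨n, hn⟩ := hz0
  refine rhoTame_injOn_torsion N hℓ hℓN A hA hint (p ^ n) ?_ z hn hz
  intro h
  exact hp (hℓ.dvd_of_dvd_pow h)

end Tame

end Fermat.Agent.S37.RedMap
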