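/-
S37 (item 88), final assembly, part 2 (helper4): `(A1)` and `(D)` for `ρ = rhoTame`.
-/
import Mathlib
import Fermat.Agent.S37.AsmPic
import Fermat.Agent.S37.RedMapTame
import Fermat.Agent.S37.RedGal
import Fermat.Agent.S37.FrobC
import Fermat.Agent.S37.E0FI
import Fermat.Agent.S37.E0Modular

set_option autoImplicit false

open AlgebraicCurve ModularCurve Fermat.Agent.S18 Fermat.Agent.S18.RPrime

noncomputable section

namespace Fermat.Agent.S37.Asm

local notation "Kbar" => AlgebraicClosure ℚ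

section Res

variable (A : ValuationSubring Kbar)

/-- the residue field of a valuation ring over `ℓ` has characteristic `ℓ`. -/
theorem charP_residueField {ℓ : ℕ} (hℓ : ℓ.Prime) (hA : A.LiesOverPrime ℓ) :
    CharP (IsLocalRing.ResidueField A) ℓ := by
  rw [CharP.charP_iff_prime_eq_zero hℓ]
  have h1 : ((ℓ : A) : Kbar) ∈ A.nonunits := by
    have : ((ℓ : A) : Kbar) = (ℓ : Kbar) := by simp
    rw [this]; exact hA
  have h2 : (ℓ : A) ∈ IsLocalRing.maximalIdeal A := by
    rw [IsLocalRing.mem_maximalIdeal, mem_nonunits_iff]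
    intro hu
    exact (ValuationSubring.mem_nonunits_iff_exists_mem_maximalIdeal.mp h1).elim
      (fun ha hm => (IsLocalRing.mem_maximalIdeal _).mp hm hu)
  have h3 := (IsLocalRing.residue_eq_zero_iff (ℓ : A)).2 h2
  rw [map_natCast] at h3
  exact h3

end Res

section Tame

variable (N : ℕ) [NeZero N] {ℓ : ℕ} (hℓ : ℓ.Prime) (hℓN : ¬ ℓ ∣ N)
variable (A : ValuationSubring Kbar) (hA : A.LiesOverPrime ℓ)
variable (hint : (RedMap.inclTame N ℓ).toRingHom.IsIntegral)

/-- the pullback `Div(F_N) → Div(F_N')` preserves degree `0`. -/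
theorem degree_pullback_tame (hfin : FiniteAlong Kbar (RedMap.inclTame N ℓ))
    (D : Divisor Kbar (modularFunctionFieldBar N)) (hD : Divisor.degree D = 0) :
    haveI := RedMap.hasPrincipalDivisors_tame N ℓ
    Divisor.degree (Divisor.pullbackAlong (RedMap.inclTame N ℓ) hint D) = 0 := by
  haveI := RedMap.hasPrincipalDivisors_tame N ℓ
  haveI := RedMap.neZero_tame N ℓ
  have hFI : FundamentalIdentityAlong Kbar (RedMap.inclTame N ℓ) hint := by
    letI := algebraAlong (RedMap.inclTame N ℓ)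
    haveI := isScalarTower_along (RedMap.inclTame N ℓ)
    haveI : FiniteDimensional ↥(modularFunctionFieldBar N)
        ↥(modularFunctionFieldBar (tameLevel N ℓ)) := hfin
    exact E0.fundamentalIdentity_general (E0M.deg_eq_one_bar N)
      (E0M.deg_eq_one_bar (tameLevel N ℓ))
  rw [Divisor.degree_pullbackAlong _ hint hFI, hD, mul_zero]

include hℓ hℓN hA in
/-- **(D), general**: `ρ (g x) = gbar_* (ρ x)` for `g` in the decomposition group of `A`. -/
theorem rhoTame_galois (hfin : FiniteAlong Kbar (RedMap.inclTame N ℓ))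
    (g : A.decompositionSubgroup ℚ) (x : JZero N) :
    RedMap.rhoTame N hℓ hℓN A hA hint ((g : Kbar ≃ₐ[ℚ] Kbar) • x) =
      picSmulHom (coeffAutC (IsLocalRing.ResidueField A) (tameLevel N ℓ) (resAut A g))
        (RedMap.rhoTame N hℓ hℓN A hA hint x) := by
  haveI := RedMap.hasPrincipalDivisors_tame N ℓ
  haveI := RedMap.neZero_tame N ℓ
  obtain ⟨g0, hK', hk⟩ := GenusFin.exists_genus_tame N hℓ hℓN A hA
  have hint' : SemilinearAut.IntertwinesAlong (RedMap.inclTame N ℓ).toRingHom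
      (arithmeticGalois (modularFunctionFieldFull N) (g : Kbar ≃ₐ[ℚ] Kbar))
      (arithmeticGalois (modularFunctionFieldFull (tameLevel N ℓ)) (g : Kbar ≃ₐ[ℚ] Kbar)) :=
    PullEquiv.intertwines_modular N (tameLevel N ℓ) (Descent.le_tame N ℓ) _
  have hσ : GalEquiv.RedEquivariant (RedMap.tameDatum N hℓ hℓN A hA)
      (arithmeticGalois (modularFunctionFieldFull (tameLevel N ℓ)) (g : Kbar ≃ₐ[ℚ] Kbar))
      (coeffAutC (IsLocalRing.ResidueField A) (tameLevel N ℓ) (resAut A g)) :=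
    GalEquiv.redEquivariant_gaussDatum
      (MScal.modularHyp (tameLevel N ℓ) hℓ (CTM.not_dvd_tameLevel N hℓ hℓN) A hA) _ _
      (fun y yb h => redV_galois A (tameLevel N ℓ) g h)
  have key := rhoPic_smul (RedMap.inclTame N ℓ) hint hK' hk.deg_one
    (RedMap.tameDatum N hℓ hℓN A hA) (RedMap.rTame N hℓ hℓN A hA)
    (RedMap.rTame_divCompat N hℓ hℓN A hA)
    (fun _ hD => RedMap.isPrincipal_rhoDiv (RedMap.rTame_divCompat N hℓ hℓN A hA) hD)
    _ _ _ hint' hσ
    (fun D hD => degree_pullback_tame N hint hfin D hD) x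
  exact key

include hℓ hℓN hA in
/-- **(A1)**: `ρ` is invariant under inertia. -/
theorem rhoTame_inertia (hfin : FiniteAlong Kbar (RedMap.inclTame N ℓ))
    (τ : Kbar ≃ₐ[ℚ] Kbar) (hτ : τ ∈ A.inertiaSubgroupIn ℚ) (x : JZero N) :
    RedMap.rhoTame N hℓ hℓN A hA hint (τ • x) = RedMap.rhoTame N hℓ hℓN A hA hint x := by
  obtain ⟨g, hg, rfl⟩ := Subgroup.mem_map.mp hτ
  have h := rhoTame_galois N hℓ hℓN A hA hint hfin g x
  rw [resAut_eq_one_of_mem_inertia A hg, map_one, picSmulHom_one] at h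
  exact h

include hℓ hℓN hA in
/-- **(D)**: `ρ (σ₀ x) = φ_* (ρ x)` for a Frobenius element `σ₀` at `A`. -/
theorem rhoTame_frobenius [Fact ℓ.Prime] [CharP (IsLocalRing.ResidueField A) ℓ]
    [PerfectRing (IsLocalRing.ResidueField A) ℓ]
    (hfin : FiniteAlong Kbar (RedMap.inclTame N ℓ))
    (σ₀ : Kbar ≃ₐ[ℚ] Kbar) (hσ₀ : A.IsFrobeniusAt σ₀ ℓ) (x : JZero N) :
    RedMap.rhoTame N hℓ hℓN A hA hint (σ₀ • x) =
      picSmulHom (frobAutC (IsLocalRing.ResidueField A) (tameLevel N ℓ) ℓ)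
        (RedMap.rhoTame N hℓ hℓN A hA hint x) := by
  have h := rhoTame_galois N hℓ hℓN A hA hint hfin ⟨σ₀, hσ₀.mem_decompositionSubgroup⟩ x
  rw [resAut_of_isFrobeniusAt A ℓ hσ₀] at h
  exact h

end Tame

end Fermat.Agent.S37.Asm
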