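/-
S37 (item 88), piece (A) (lead): the **universal witness**.

`SpecializationExists` at `(ℓ, A)` follows from ANY additive map `ρ : J →+ X` which
(A1) is invariant under inertia, (A2) kills `σ₀² x - T_ℓ σ₀ x + ℓ x` for ONE Frobenius `σ₀`,
(A3) is injective on `p`-power torsion.  The witness is `J' = J / H`, `H` generated by
`τ x - x` (`τ` in inertia) and `σ₀² x - T_ℓ σ₀ x + ℓ x`.
-/
import Mathlib
import Fermat.Prelude.Def_HeckeGalois_EichlerShimura

set_option autoImplicit false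

open ModularCurve

noncomputable section

namespace Fermat.Agent.S37

section Inertia

variable {K L : Type*} [Field K] [Field L] [Algebra K L] (A : ValuationSubring L)

theorem mem_inertiaSubgroupIn_iff (τ : L ≃ₐ[K] L) :
    τ ∈ A.inertiaSubgroupIn K ↔
      ∃ h : τ ∈ A.decompositionSubgroup K,
        (⟨τ, h⟩ : A.decompositionSubgroup K) ∈ A.inertiaSubgroup K := by
  unfold ValuationSubring.inertiaSubgroupIn
  rw [Subgroup.mem_map]
  constructor
  · rintro ⟨d, hd, rfl⟩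
    exact ⟨d.2, hd⟩
  · rintro ⟨h, hd⟩
    exact ⟨⟨τ, h⟩, hd, rfl⟩

/-- inertia is normalised by the decomposition group. -/
theorem conj_mem_inertiaSubgroupIn {σ τ : L ≃ₐ[K] L} (hσ : σ ∈ A.decompositionSubgroup K)
    (hτ : τ ∈ A.inertiaSubgroupIn K) : σ * τ * σ⁻¹ ∈ A.inertiaSubgroupIn K := by
  rw [mem_inertiaSubgroupIn_iff] at hτ ⊢
  obtain ⟨h, hd⟩ := hτ
  have hn : (A.inertiaSubgroup K).Normal := by
    unfold ValuationSubring.inertiaSubgroup
    infer_instance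
  have := hn.conj_mem ⟨τ, h⟩ hd ⟨σ, hσ⟩
  exact ⟨(A.decompositionSubgroup K).mul_mem ((A.decompositionSubgroup K).mul_mem hσ h)
    ((A.decompositionSubgroup K).inv_mem hσ), this⟩

/-- two Frobenius elements differ by inertia. -/
theorem frob_mul_inv_mem_inertiaSubgroupIn {σ σ₀ : L ≃ₐ[K] L} {q : ℕ}
    (hσ : A.IsFrobeniusAt σ q) (hσ₀ : A.IsFrobeniusAt σ₀ q) :
    σ * σ₀⁻¹ ∈ A.inertiaSubgroupIn K := by
  rw [mem_inertiaSubgroupIn_iff]
  have h1 := hσ.mem_decompositionSubgroup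
  have h0 := hσ₀.mem_decompositionSubgroup
  refine ⟨(A.decompositionSubgroup K).mul_mem h1 ((A.decompositionSubgroup K).inv_mem h0), ?_⟩
  unfold ValuationSubring.inertiaSubgroup
  rw [MonoidHom.mem_ker]
  ext x
  show ((⟨σ * σ₀⁻¹, _⟩ : A.decompositionSubgroup K)) • x = x
  have e : (⟨σ * σ₀⁻¹, (A.decompositionSubgroup K).mul_mem h1
      ((A.decompositionSubgroup K).inv_mem h0)⟩ : A.decompositionSubgroup K) =
      (⟨σ, h1⟩ : A.decompositionSubgroup K) * (⟨σ₀, h0⟩ : A.decompositionSubgroup K)⁻¹ := rfl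
  rw [e, mul_smul]
  have h2 := hσ.smul_residue_eq ((⟨σ₀, h0⟩ : A.decompositionSubgroup K)⁻¹ • x)
  have h3 := hσ₀.smul_residue_eq ((⟨σ₀, h0⟩ : A.decompositionSubgroup K)⁻¹ • x)
  rw [smul_inv_smul] at h3
  exact h2.trans h3.symm

end Inertia

section Witness

variable {K L : Type*} [Field K] [Field L] [Algebra K L]
variable (p : ℕ) (J : Type) [AddCommGroup J] [Module HeckeAlg J]
  [DistribMulAction (L ≃ₐ[K] L) J] [SMulCommClass (L ≃ₐ[K] L) HeckeAlg J]
variable (A : ValuationSubring L) (ℓ : ℕ) (hℓ : ℓ.Prime) (σ₀ : L ≃ₐ[K] L)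

/-- the Eichler–Shimura element `σ₀² x - T_ℓ σ₀ x + ℓ x`. -/
def esElt (x : J) : J :=
  σ₀ • σ₀ • x - heckeGen ⟨ℓ, hℓ⟩ • σ₀ • x + ℓ • x

/-- the generators of `H`. -/
def genSet : Set J :=
  {y | ∃ τ ∈ A.inertiaSubgroupIn K, ∃ x : J, y = τ • x - x} ∪
    {y | ∃ x : J, y = esElt J ℓ hℓ σ₀ x}

theorem hecke_gal_comm (T : HeckeAlg) (σ : L ≃ₐ[K] L) (x : J) : T • σ • x = σ • T • x :=
  (smul_comm σ T x).symm

theorem hecke_smul_esElt (T : HeckeAlg) (x : J) :
    T • esElt J ℓ hℓ σ₀ x = esElt J ℓ hℓ σ₀ (T • x) := by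
  unfold esElt
  have e1 : T • σ₀ • σ₀ • x = σ₀ • σ₀ • T • x := by
    rw [hecke_gal_comm, hecke_gal_comm]
  have e2 : T • heckeGen ⟨ℓ, hℓ⟩ • σ₀ • x = heckeGen ⟨ℓ, hℓ⟩ • σ₀ • T • x := by
    rw [smul_smul, mul_comm, ← smul_smul, hecke_gal_comm]
  have e3 : T • ℓ • x = ℓ • T • x := smul_comm T ℓ x
  rw [smul_add, smul_sub, e1, e2, e3]

theorem gal_smul_esElt (x : J) :
    σ₀ • esElt J ℓ hℓ σ₀ x = esElt J ℓ hℓ σ₀ (σ₀ • x) := by
  unfold esElt
  have e2 : σ₀ • heckeGen ⟨ℓ, hℓ⟩ • σ₀ • x = heckeGen ⟨ℓ, hℓ⟩ • σ₀ • σ₀ • x :=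
    smul_comm σ₀ (heckeGen ⟨ℓ, hℓ⟩) (σ₀ • x)
  have e3 : σ₀ • ℓ • x = ℓ • σ₀ • x := smul_comm σ₀ ℓ x
  rw [smul_add, smul_sub, e2, e3]

/-- the submodule `H`. -/
def witnessH : Submodule HeckeAlg J where
  carrier := AddSubgroup.closure (genSet J A ℓ hℓ σ₀)
  add_mem' := fun ha hb => AddSubgroup.add_mem _ ha hb
  zero_mem' := AddSubgroup.zero_mem _
  smul_mem' := by
    intro T y hy
    induction hy using AddSubgroup.closure_induction with
    | mem y hy =>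
      apply AddSubgroup.subset_closure
      rcases hy with ⟨τ, hτ, x, rfl⟩ | ⟨x, rfl⟩
      · left
        exact ⟨τ, hτ, T • x, by rw [smul_sub, hecke_gal_comm]⟩
      · right
        exact ⟨T • x, hecke_smul_esElt J ℓ hℓ σ₀ T x⟩
    | zero => rw [smul_zero]; exact AddSubgroup.zero_mem _
    | add a b _ _ ha hb => rw [smul_add]; exact AddSubgroup.add_mem _ ha hb
    | neg a _ ha => rw [smul_neg]; exact AddSubgroup.neg_mem _ ha

theorem mem_witnessH_iff (y : J) :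
    y ∈ witnessH J A ℓ hℓ σ₀ ↔ y ∈ AddSubgroup.closure (genSet J A ℓ hℓ σ₀) := Iff.rfl

/-- the Galois element `σ₀` as a `HeckeAlg`-linear map. -/
def galLin : J →ₗ[HeckeAlg] J where
  toFun x := σ₀ • x
  map_add' := smul_add σ₀
  map_smul' T x := smul_comm σ₀ T x

theorem witnessH_stable (hσ₀ : σ₀ ∈ A.decompositionSubgroup K) :
    witnessH J A ℓ hℓ σ₀ ≤ (witnessH J A ℓ hℓ σ₀).comap (galLin J σ₀) := by
  intro y hy
  rw [Submodule.mem_comap]
  show σ₀ • y ∈ witnessH J A ℓ hℓ σ₀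
  rw [mem_witnessH_iff] at hy ⊢
  induction hy using AddSubgroup.closure_induction with
  | mem y hy =>
    apply AddSubgroup.subset_closure
    rcases hy with ⟨τ, hτ, x, rfl⟩ | ⟨x, rfl⟩
    · left
      refine ⟨σ₀ * τ * σ₀⁻¹, conj_mem_inertiaSubgroupIn A hσ₀ hτ, σ₀ • x, ?_⟩
      rw [smul_sub, mul_smul, mul_smul, inv_smul_smul]
    · right
      exact ⟨σ₀ • x, gal_smul_esElt J ℓ hℓ σ₀ x⟩
  | zero => rw [smul_zero]; exact AddSubgroup.zero_mem _
  | add a b _ _ ha hb => rw [smul_add]; exact AddSubgroup.add_mem _ ha hb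
  | neg a _ ha => rw [smul_neg]; exact AddSubgroup.neg_mem _ ha

/-- **(A) the universal witness**. -/
theorem exists_specialization_of_reduction (hσ₀ : A.IsFrobeniusAt σ₀ ℓ)
    {X : Type*} [AddCommGroup X] (ρ : J →+ X)
    (h1 : ∀ τ ∈ A.inertiaSubgroupIn K, ∀ x : J, ρ (τ • x) = ρ x)
    (h2 : ∀ x : J, ρ (esElt J ℓ hℓ σ₀ x) = 0)
    (h3 : ∀ x : J, (∃ n : ℕ, p ^ n • x = 0) → ρ x = 0 → x = 0) :
    ∃ (J' : Type) (_ : AddCommGroup J') (_ : Module HeckeAlg J') (sp : J →+ J')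
      (F : J' →+ J'),
      IsSpecialization (K := K) p J J' A ℓ sp F ∧ SpecialFibreRelation J' ℓ hℓ F := by
  have hD := hσ₀.mem_decompositionSubgroup
  set H := witnessH J A ℓ hℓ σ₀ with hH
  have hker : ∀ y ∈ H, ρ y = 0 := by
    intro y hy
    rw [hH, mem_witnessH_iff] at hy
    induction hy using AddSubgroup.closure_induction with
    | mem y hy =>
      rcases hy with ⟨τ, hτ, x, rfl⟩ | ⟨x, rfl⟩
      · rw [map_sub, h1 τ hτ x, sub_self]
      · exact h2 x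
    | zero => exact map_zero ρ
    | add a b _ _ ha hb => rw [map_add, ha, hb, add_zero]
    | neg a _ ha => rw [map_neg, ha, neg_zero]
  have hgen1 : ∀ τ ∈ A.inertiaSubgroupIn K, ∀ x : J, τ • x - x ∈ H := fun τ hτ x =>
    AddSubgroup.subset_closure (Or.inl ⟨τ, hτ, x, rfl⟩)
  have hgen2 : ∀ x : J, esElt J ℓ hℓ σ₀ x ∈ H := fun x =>
    AddSubgroup.subset_closure (Or.inr ⟨x, rfl⟩)
  have hst := witnessH_stable J A ℓ hℓ σ₀ hD
  have hF : ∀ x : J, H.mapQ H (galLin J σ₀) hst (Submodule.Quotient.mk x) =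
      Submodule.Quotient.mk (σ₀ • x) := fun x => Submodule.mapQ_apply _ _ _ _
  refine ⟨J ⧸ H, inferInstance, inferInstance, H.mkQ.toAddMonoidHom,
    (H.mapQ H (galLin J σ₀) hst).toAddMonoidHom, ?_, ?_⟩
  · refine ⟨fun T x => ?_, fun τ hτ x => ?_, fun σ hσ x => ?_, fun x hx hsp => ?_⟩
    · exact map_smul H.mkQ T x
    · show (Submodule.Quotient.mk (τ • x) : J ⧸ H) = Submodule.Quotient.mk x
      rw [← sub_eq_zero, ← Submodule.Quotient.mk_sub, Submodule.Quotient.mk_eq_zero]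
      exact hgen1 τ hτ x
    · show (Submodule.Quotient.mk (σ • x) : J ⧸ H) =
        H.mapQ H (galLin J σ₀) hst (Submodule.Quotient.mk x)
      rw [hF, ← sub_eq_zero, ← Submodule.Quotient.mk_sub, Submodule.Quotient.mk_eq_zero]
      have hι := frob_mul_inv_mem_inertiaSubgroupIn A hσ hσ₀
      have := hgen1 _ hι (σ₀ • x)
      rwa [mul_smul, inv_smul_smul] at this
    · apply h3 x hx
      apply hker
      have : (Submodule.Quotient.mk x : J ⧸ H) = 0 := hsp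
      rwa [Submodule.Quotient.mk_eq_zero] at this
  · intro y
    obtain ⟨x, rfl⟩ := Submodule.Quotient.mk_surjective H y
    show H.mapQ H (galLin J σ₀) hst (H.mapQ H (galLin J σ₀) hst (Submodule.Quotient.mk x)) -
      heckeGen ⟨ℓ, hℓ⟩ • H.mapQ H (galLin J σ₀) hst (Submodule.Quotient.mk x) +
        ℓ • (Submodule.Quotient.mk x : J ⧸ H) = 0
    rw [hF, hF, ← Submodule.Quotient.mk_smul, ← Submodule.Quotient.mk_sub]
    have e : ℓ • (Submodule.Quotient.mk x : J ⧸ H) = Submodule.Quotient.mk (ℓ • x) := by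
      rw [← Submodule.mkQ_apply, ← Submodule.mkQ_apply, map_nsmul]
    rw [e, ← Submodule.Quotient.mk_add, Submodule.Quotient.mk_eq_zero]
    exact hgen2 x

end Witness

end Fermat.Agent.S37
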