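/-
S37 (item 88), TOP WIRING + CONTRACT (helper4, architect).

`specialization_of_inputs`: S37 follows from the following data at every `(ℓ, A)`, `ℓ ∤ N p`,
`A | ℓ`:  a Frobenius `σ₀` at `A`, an abelian group `X`, additive maps `ρ : J₀(N) → X`,
`Fm Vm : X → X` with
  (A1) `ρ (τ x) = ρ x` for `τ` in the inertia group of `A`          [piece (D), `τbar = 1`]
  (D)  `ρ (σ₀ x) = Fm (ρ x)`                                         [piece (D), `σ₀bar = φ`]
  (E3) `ρ (T_ℓ x) = Fm (ρ x) + Vm (ρ x)`                             [pieces (E0), (E1), (E2), (E3)]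
  (E2) `Vm (Fm (ρ x)) = ℓ • ρ x`                                     [piece (E2)]
  (A3) `ρ` injective on `p`-power torsion                            [piece (F)]
Convention: `X = Pic (Fbar_N')`, `Fm = φ_*` (the coefficient Frobenius acting on places),
`Vm = ℓ • φ_*⁻¹`.  `T_ℓ = heckeOperatorBar N ℓ = heckeOperatorAlong Qbar N ℓ`.
-/
import Mathlib
import Fermat.Prelude.Def_ModularCurve_HeckeModule
import Fermat.Agent.S37.Universal
import Fermat.Agent.Lib.FrobeniusExists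

set_option autoImplicit false

open ModularCurve AlgebraicCurve

noncomputable section

namespace Fermat.Agent.S37

/-- **the contract of S37** at `(ℓ, A)`: the reduction data. -/
def ESInputsAt (N p : ℕ) [NeZero N] (ℓ : ℕ) (hℓ : ℓ.Prime)
    (A : ValuationSubring (AlgebraicClosure ℚ)) : Prop :=
  ∃ (σ₀ : AlgebraicClosure ℚ ≃ₐ[ℚ] AlgebraicClosure ℚ) (_ : A.IsFrobeniusAt σ₀ ℓ)
    (X : Type) (_ : AddCommGroup X) (ρ : JZero N →+ X) (Fm Vm : X →+ X),
    (∀ τ ∈ A.inertiaSubgroupIn ℚ, ∀ x : JZero N, ρ (τ • x) = ρ x) ∧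
    (∀ x : JZero N, ρ (σ₀ • x) = Fm (ρ x)) ∧
    (∀ x : JZero N, ρ (heckeOperatorBar N ⟨ℓ, hℓ⟩ x) = Fm (ρ x) + Vm (ρ x)) ∧
    (∀ x : JZero N, Vm (Fm (ρ x)) = ℓ • ρ x) ∧
    (∀ x : JZero N, (∃ n : ℕ, p ^ n • x = 0) → ρ x = 0 → x = 0)

/-- **top wiring**: S37 from the contract. -/
theorem specialization_of_inputs (N p : ℕ) [NeZero N] (hcomm : HeckeOperatorsCommuteBar N) :
    letI := heckeModuleBar N
    ∀ (_ : SMulCommClass (AlgebraicClosure ℚ ≃ₐ[ℚ] AlgebraicClosure ℚ) HeckeAlg (JZero N)),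
      (∀ ℓ : ℕ, (hℓ : ℓ.Prime) → ¬ ℓ ∣ N * p →
        ∀ A : ValuationSubring (AlgebraicClosure ℚ), A.LiesOverPrime ℓ →
          ESInputsAt N p ℓ hℓ A) →
      SpecializationExists (K := ℚ) (L := AlgebraicClosure ℚ) N p (JZero N) := by
  letI := heckeModuleBar N
  intro hsc H ℓ hℓ hℓNp A hA
  obtain ⟨σ₀, hσ₀, X, _, ρ, Fm, Vm, h1, hD, hT, hVF, h3⟩ := H ℓ hℓ hℓNp A hA
  refine exists_specialization_of_reduction p (JZero N) A ℓ hℓ σ₀ hσ₀ ρ h1 ?_ h3
  intro x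
  have hgen : ∀ y : JZero N, heckeGen ⟨ℓ, hℓ⟩ • y = heckeOperatorBar N ⟨ℓ, hℓ⟩ y :=
    fun y => heckeModuleBar_heckeGen_smul hcomm ⟨ℓ, hℓ⟩ y
  unfold esElt
  rw [map_add, map_sub, hgen, hT, hD, hD, map_nsmul, hVF]
  abel

end Fermat.Agent.S37
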