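/-
S37 (item 88), final assembly, part 3 (helper4): `ESInputsAt` from the Eichler–Shimura
congruence on divisors of degree `0` (the output of (E0)+(E1)+(E2)+(E3)).
-/
import Mathlib
import Fermat.Agent.S37.AsmGal
import Fermat.Agent.S37.HeckePic
import Fermat.Agent.S37.Wiring
import Fermat.Agent.S37.PullBoundMod
import Fermat.Agent.S18.ResAlgClosed

set_option autoImplicit false

open AlgebraicCurve ModularCurve Fermat.Agent.S18 Fermat.Agent.S18.RPrime

noncomputable section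

namespace Fermat.Agent.S37.Asm

local notation "Kbar" => AlgebraicClosure ℚ

section Tame

variable (N p : ℕ) [NeZero N] {ℓ : ℕ} (hℓ : ℓ.Prime) (hℓN : ¬ ℓ ∣ N) (hℓp : ¬ ℓ ∣ p)
variable (A : ValuationSubring Kbar) (hA : A.LiesOverPrime ℓ)
variable (hint : (RedMap.inclTame N ℓ).toRingHom.IsIntegral)

set_option maxHeartbeats 1000000 in
/-- **(E3) on classes** from the congruence on divisors of degree `0`. -/
theorem rhoTame_hecke [Fact ℓ.Prime] [CharP (IsLocalRing.ResidueField A) ℓ]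
    [PerfectRing (IsLocalRing.ResidueField A) ℓ]
    (hE3 : ∀ D : Divisor Kbar (modularFunctionFieldBar N), Divisor.degree D = 0 →
      haveI : NeZero ℓ := ⟨hℓ.ne_zero⟩
      haveI := E0M.hasPrincipalDivisors_bar (N * ℓ)
      RedMap.rhoDivTame N hℓ hℓN A hA hint
          (heckeDivBar (E0M.alphaIntegral N ℓ) (E0M.betaIntegral N ℓ) D) =
        frobAutC (IsLocalRing.ResidueField A) (tameLevel N ℓ) ℓ •
            RedMap.rhoDivTame N hℓ hℓN A hA hint D +
          ℓ • ((frobAutC (IsLocalRing.ResidueField A) (tameLevel N ℓ) ℓ)⁻¹ •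
            RedMap.rhoDivTame N hℓ hℓN A hA hint D))
    (x : JZero N) :
    RedMap.rhoTame N hℓ hℓN A hA hint (heckeOperatorBar N ⟨ℓ, hℓ⟩ x) =
      picSmulHom (frobAutC (IsLocalRing.ResidueField A) (tameLevel N ℓ) ℓ)
          (RedMap.rhoTame N hℓ hℓN A hA hint x) +
        ℓ • picSmulHom (frobAutC (IsLocalRing.ResidueField A) (tameLevel N ℓ) ℓ)⁻¹
          (RedMap.rhoTame N hℓ hℓN A hA hint x) := by
  haveI : NeZero ℓ := ⟨hℓ.ne_zero⟩
  haveI := E0M.hasPrincipalDivisors_bar (N * ℓ)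
  obtain ⟨D, rfl⟩ := Pic0.mk_surjective x
  have h := hE3 (D : Divisor Kbar (modularFunctionFieldBar N)) (Divisor.mem_degZero.mp D.2)
  have e1 := HeckePic.heckeOperatorBar_mk' N ℓ hℓ D
  have e2 := RedMap.rhoTame_mk N hℓ hℓN A hA hint D
  have e3 := RedMap.rhoTame_mk N hℓ hℓN A hA hint
    ⟨heckeDivBar (E0M.alphaIntegral N ℓ) (E0M.betaIntegral N ℓ)
      (D : Divisor Kbar ↥(modularFunctionFieldBar N)),
      HeckePic.heckeDivBar_mem_degZero N ℓ (E0M.alphaIntegral N ℓ) (E0M.betaIntegral N ℓ) D.2⟩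
  refine (congrArg (RedMap.rhoTame N hℓ hℓN A hA hint) e1).trans (e3.trans ?_)
  refine Eq.trans ?_ (congrArg₂ (fun a b => picSmulHom
    (frobAutC (IsLocalRing.ResidueField A) (tameLevel N ℓ) ℓ) a +
      ℓ • picSmulHom (frobAutC (IsLocalRing.ResidueField A) (tameLevel N ℓ) ℓ)⁻¹ b)
    e2.symm e2.symm)
  show (QuotientAddGroup.mk (RedMap.rhoDivTame N hℓ hℓN A hA hint
    (heckeDivBar (E0M.alphaIntegral N ℓ) (E0M.betaIntegral N ℓ)
      (D : Divisor Kbar (modularFunctionFieldBar N)))) : Pic _ _) = _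
  rw [h, picSmulHom_mk, picSmulHom_mk, QuotientAddGroup.mk_add, QuotientAddGroup.mk_nsmul]

/-- the Verschiebung on classes, `ℓ • φ_*⁻¹`. -/
def picVerHom (ℓ : ℕ) {k Fb : Type*} [Field k] [Field Fb] [Algebra k Fb]
    (σb : SemilinearAut k Fb) : Pic k Fb →+ Pic k Fb :=
  ℓ • picSmulHom σb⁻¹

theorem picVerHom_apply (ℓ : ℕ) {k Fb : Type*} [Field k] [Field Fb] [Algebra k Fb]
    (σb : SemilinearAut k Fb) (y : Pic k Fb) :
    picVerHom ℓ σb y = ℓ • picSmulHom σb⁻¹ y := rfl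

theorem picVerHom_picSmulHom (ℓ : ℕ) {k Fb : Type*} [Field k] [Field Fb] [Algebra k Fb]
    (σb : SemilinearAut k Fb) (y : Pic k Fb) :
    picVerHom ℓ σb (picSmulHom σb y) = ℓ • y := by
  rw [picVerHom_apply, picSmulHom_inv_apply]

include hℓp in
set_option maxHeartbeats 1000000 in
/-- **the contract from the congruence on divisors.** -/
theorem esInputsAt_of_div [Fact ℓ.Prime] [CharP (IsLocalRing.ResidueField A) ℓ]
    [PerfectRing (IsLocalRing.ResidueField A) ℓ]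
    (hfin : FiniteAlong Kbar (RedMap.inclTame N ℓ))
    (hE3 : ∀ D : Divisor Kbar (modularFunctionFieldBar N), Divisor.degree D = 0 →
      haveI : NeZero ℓ := ⟨hℓ.ne_zero⟩
      haveI := E0M.hasPrincipalDivisors_bar (N * ℓ)
      RedMap.rhoDivTame N hℓ hℓN A hA hint
          (heckeDivBar (E0M.alphaIntegral N ℓ) (E0M.betaIntegral N ℓ) D) =
        frobAutC (IsLocalRing.ResidueField A) (tameLevel N ℓ) ℓ •
            RedMap.rhoDivTame N hℓ hℓN A hA hint D +
          ℓ • ((frobAutC (IsLocalRing.ResidueField A) (tameLevel N ℓ) ℓ)⁻¹ •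
            RedMap.rhoDivTame N hℓ hℓN A hA hint D)) :
    ESInputsAt N p ℓ hℓ A := by
  obtain ⟨σ₀, hσ₀⟩ := FrobLib.exists_isFrobeniusAt_of_liesOverPrime A ℓ hℓ hA
  have h1 : ∀ τ ∈ A.inertiaSubgroupIn ℚ, ∀ x : JZero N,
      RedMap.rhoTame N hℓ hℓN A hA hint (τ • x) = RedMap.rhoTame N hℓ hℓN A hA hint x :=
    fun τ hτ x => rhoTame_inertia N hℓ hℓN A hA hint hfin τ hτ x
  have h2 : ∀ x : JZero N, RedMap.rhoTame N hℓ hℓN A hA hint (σ₀ • x) =
      picSmulHom (frobAutC (IsLocalRing.ResidueField A) (tameLevel N ℓ) ℓ)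
        (RedMap.rhoTame N hℓ hℓN A hA hint x) :=
    fun x => rhoTame_frobenius N hℓ hℓN A hA hint hfin σ₀ hσ₀ x
  have h3 : ∀ x : JZero N,
      RedMap.rhoTame N hℓ hℓN A hA hint (heckeOperatorBar N ⟨ℓ, hℓ⟩ x) =
        picSmulHom (frobAutC (IsLocalRing.ResidueField A) (tameLevel N ℓ) ℓ)
            (RedMap.rhoTame N hℓ hℓN A hA hint x) +
          picVerHom ℓ (frobAutC (IsLocalRing.ResidueField A) (tameLevel N ℓ) ℓ)
            (RedMap.rhoTame N hℓ hℓN A hA hint x) :=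
    fun x => rhoTame_hecke N hℓ hℓN A hA hint hE3 x
  have h4 : ∀ x : JZero N,
      picVerHom ℓ (frobAutC (IsLocalRing.ResidueField A) (tameLevel N ℓ) ℓ)
        (picSmulHom (frobAutC (IsLocalRing.ResidueField A) (tameLevel N ℓ) ℓ)
          (RedMap.rhoTame N hℓ hℓN A hA hint x)) =
        ℓ • RedMap.rhoTame N hℓ hℓN A hA hint x :=
    fun x => picVerHom_picSmulHom ℓ _ _
  have h5 : ∀ x : JZero N, (∃ n : ℕ, p ^ n • x = 0) →
      RedMap.rhoTame N hℓ hℓN A hA hint x = 0 → x = 0 :=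
    fun x hx hρ => RedMap.rhoTame_injOn_pTorsion N hℓ hℓN A hA hint p hℓp x hx hρ
  exact ⟨σ₀, hσ₀, _, inferInstance, RedMap.rhoTame N hℓ hℓN A hA hint,
    picSmulHom (frobAutC (IsLocalRing.ResidueField A) (tameLevel N ℓ) ℓ),
    picVerHom ℓ (frobAutC (IsLocalRing.ResidueField A) (tameLevel N ℓ) ℓ),
    h1, h2, h3, h4, h5⟩

end Tame

end Fermat.Agent.S37.Asm
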