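/-
S37 (item 88), final assembly, part 4 (helper4): S37 from the Eichler–Shimura congruence on
divisors of degree `0` at every `(ℓ, A)`.
-/
import Mathlib
import Fermat.Agent.S37.AsmFinal

set_option autoImplicit false

open AlgebraicCurve ModularCurve Fermat.Agent.S18 Fermat.Agent.S18.RPrime

noncomputable section

namespace Fermat.Agent.S37.Asm

local notation "Kbar" => AlgebraicClosure ℚ

section Tame

variable (N : ℕ) [NeZero N] (ℓ : ℕ)

/-- the inclusion `F_N ⊂ F_N'` is integral. -/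
theorem inclTame_isIntegral : (RedMap.inclTame N ℓ).toRingHom.IsIntegral :=
  haveI := RedMap.neZero_tame N ℓ
  PullBound.isIntegral_bar (tameLevel N ℓ) (RedMap.inclTame N ℓ) (PullBound.transcendental_jBar N)

/-- the inclusion `F_N ⊂ F_N'` is finite. -/
theorem inclTame_finiteAlong : FiniteAlong Kbar (RedMap.inclTame N ℓ) :=
  haveI := RedMap.neZero_tame N ℓ
  PullBound.finiteAlong_bar (tameLevel N ℓ) (RedMap.inclTame N ℓ) (PullBound.transcendental_jBar N)

end Tame

/-- the shape of the Eichler–Shimura congruence on divisors at `(ℓ, A)`. -/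
def ESDivAt (N : ℕ) [NeZero N] (ℓ : ℕ) (hℓ : ℓ.Prime) (hℓN : ¬ ℓ ∣ N)
    (A : ValuationSubring Kbar) (hA : A.LiesOverPrime ℓ)
    [Fact ℓ.Prime] [CharP (IsLocalRing.ResidueField A) ℓ]
    [PerfectRing (IsLocalRing.ResidueField A) ℓ] : Prop :=
  ∀ D : Divisor Kbar (modularFunctionFieldBar N), Divisor.degree D = 0 →
    haveI : NeZero ℓ := ⟨hℓ.ne_zero⟩
    haveI := E0M.hasPrincipalDivisors_bar (N * ℓ)
    RedMap.rhoDivTame N hℓ hℓN A hA (inclTame_isIntegral N ℓ)
        (heckeDivBar (E0M.alphaIntegral N ℓ) (E0M.betaIntegral N ℓ) D) =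
      frobAutC (IsLocalRing.ResidueField A) (tameLevel N ℓ) ℓ •
          RedMap.rhoDivTame N hℓ hℓN A hA (inclTame_isIntegral N ℓ) D +
        ℓ • ((frobAutC (IsLocalRing.ResidueField A) (tameLevel N ℓ) ℓ)⁻¹ •
          RedMap.rhoDivTame N hℓ hℓN A hA (inclTame_isIntegral N ℓ) D)

/-- **S37 from the congruence on divisors.** -/
theorem specialization_of_esDiv (N p : ℕ) [NeZero N] (hcomm : HeckeOperatorsCommuteBar N)
    (H : ∀ (ℓ : ℕ) (hℓ : ℓ.Prime) (hℓN : ¬ ℓ ∣ N) (A : ValuationSubring Kbar)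
      (hA : A.LiesOverPrime ℓ) [Fact ℓ.Prime] [CharP (IsLocalRing.ResidueField A) ℓ]
      [PerfectRing (IsLocalRing.ResidueField A) ℓ], ESDivAt N ℓ hℓ hℓN A hA) :
    letI := heckeModuleBar N
    ∀ (_ : SMulCommClass (Kbar ≃ₐ[ℚ] Kbar) HeckeAlg (JZero N)),
      SpecializationExists (K := ℚ) (L := Kbar) N p (JZero N) := by
  intro hsc
  refine specialization_of_inputs N p hcomm hsc (fun ℓ hℓ hℓNp A hA => ?_)
  have hℓN : ¬ ℓ ∣ N := fun h => hℓNp (h.mul_right p)
  have hℓp : ¬ ℓ ∣ p := fun h => hℓNp (h.mul_left N)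
  haveI : Fact ℓ.Prime := ⟨hℓ⟩
  haveI : CharP (IsLocalRing.ResidueField A) ℓ := charP_residueField A hℓ hA
  haveI : IsAlgClosed (IsLocalRing.ResidueField A) := ResAC.isAlgClosed_residueField A
  haveI : PerfectRing (IsLocalRing.ResidueField A) ℓ := inferInstance
  exact esInputsAt_of_div N p hℓ hℓN hℓp A hA (inclTame_isIntegral N ℓ)
    (inclTame_finiteAlong N ℓ) (H ℓ hℓ hℓN A hA)

end Fermat.Agent.S37.Asm
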