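import Fermat.Agent.S37.ESModular
import Fermat.Agent.S37.RedMapTame
import Fermat.Agent.S37.KronNorm
import Fermat.Agent.S37.HeckePic
import Fermat.Agent.S37.PullBound

/-!
# S37 (item 88), piece (E3): the Eichler–Shimura relation for `rhoDivTame`

For every divisor `D` of degree `0` of `F_N`:
`ρ (T_ℓ D) = φ • ρ D + ℓ • (φ⁻¹ • ρ D)`, `ρ = rhoDivTame`, `T_ℓ = heckeDivBar`,
`φ = frobAutC` (the coefficientwise Frobenius of `Fbar_{N'}`).
This is the hypothesis `h` of `PicMaps.rhoPic_relation`.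
-/

set_option autoImplicit false
set_option linter.style.haveILetI false
set_option linter.unusedSectionVars false

open HahnSeries AlgebraicCurve ModularCurve IntermediateField
open Fermat.Agent.S18 Fermat.Agent.S18.RPrime

noncomputable section

namespace Fermat.Agent.S37.E3

local notation "Kb" => AlgebraicClosure ℚ

section Tame

variable (N : ℕ) [NeZero N] {ℓ : ℕ} (hℓ : ℓ.Prime) (hℓN : ¬ ℓ ∣ N)
variable (A : ValuationSubring Kb) (hA : A.LiesOverPrime ℓ)
variable [Fact ℓ.Prime] [CharP (IsLocalRing.ResidueField A) ℓ]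
  [PerfectRing (IsLocalRing.ResidueField A) ℓ]
variable (hint : (RedMap.inclTame N ℓ).toRingHom.IsIntegral)

/-- the Kronecker data at the tame level. -/
theorem kronData_tame :
    haveI : NeZero ℓ := ⟨hℓ.ne_zero⟩
    haveI := RedMap.neZero_tame N ℓ
    haveI := RedMap.hasPrincipalDivisors_tame N ℓ
    haveI := E0M.hasPrincipalDivisors_bar (N * ℓ)
    KronData (RedMap.inclTame N ℓ) hint (RedMap.rTame N hℓ hℓN A hA)
      (heckeAlphaBar Kb N ℓ) (heckeBetaBar Kb N ℓ)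
      (RedV A (IsLocalRing.residue A) (modularFunctionFieldBar (tameLevel N ℓ))
        (modularFunctionFieldFullC (IsLocalRing.ResidueField A) (tameLevel N ℓ)))
      (GoodQ N (tameLevel N ℓ) A (IsLocalRing.residue A))
      (FmDiv (IsLocalRing.ResidueField A) (tameLevel N ℓ) ℓ)
      (VDiv (IsLocalRing.ResidueField A) (tameLevel N ℓ) ℓ) := by
  haveI : NeZero ℓ := ⟨hℓ.ne_zero⟩
  haveI := RedMap.neZero_tame N ℓ
  haveI := RedMap.hasPrincipalDivisors_tame N ℓ
  haveI := E0M.hasPrincipalDivisors_bar (N * ℓ)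
  exact kronData_modular N (tameLevel N ℓ) ℓ A (IsLocalRing.residue A)
    (MScal.modularHyp N hℓ hℓN A hA)
    (MScal.modularHyp (tameLevel N ℓ) hℓ (CTM.not_dvd_tameLevel N hℓ hℓN) A hA)
    (Descent.le_tame N ℓ) (RedMap.rTame N hℓ hℓN A hA)
    (RedMap.rTame_divCompat N hℓ hℓN A hA)
    (fun y yb hy => Kron.kronecker_norm' N ℓ hℓ hℓN A (IsLocalRing.residue A) y yb hy) hint

set_option maxHeartbeats 1000000 in
/-- **(E3) on divisors**: `ρ (T_ℓ D) = φ • ρ D + ℓ • (φ⁻¹ • ρ D)` for `deg D = 0`. -/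
theorem es_div_tame (D : Divisor Kb (modularFunctionFieldBar N))
    (hD : Divisor.degree D = 0) :
    haveI : NeZero ℓ := ⟨hℓ.ne_zero⟩
    haveI := E0M.hasPrincipalDivisors_bar (N * ℓ)
    RedMap.rhoDivTame N hℓ hℓN A hA hint
        (heckeDivBar (E0M.alphaIntegral N ℓ) (E0M.betaIntegral N ℓ) D) =
      frobAutC (IsLocalRing.ResidueField A) (tameLevel N ℓ) ℓ •
          RedMap.rhoDivTame N hℓ hℓN A hA hint D +
        ℓ • ((frobAutC (IsLocalRing.ResidueField A) (tameLevel N ℓ) ℓ)⁻¹ •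
          RedMap.rhoDivTame N hℓ hℓN A hA hint D) := by
  haveI : NeZero ℓ := ⟨hℓ.ne_zero⟩
  haveI := RedMap.neZero_tame N ℓ
  haveI := RedMap.hasPrincipalDivisors_tame N ℓ
  haveI := E0M.hasPrincipalDivisors_bar (N * ℓ)
  obtain ⟨g', hK', hk⟩ := GenusFin.exists_genus_tame N hℓ hℓN A hA
  have X := kronData_tame N hℓ hℓN A hA hint
  obtain ⟨B, hB⟩ := PullBound.exists_bound_pullback (RedMap.inclTame N ℓ) hint
    (GenusAsm.curveRR_zero N)
  obtain ⟨e, hT⟩ := HeckePic.exists_isBddMap_heckeDivBar' N ℓ hℓ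
  have hdeg' : ∀ w : Place Kb (modularFunctionFieldBar (tameLevel N ℓ)), w.deg = 1 :=
    hK'.deg_one
  have hdegk : ∀ Q : Place (IsLocalRing.ResidueField A)
      (modularFunctionFieldFullC (IsLocalRing.ResidueField A) (tameLevel N ℓ)), Q.deg = 1 :=
    hk.deg_one
  have hρ : IsBddMap (rhoDiv (RedMap.inclTame N ℓ) hint (RedMap.rTame N hℓ hℓN A hA))
      (1 * B.toNat) :=
    isBddMap_rhoDiv (RedMap.inclTame N ℓ) hint (RedMap.rTame N hℓ hℓN A hA) hdeg' hdegk
      (isBddMap_pullbackAlong (RedMap.inclTame N ℓ) hint hB)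
  have hFm : IsBddMap (FmDiv (IsLocalRing.ResidueField A) (tameLevel N ℓ) ℓ) 1 :=
    isBddMap_FmDiv (IsLocalRing.ResidueField A) (tameLevel N ℓ) ℓ hdegk
  have hV : IsBddMap (VDiv (IsLocalRing.ResidueField A) (tameLevel N ℓ) ℓ) (ℓ * 1) :=
    isBddMap_VDiv (IsLocalRing.ResidueField A) (tameLevel N ℓ) ℓ hdegk
  have hT' : IsBddMap (Divisor.correspondence (heckeBetaBar Kb N ℓ) (heckeAlphaBar Kb N ℓ)
      (E0M.betaIntegral N ℓ) (E0M.alphaIntegral N ℓ)) e := hT
  have h := X.rho_hecke (GenusAsm.curveRR_zero N) hdegk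
    (E0M.alphaIntegral N ℓ) (E0M.betaIntegral N ℓ)
    (E0M.finiteAlong_alpha N ℓ) (E0M.normFormulaAlong_alpha N ℓ) hρ hT' hFm hV D hD
  rw [FmDiv_apply, VDiv_apply] at h
  exact h

end Tame

end Fermat.Agent.S37.E3
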