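import Mathlib
import Fermat.Prelude.Def_ModularCurve_X0ModL
import Fermat.Prelude.Def_AlgebraicCurve_BaseChangeGalois

/-!
# S37 (item 88), pieces (E2) + (D), semilinear side (helper9)

* `coeffAutC k N s : SemilinearAut k (modularFunctionFieldFullC k N)` for a ring automorphism
  `s` of `k`: the coefficientwise action on `Fbar_N ⊂ k((q))`.  The prelude then provides the
  action on places, divisors and `Pic0`, with `SemilinearAut.ord_smul`.
* `pow_char_eq_qExpand`: in characteristic `ℓ`, `y ^ ℓ = (coeffMap Frob y)(q^ℓ)`.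
-/

set_option autoImplicit false

noncomputable section

open HahnSeries AlgebraicCurve ModularCurve IntermediateField

namespace Fermat.Agent.S37

section CoeffAut

variable (k : Type*) [Field k] (N : ℕ)

/-- a coefficientwise ring endomorphism of `k` preserves `Fbar_N`. -/
theorem coeffMap_mem_fullC (s : k →+* k) {x : LaurentSeries k}
    (hx : x ∈ modularFunctionFieldFullC k N) :
    coeffMap s x ∈ modularFunctionFieldFullC k N := by
  change x ∈ Subfield.closure
    (Set.range (algebraMap k (LaurentSeries k)) ∪ divisorExpansionsC k N) at hx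
  induction hx using Subfield.closure_induction with
  | mem y hy =>
      rcases hy with ⟨a, rfl⟩ | ⟨d, hd, hdN, rfl⟩
      · rw [coeffMap_algebraMap]
        exact (modularFunctionFieldFullC k N).algebraMap_mem _
      · haveI := hd
        rw [coeffMap_qExpand, coeffMap_jqModC]
        exact jqModCd_mem_full k N hdN
  | one => simp
  | add x y _ _ hx hy => simpa using add_mem hx hy
  | neg x _ hx => simpa using neg_mem hx
  | inv x _ hx => simpa using inv_mem hx
  | mul x y _ _ hx hy => simpa using mul_mem hx hy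

/-- the coefficientwise ring automorphism of `Fbar_N` attached to `s : k ≃+* k`. -/
def coeffRingAutC (s : k ≃+* k) :
    (modularFunctionFieldFullC k N) ≃+* (modularFunctionFieldFullC k N) where
  toFun x := ⟨coeffMap (s : k →+* k) (x : LaurentSeries k), coeffMap_mem_fullC k N _ x.2⟩
  invFun x := ⟨coeffMap (s.symm : k →+* k) (x : LaurentSeries k), coeffMap_mem_fullC k N _ x.2⟩
  left_inv x := Subtype.ext <| by
    show coeffMap (s.symm : k →+* k) (coeffMap (s : k →+* k) (x : LaurentSeries k))
      = (x : LaurentSeries k)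
    rw [coeffMap_coeffMap,
      coeffMap_congr (g := RingHom.id k) (RingHom.ext fun a => s.symm_apply_apply a)
        (x : LaurentSeries k),
      coeffMap_id]
  right_inv x := Subtype.ext <| by
    show coeffMap (s : k →+* k) (coeffMap (s.symm : k →+* k) (x : LaurentSeries k))
      = (x : LaurentSeries k)
    rw [coeffMap_coeffMap,
      coeffMap_congr (g := RingHom.id k) (RingHom.ext fun a => s.apply_symm_apply a)
        (x : LaurentSeries k),
      coeffMap_id]
  map_mul' x y :=
    Subtype.ext (map_mul (coeffMap (s : k →+* k)) (x : LaurentSeries k) (y : LaurentSeries k))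
  map_add' x y :=
    Subtype.ext (map_add (coeffMap (s : k →+* k)) (x : LaurentSeries k) (y : LaurentSeries k))

@[simp]
theorem coe_coeffRingAutC_apply (s : k ≃+* k) (x : modularFunctionFieldFullC k N) :
    (coeffRingAutC k N s x : LaurentSeries k) = coeffMap (s : k →+* k) (x : LaurentSeries k) :=
  rfl

theorem coeffRingAutC_algebraMap (s : k ≃+* k) (a : k) :
    coeffRingAutC k N s (algebraMap k (modularFunctionFieldFullC k N) a)
      = algebraMap k (modularFunctionFieldFullC k N) (s a) :=
  Subtype.ext (coeffMap_algebraMap (s : k →+* k) a)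

/-- the coefficientwise action of `Aut(k)` on `Fbar_N`, as semilinear automorphisms. -/
def coeffAutC : RingAut k →* SemilinearAut k (modularFunctionFieldFullC k N) where
  toFun s := ⟨(coeffRingAutC k N s, s), fun a => coeffRingAutC_algebraMap k N s a⟩
  map_one' := by
    refine Subtype.ext (Prod.ext (RingEquiv.ext fun x => Subtype.ext ?_) rfl)
    show coeffMap (((1 : RingAut k) : k ≃+* k) : k →+* k) (x : LaurentSeries k)
      = (x : LaurentSeries k)
    rw [show (((1 : RingAut k) : k ≃+* k) : k →+* k) = RingHom.id k from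
      RingHom.ext fun _ => rfl, coeffMap_id]
  map_mul' s t := by
    refine Subtype.ext (Prod.ext (RingEquiv.ext fun x => Subtype.ext ?_) rfl)
    show coeffMap (((s * t : RingAut k) : k ≃+* k) : k →+* k) (x : LaurentSeries k)
      = coeffMap ((s : k ≃+* k) : k →+* k)
          (coeffMap ((t : k ≃+* k) : k →+* k) (x : LaurentSeries k))
    rw [coeffMap_coeffMap]
    exact coeffMap_congr (RingHom.ext fun _ => rfl) _

@[simp]
theorem toRingAut_coeffAutC (s : RingAut k) :
    SemilinearAut.toRingAut (coeffAutC k N s) = coeffRingAutC k N s :=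
  rfl

@[simp]
theorem baseAut_coeffAutC (s : RingAut k) :
    SemilinearAut.baseAut (coeffAutC k N s) = s :=
  rfl

theorem coe_coeffAutC_smul (s : RingAut k) (x : modularFunctionFieldFullC k N) :
    ((coeffAutC k N s • x : modularFunctionFieldFullC k N) : LaurentSeries k)
      = coeffMap ((s : k ≃+* k) : k →+* k) (x : LaurentSeries k) :=
  rfl

theorem coe_coeffAutC_inv_smul (s : RingAut k) (x : modularFunctionFieldFullC k N) :
    (((coeffAutC k N s)⁻¹ • x : modularFunctionFieldFullC k N) : LaurentSeries k)
      = coeffMap ((s : k ≃+* k).symm : k →+* k) (x : LaurentSeries k) :=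
  rfl

end CoeffAut

section Frobenius

variable (k : Type*) [Field k] (ℓ : ℕ) [NeZero ℓ]

theorem qExpand_ofPowerSeries (p : PowerSeries k) :
    qExpand k ℓ (HahnSeries.ofPowerSeries ℤ k p)
      = HahnSeries.ofPowerSeries ℤ k (PowerSeries.expand ℓ (NeZero.ne ℓ) p) := by
  ext n
  by_cases hn : (ℓ : ℤ) ∣ n
  · obtain ⟨m, rfl⟩ := hn
    rw [qExpand_coeff_mul]
    rcases le_or_gt 0 m with hm | hm
    · lift m to ℕ using hm
      rw [HahnSeries.ofPowerSeries_apply_coeff,
        show ((ℓ : ℤ) * (m : ℤ)) = ((ℓ * m : ℕ) : ℤ) by push_cast; ring,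
        HahnSeries.ofPowerSeries_apply_coeff, PowerSeries.coeff_expand_mul]
    · have h2 : (ℓ : ℤ) * m < 0 :=
        mul_neg_of_pos_of_neg (by exact_mod_cast Nat.pos_of_ne_zero (NeZero.ne ℓ)) hm
      rw [ofPowerSeries_coeff_of_neg _ hm, ofPowerSeries_coeff_of_neg _ h2]
  · rw [qExpand_coeff_of_not_dvd ℓ _ hn]
    rcases le_or_gt 0 n with hn0 | hn0
    · lift n to ℕ using hn0
      rw [HahnSeries.ofPowerSeries_apply_coeff, PowerSeries.coeff_expand_of_not_dvd]
      intro h
      exact hn (by exact_mod_cast h)
    · rw [ofPowerSeries_coeff_of_neg _ hn0]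

variable [CharP k ℓ] [hℓ : Fact ℓ.Prime]

/-- in characteristic `ℓ`: `y(q) ^ ℓ = y^{(ℓ)}(q ^ ℓ)`. -/
theorem pow_char_eq_qExpand (y : LaurentSeries k) :
    y ^ ℓ = qExpand k ℓ (coeffMap (frobenius k ℓ) y) := by
  haveI : ExpChar k ℓ := ExpChar.prime hℓ.out
  have h1 : ∀ n : ℤ, (HahnSeries.single n (1 : k)) ^ ℓ
      = qExpand k ℓ (coeffMap (frobenius k ℓ) (HahnSeries.single n 1)) := by
    intro n
    rw [HahnSeries.single_pow, one_pow, coeffMap_single, qExpand_single,
      map_one (frobenius k ℓ), nsmul_eq_mul]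
  have h2 : ∀ p : PowerSeries k, (HahnSeries.ofPowerSeries ℤ k p) ^ ℓ
      = qExpand k ℓ (coeffMap (frobenius k ℓ) (HahnSeries.ofPowerSeries ℤ k p)) := by
    intro p
    rw [coeffMap_ofPowerSeries, qExpand_ofPowerSeries, ← map_pow, ← PowerSeries.map_expand]
    congr 1
    exact (MvPowerSeries.map_frobenius_expand (σ := Unit) ℓ (NeZero.ne ℓ) (f := p)).symm
  rw [← LaurentSeries.single_order_mul_powerSeriesPart y, mul_pow, map_mul, map_mul, h1, h2]

end Frobenius

end Fermat.Agent.S37
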