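import Fermat.Agent.S37.Rigidity
import Fermat.Agent.S18.RPrimeMap

/-!
# S37 (item 88), piece (E3), abstract part: identities of correspondences from functions

`ρ : Div(F) → Div(Fb)`, `T : Div(F) → Div(F)`, `Ψ : Div(Fb) → Div(Fb)` additive maps which send
places to effective divisors of degrees `d`, `e`, `e`.  If `ρ (T (div y)) = Ψ (ρ (div y))` for
every function `y ≠ 0`, then `ρ ∘ T = Ψ ∘ ρ` on divisors of degree `0` (rigidity).
-/

set_option autoImplicit false

open AlgebraicCurve Fermat.Agent.S18.RPrime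

noncomputable section

namespace Fermat.Agent.S37.E3

variable {K F : Type*} [Field K] [Field F] [Algebra K F]
  {k Fb : Type*} [Field k] [Field Fb] [Algebra k Fb]

/-- an additive map of divisors sending places to effective divisors of degree `d`. -/
structure IsEffMap {K₁ F₁ K₂ F₂ : Type*} [Field K₁] [Field F₁] [Algebra K₁ F₁]
    [Field K₂] [Field F₂] [Algebra K₂ F₂]
    (ρ : Divisor K₁ F₁ →+ Divisor K₂ F₂) (d : ℕ) : Prop where
  nonneg : ∀ P : Place K₁ F₁, 0 ≤ ρ (Finsupp.single P 1)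
  degree : ∀ P : Place K₁ F₁, Divisor.degree (ρ (Finsupp.single P 1)) = d

section EffMap

variable {K₁ F₁ K₂ F₂ : Type*} [Field K₁] [Field F₁] [Algebra K₁ F₁]
    [Field K₂] [Field F₂] [Algebra K₂ F₂]
    {ρ : Divisor K₁ F₁ →+ Divisor K₂ F₂} {d : ℕ}

theorem map_eq_sum_single (ρ : Divisor K₁ F₁ →+ Divisor K₂ F₂) (D : Divisor K₁ F₁) :
    ρ D = D.sum fun P n => n • ρ (Finsupp.single P 1) := by
  induction D using Finsupp.induction with
  | zero => simp
  | single_add P n D hP hn ih =>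
    rw [map_add, ih, Finsupp.sum_add_index' (by simp) (by intro a b₁ b₂; rw [add_smul]),
      Finsupp.sum_single_index (by simp)]
    congr 1
    have : (Finsupp.single P n : Divisor K₁ F₁) = n • Finsupp.single P 1 := by
      rw [Finsupp.smul_single, smul_eq_mul, mul_one]
    rw [this, map_zsmul]

theorem IsEffMap.map_nonneg (h : IsEffMap ρ d) {E : Divisor K₁ F₁} (hE : 0 ≤ E) :
    0 ≤ ρ E := by
  rw [map_eq_sum_single ρ E, Finsupp.sum]
  exact Finset.sum_nonneg fun P _ =>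
    smul_nonneg (Finsupp.le_def.mp hE P) (h.nonneg P)

theorem IsEffMap.degree_map (h : IsEffMap ρ d) (hdeg : ∀ P : Place K₁ F₁, P.deg = 1)
    (E : Divisor K₁ F₁) : Divisor.degree (ρ E) = d * Divisor.degree E := by
  rw [map_eq_sum_single ρ E, Finsupp.sum, map_sum, degree_eq_sum hdeg E, Finsupp.sum,
    Finset.mul_sum]
  refine Finset.sum_congr rfl fun P _ => ?_
  rw [map_zsmul, h.degree P, smul_eq_mul, mul_comm]

/-- coefficients of an effective divisor are bounded by its degree. -/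
theorem apply_le_degree (hdeg : ∀ Q : Place K₂ F₂, Q.deg = 1) {E : Divisor K₂ F₂}
    (hE : 0 ≤ E) (Q : Place K₂ F₂) : E Q ≤ Divisor.degree E := by
  classical
  rw [degree_eq_sum hdeg E, Finsupp.sum]
  by_cases hQ : Q ∈ E.support
  · exact Finset.single_le_sum (f := fun P => E P) (fun P _ => Finsupp.le_def.mp hE P) hQ
  · have h0 : E Q = 0 := by simpa using hQ
    rw [h0]
    exact Finset.sum_nonneg fun P _ => Finsupp.le_def.mp hE P

theorem IsEffMap.comp {K₃ F₃ : Type*} [Field K₃] [Field F₃] [Algebra K₃ F₃]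
    {σ : Divisor K₂ F₂ →+ Divisor K₃ F₃} {e : ℕ} (hσ : IsEffMap σ e) (hρ : IsEffMap ρ d)
    (hdeg : ∀ Q : Place K₂ F₂, Q.deg = 1) : IsEffMap (σ.comp ρ) (e * d) where
  nonneg P := hσ.map_nonneg (hρ.nonneg P)
  degree P := by
    rw [AddMonoidHom.comp_apply, hσ.degree_map hdeg, hρ.degree P]
    push_cast
    ring

theorem IsEffMap.add {σ : Divisor K₁ F₁ →+ Divisor K₂ F₂} {e : ℕ} (hρ : IsEffMap ρ d)
    (hσ : IsEffMap σ e) : IsEffMap (ρ + σ) (d + e) where
  nonneg P := add_nonneg (hρ.nonneg P) (hσ.nonneg P)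
  degree P := by
    rw [AddMonoidHom.add_apply, map_add, hρ.degree P, hσ.degree P]
    push_cast
    ring

theorem IsEffMap.apply_mem (h : IsEffMap ρ d) (hdeg : ∀ Q : Place K₂ F₂, Q.deg = 1)
    (P : Place K₁ F₁) (Q : Place K₂ F₂) :
    0 ≤ ρ (Finsupp.single P 1) Q ∧ ρ (Finsupp.single P 1) Q ≤ d := by
  refine ⟨Finsupp.le_def.mp (h.nonneg P) Q, ?_⟩
  have := apply_le_degree hdeg (h.nonneg P) Q
  rwa [h.degree P] at this

end EffMap

/-- **(E3), abstract**: an identity of correspondences which holds on principal divisors holds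
on all divisors of degree zero. -/
theorem eq_of_eq_on_principal {g : ℕ} (hK : CurveRR K F g) (hk : ∀ Q : Place k Fb, Q.deg = 1)
    (Φ₁ Φ₂ : Divisor K F →+ Divisor k Fb) {B : ℕ} (h1 : IsEffMap Φ₁ B) (h2 : IsEffMap Φ₂ B)
    (hfun : ∀ (y : F), y ≠ 0 → ∀ D : Divisor K F, (∀ v, D v = v.ord y) → Φ₁ D = Φ₂ D)
    (D : Divisor K F) (hD : Divisor.degree D = 0) : Φ₁ D = Φ₂ D := by
  have := rigidity_div hK (Φ₁ - Φ₂)
    (fun y hy D' hD' => by
      rw [AddMonoidHom.sub_apply, hfun y hy D' hD', sub_self])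
    (B : ℤ)
    (fun P Q => by
      rw [AddMonoidHom.sub_apply, Finsupp.sub_apply]
      have a1 := h1.apply_mem hk P Q
      have a2 := h2.apply_mem hk P Q
      rw [abs_le]
      constructor <;> omega)
    D hD
  rw [AddMonoidHom.sub_apply] at this
  exact sub_eq_zero.mp this

/-- **(E3), abstract, in the form used for Eichler–Shimura**: `ρ ∘ T = Ψ ∘ ρ` on degree `0`. -/
theorem comm_of_comm_on_principal {g : ℕ} (hK : CurveRR K F g)
    (hk : ∀ Q : Place k Fb, Q.deg = 1)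
    (ρ : Divisor K F →+ Divisor k Fb) (T : Divisor K F →+ Divisor K F)
    (Ψ : Divisor k Fb →+ Divisor k Fb) {d e : ℕ}
    (hρ : IsEffMap ρ d) (hT : IsEffMap T e) (hΨ : IsEffMap Ψ e)
    (hfun : ∀ (y : F), y ≠ 0 → ∀ D : Divisor K F, (∀ v, D v = v.ord y) →
      ρ (T D) = Ψ (ρ D))
    (D : Divisor K F) (hD : Divisor.degree D = 0) : ρ (T D) = Ψ (ρ D) := by
  have h1 : IsEffMap (ρ.comp T) (d * e) := hρ.comp hT hK.deg_one
  have h2 : IsEffMap (Ψ.comp ρ) (d * e) := by
    have := hΨ.comp hρ hk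
    rwa [mul_comm] at this
  exact eq_of_eq_on_principal hK hk (ρ.comp T) (Ψ.comp ρ) h1 h2
    (fun y hy D' hD' => hfun y hy D' hD') D hD

end Fermat.Agent.S37.E3
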