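import Fermat.Agent.S37.ESFun

/-!
# S37 (item 88), piece (E3): `hfun` from Kronecker in divisor form (`KronData`)

Same as `FunData`, but the Kronecker congruence is given directly in the form
"`norm (β u)` reduces to `zb` and `div zb = Fm (div ub) + V (div ub)`"
(this is the shape of `div_kronecker`).
-/

set_option autoImplicit false
set_option linter.style.haveILetI false

open AlgebraicCurve Fermat.Agent.S18.RPrime

noncomputable section

namespace Fermat.Agent.S37.E3

variable {K F F' FM : Type*} [Field K] [Field F] [Field F'] [Field FM]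
  [Algebra K F] [Algebra K F'] [Algebra K FM]
  {k Fb : Type*} [Field k] [Field Fb] [Algebra k Fb]

/-- the hypotheses on the reduction, Kronecker in divisor form. -/
structure KronData [HasPrincipalDivisors K F'] [HasPrincipalDivisors K FM]
    (φ : F →ₐ[K] F') (hφ : φ.toRingHom.IsIntegral) (r' : Place K F' → Place k Fb)
    (α β : F →ₐ[K] FM) (Red' : F' → Fb → Prop) (G : F → Fb → Prop)
    (Fm V : Divisor k Fb →+ Divisor k Fb) : Prop where
  /-- compatibility of `r'` with divisors of units -/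
  hr : ∀ (y : F') (yb : Fb), Red' y yb → yb ≠ 0 → ∀ D : Divisor K F', (∀ P, D P = P.ord y) →
    ∀ Q, Finsupp.mapDomain r' D Q = Q.ord yb
  /-- every function is a constant times a quotient of good functions -/
  scal : ∀ y : F, y ≠ 0 → ∃ c : K, c ≠ 0 ∧ ∃ (u v : F) (ub vb : Fb),
    G u ub ∧ G v vb ∧ (c • y) * v = u
  good : ∀ (u : F) (ub : Fb), G u ub → u ≠ 0 ∧ ub ≠ 0 ∧ Red' (φ u) ub
  /-- Kronecker -/
  kron : ∀ (u : F) (ub : Fb), G u ub → ∃ zb : Fb, zb ≠ 0 ∧
    Red' (φ (normAlong α (β u))) zb ∧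
    ∀ D E : Divisor k Fb, (∀ Q, D Q = Q.ord ub) → (∀ Q, E Q = Q.ord zb) → E = Fm D + V D

variable [HasPrincipalDivisors K F'] [HasPrincipalDivisors K FM]
  {φ : F →ₐ[K] F'} {hφ : φ.toRingHom.IsIntegral} {r' : Place K F' → Place k Fb}
  {α β : F →ₐ[K] FM} {Red' : F' → Fb → Prop} {G : F → Fb → Prop}
  {Fm V : Divisor k Fb →+ Divisor k Fb}

/-- `ρ (div u) = div ub` for good `u`. -/
theorem KronData.rho_good (X : KronData φ hφ r' α β Red' G Fm V) {u : F} {ub : Fb}
    (hG : G u ub) {D : Divisor K F} (hD : ∀ v, D v = v.ord u) (Q : Place k Fb) :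
    rhoDiv φ hφ r' D Q = Q.ord ub := by
  obtain ⟨-, hub, hred⟩ := X.good u ub hG
  rw [rhoDiv_apply]
  exact X.hr (φ u) ub hred hub _ (fun P => pullbackAlong_apply_eq_ord φ hφ hD P) Q

/-- the Kronecker congruence for the divisor of a good function. -/
theorem KronData.rho_hecke_good (X : KronData φ hφ r' α β Red' G Fm V)
    (hα : α.toRingHom.IsIntegral) (hβ : β.toRingHom.IsIntegral)
    (hfin : FiniteAlong K α) (hN : NormFormulaAlong K α hfin)
    {u : F} {ub : Fb} (hG : G u ub) {D : Divisor K F} (hD : ∀ v, D v = v.ord u) :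
    rhoDiv φ hφ r' (Divisor.correspondence β α hβ hα D) =
      Fm (rhoDiv φ hφ r' D) + V (rhoDiv φ hφ r' D) := by
  obtain ⟨hu0, hub, hred⟩ := X.good u ub hG
  obtain ⟨zb, hzb0, hz, hdiv⟩ := X.kron u ub hG
  have hβu : β u ≠ 0 := by
    rw [Ne, map_eq_zero_iff β β.toRingHom.injective]
    exact hu0
  have hD₁ : ∀ w : Place K FM, Divisor.pullbackAlong β hβ D w = w.ord (β u) :=
    fun w => pullbackAlong_apply_eq_ord β hβ hD w
  have hD₂ : ∀ v : Place K F, Divisor.correspondence β α hβ hα D v =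
      v.ord (normAlong α (β u)) := by
    intro v
    rw [Divisor.correspondence_apply]
    exact pushforwardAlong_apply_eq_ord α hα hfin hN hβu hD₁ v
  have h1 : ∀ Q : Place k Fb, rhoDiv φ hφ r' (Divisor.correspondence β α hβ hα D) Q =
      Q.ord zb := by
    intro Q
    rw [rhoDiv_apply]
    exact X.hr _ _ hz hzb0 _ (fun P => pullbackAlong_apply_eq_ord φ hφ hD₂ P) Q
  exact hdiv _ _ (X.rho_good hG hD) h1

/-- **`hfun`**: the Kronecker congruence on principal divisors. -/
theorem KronData.rho_hecke_principal {g : ℕ} (X : KronData φ hφ r' α β Red' G Fm V)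
    (hK : CurveRR K F g)
    (hα : α.toRingHom.IsIntegral) (hβ : β.toRingHom.IsIntegral)
    (hfin : FiniteAlong K α) (hN : NormFormulaAlong K α hfin)
    (y : F) (hy : y ≠ 0) (D : Divisor K F) (hD : ∀ v, D v = v.ord y) :
    rhoDiv φ hφ r' (Divisor.correspondence β α hβ hα D) =
      Fm (rhoDiv φ hφ r' D) + V (rhoDiv φ hφ r' D) := by
  obtain ⟨c, hc, u, v, ub, vb, hGu, hGv, huv⟩ := X.scal y hy
  obtain ⟨hu0, -, -⟩ := X.good u ub hGu
  obtain ⟨hv0, -, -⟩ := X.good v vb hGv
  have hDuv : D = divOf hK u - divOf hK v := by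
    ext P
    rw [Finsupp.sub_apply, divOf_apply, divOf_apply, hD P, ← huv,
      P.ord_mul (by rw [Algebra.smul_def]; exact mul_ne_zero (by simpa using hc) hy) hv0,
      ord_smul P hc]
    ring
  have hu := X.rho_hecke_good hα hβ hfin hN hGu (fun P => divOf_apply hK u P)
  have hv := X.rho_hecke_good hα hβ hfin hN hGv (fun P => divOf_apply hK v P)
  rw [hDuv, map_sub, map_sub, map_sub, map_sub, map_sub, hu, hv]
  abel

/-- **(E3) on divisors from `KronData`**: `ρ ∘ T = (Fm + V) ∘ ρ` on degree `0`. -/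
theorem KronData.rho_hecke {g : ℕ} (X : KronData φ hφ r' α β Red' G Fm V)
    (hK : CurveRR K F g) (hk : ∀ Q : Place k Fb, Q.deg = 1)
    (hα : α.toRingHom.IsIntegral) (hβ : β.toRingHom.IsIntegral)
    (hfin : FiniteAlong K α) (hN : NormFormulaAlong K α hfin) {d e a b : ℕ}
    (hρ : IsBddMap (rhoDiv φ hφ r') d)
    (hT : IsBddMap (Divisor.correspondence β α hβ hα) e)
    (hFm : IsBddMap Fm a) (hV : IsBddMap V b)
    (D : Divisor K F) (hD : Divisor.degree D = 0) :
    rhoDiv φ hφ r' (Divisor.correspondence β α hβ hα D) =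
      Fm (rhoDiv φ hφ r' D) + V (rhoDiv φ hφ r' D) :=
  rho_hecke_eq hK hk (rhoDiv φ hφ r') (Divisor.correspondence β α hβ hα) Fm V hρ hT hFm hV
    (X.rho_hecke_principal hK hα hβ hfin hN) D hD

end Fermat.Agent.S37.E3
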