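import Fermat.Agent.S37.ESKron
import Fermat.Agent.S37.FrobC
import Fermat.Agent.S18.CTWireAux
import Fermat.Prelude.Def_ModularCurve_HeckeOperator

/-!
# S37 (item 88), piece (E3), modular instantiation

`F = F_N`, `F' = F_N'` (`N ∣ N'`, `ℓ ∤ N'`), `Fb = Fbar_N'`, `ρ = r'_* ∘ incl^*`,
`T = heckeDivBar`, `Fm = φ_*`, `V = ℓ • φ_*⁻¹` (`φ` the coefficientwise Frobenius).
From the Kronecker congruence for norms (`KroneckerNorm`, piece (E1)), the norm formula (E0) and
bounds for `ρ`, `T`:  `ρ (T D) = Fm (ρ D) + V (ρ D)` for every divisor `D` of degree `0`.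
-/

set_option autoImplicit false
set_option linter.style.haveILetI false

open HahnSeries AlgebraicCurve ModularCurve IntermediateField
open Fermat.Agent.S18 Fermat.Agent.S18.RPrime

noncomputable section

namespace Fermat.Agent.S37.E3

local notation "Kb" => AlgebraicClosure ℚ

section Defs

variable (N : ℕ) [NeZero N] (ℓ : ℕ) [NeZero ℓ] (A : ValuationSubring Kb)
  {k : Type*} [Field k] (π : A →+* k)

/-- **(E1)**, the Kronecker congruence for norms (shape of helper3's `kronecker_norm`). -/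
def KroneckerNorm : Prop :=
  ∀ (y : modularFunctionFieldBar N) (yb : LaurentSeries k),
    RedQ A π (y : LaurentSeries Kb) yb →
    ∃ wb : LaurentSeries k,
      qExpand k ℓ wb = yb ^ ℓ ∧
      RedQ A π
        ((normAlong (heckeAlphaBar Kb N ℓ) (heckeBetaBar Kb N ℓ y) :
          modularFunctionFieldBar N) : LaurentSeries Kb)
        (qExpand k ℓ yb * wb)

end Defs

section Frob

variable (k : Type*) [Field k] (N' : ℕ) (ℓ : ℕ) [hℓ : Fact ℓ.Prime] [CharP k ℓ]
  [PerfectRing k ℓ]

/-- `Fm = φ_*` on divisors of `Fbar_N'`. -/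
def FmDiv : Divisor k (modularFunctionFieldFullC k N') →+
    Divisor k (modularFunctionFieldFullC k N') :=
  DistribSMul.toAddMonoidHom _ (frobAutC k N' ℓ)

/-- `V = ℓ • φ_*⁻¹` on divisors of `Fbar_N'`. -/
def VDiv : Divisor k (modularFunctionFieldFullC k N') →+
    Divisor k (modularFunctionFieldFullC k N') :=
  ℓ • DistribSMul.toAddMonoidHom _ (frobAutC k N' ℓ)⁻¹

theorem FmDiv_apply (D : Divisor k (modularFunctionFieldFullC k N')) :
    FmDiv k N' ℓ D = frobAutC k N' ℓ • D := rfl

theorem VDiv_apply (D : Divisor k (modularFunctionFieldFullC k N')) :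
    VDiv k N' ℓ D = ℓ • ((frobAutC k N' ℓ)⁻¹ • D) := rfl

theorem VDiv_FmDiv (D : Divisor k (modularFunctionFieldFullC k N')) :
    VDiv k N' ℓ (FmDiv k N' ℓ D) = ℓ • D := by
  rw [VDiv_apply, FmDiv_apply, inv_smul_smul]

theorem isBddMap_smul (hdeg : ∀ Q : Place k (modularFunctionFieldFullC k N'), Q.deg = 1)
    (g : SemilinearAut k (modularFunctionFieldFullC k N')) :
    IsBddMap (DistribSMul.toAddMonoidHom
      (Divisor k (modularFunctionFieldFullC k N')) g) 1 where
  nonneg P := by
    show 0 ≤ g • (Finsupp.single P 1 : Divisor k (modularFunctionFieldFullC k N'))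
    rw [SemilinearAut.smul_single]
    exact single_one_nonneg _
  degree_le P := by
    show Divisor.degree (g • (Finsupp.single P 1 :
      Divisor k (modularFunctionFieldFullC k N'))) ≤ _
    rw [SemilinearAut.smul_single, degree_single_one hdeg]
    rfl

theorem isBddMap_FmDiv (hdeg : ∀ Q : Place k (modularFunctionFieldFullC k N'), Q.deg = 1) :
    IsBddMap (FmDiv k N' ℓ) 1 :=
  isBddMap_smul k N' hdeg _

theorem isBddMap_VDiv (hdeg : ∀ Q : Place k (modularFunctionFieldFullC k N'), Q.deg = 1) :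
    IsBddMap (VDiv k N' ℓ) (ℓ * 1) :=
  (isBddMap_smul k N' hdeg _).nsmul ℓ

end Frob

section Modular

variable (N N' : ℕ) [NeZero N] [NeZero N'] (ℓ : ℕ) [hℓ : Fact ℓ.Prime] [NeZero ℓ]
variable (A : ValuationSubring Kb) {k : Type*} [Field k] (π : A →+* k)
  [CharP k ℓ] [PerfectRing k ℓ]
variable (H : GaussD.Hyp A π (modularFunctionFieldBar N)
      (modularFunctionFieldFullC k N))
  (H' : GaussD.Hyp A π (modularFunctionFieldBar N')
      (modularFunctionFieldFullC k N'))
  (hle : modularFunctionFieldBar N ≤ modularFunctionFieldBar N')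
  (r' : Place Kb (modularFunctionFieldBar N') →
    Place k
      (modularFunctionFieldFullC k N'))
  (hr : DivCompatR (GaussD.gaussDatum H') r')
  (hkron : KroneckerNorm N ℓ A π)

/-- good pairs: `u ∈ F_N` is `q`-integral with nonzero reduction `ub` (seen in `Fbar_N'`). -/
def GoodQ (u : modularFunctionFieldBar N)
    (ub : modularFunctionFieldFullC k N') : Prop :=
  ub ≠ 0 ∧ RedQ A π (u : LaurentSeries Kb)
    (ub : LaurentSeries k)

include hr in
theorem kron_hr : ∀ (y : modularFunctionFieldBar N') (yb : modularFunctionFieldFullC k N'),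
    RedV A π (modularFunctionFieldBar N') (modularFunctionFieldFullC k N') y yb → yb ≠ 0 →
    ∀ D : Divisor Kb (modularFunctionFieldBar N'), (∀ P, D P = P.ord y) →
    ∀ Q, Finsupp.mapDomain r' D Q = Q.ord yb := by
  intro y yb hred hyb D hD Q
  have hO : y ∈ (GaussD.gaussDatum H').O := (GaussD.mem_gaussDatum_O H').mpr ⟨yb, hred⟩
  have hredy : (GaussD.gaussDatum H').red ⟨y, hO⟩ = yb :=
    (GaussD.gaussDatum_red_eq_iff H' _ _).mpr hred
  have hu : IsUnit (⟨y, hO⟩ : (GaussD.gaussDatum H').O) :=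
    (GaussD.gaussDatum H').isUnit_of_red_ne_zero _ (by rw [hredy]; exact hyb)
  have := hr ⟨y, hO⟩ hu D hD Q
  rwa [hredy] at this

include H H' hle in
theorem kron_scal : ∀ y : modularFunctionFieldBar N, y ≠ 0 → ∃ c : Kb, c ≠ 0 ∧
    ∃ (u v : modularFunctionFieldBar N) (ub vb : modularFunctionFieldFullC k N'),
      GoodQ N N' A π u ub ∧ GoodQ N N' A π v vb ∧ (c • y) * v = u := by
  intro y hy
  obtain ⟨c, hc, yb, hyb, u, v, ub, vb, hu, hv, hvb, huv, hub⟩ := H.scal y hy
  have hub0 : (ub : LaurentSeries k) ≠ 0 := by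
    intro h0
    have h1 : ub = 0 := ZeroMemClass.coe_eq_zero.mp h0
    rw [h1] at hub
    exact (mul_ne_zero hyb hvb) hub
  have hvb0 : (vb : LaurentSeries k) ≠ 0 := fun h0 => hvb (ZeroMemClass.coe_eq_zero.mp h0)
  obtain ⟨u', hu', hub'⟩ := hu
  obtain ⟨v', hv', hvb'⟩ := hv
  obtain ⟨ub2, hub2, -⟩ := CT.exists_redV_of_incl H'
    (z := IntermediateField.inclusion hle u) (y := u')
    (hu'.trans (IntermediateField.coe_inclusion hle u).symm)
  obtain ⟨vb2, hvb2, -⟩ := CT.exists_redV_of_incl H'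
    (z := IntermediateField.inclusion hle v) (y := v')
    (hv'.trans (IntermediateField.coe_inclusion hle v).symm)
  refine ⟨c, hc, u, v, ub2, vb2, ⟨?_, u', hu', hub2.symm⟩, ⟨?_, v', hv', hvb2.symm⟩, huv⟩
  · intro h0
    apply hub0
    rw [← hub', ← hub2, h0, ZeroMemClass.coe_zero]
  · intro h0
    apply hvb0
    rw [← hvb', ← hvb2, h0, ZeroMemClass.coe_zero]

theorem kron_good : ∀ (u : modularFunctionFieldBar N) (ub : modularFunctionFieldFullC k N'),
    GoodQ N N' A π u ub → u ≠ 0 ∧ ub ≠ 0 ∧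
      RedV A π (modularFunctionFieldBar N') (modularFunctionFieldFullC k N')
        (IntermediateField.inclusion hle u) ub := by
  rintro u ub ⟨hub, hred⟩
  refine ⟨?_, hub, GaussD.redV_of_redQ ?_⟩
  · intro hu0
    apply hub
    rw [hu0, ZeroMemClass.coe_zero] at hred
    exact ZeroMemClass.coe_eq_zero.mp (GaussD.redQ_unique hred GaussD.redQ_zero)
  · rw [IntermediateField.coe_inclusion]
    exact hred

theorem coe_zb (ub : modularFunctionFieldFullC k N') :
    ((((frobAutC k N' ℓ)⁻¹ • ub) ^ ℓ * (frobAutC k N' ℓ • ub) :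
      modularFunctionFieldFullC k N') : LaurentSeries k) =
      qExpand k ℓ (ub : LaurentSeries k) * coeffMap (frobenius k ℓ) (ub : LaurentSeries k) := by
  rw [qExpand_eq_pow k N' ℓ ub, MulMemClass.coe_mul, SubmonoidClass.coe_pow,
    coe_frobAutC_smul]

include hkron in
theorem kron_kron : ∀ (u : modularFunctionFieldBar N) (ub : modularFunctionFieldFullC k N'),
    GoodQ N N' A π u ub → ∃ zb : modularFunctionFieldFullC k N', zb ≠ 0 ∧
      RedV A π (modularFunctionFieldBar N') (modularFunctionFieldFullC k N')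
        (IntermediateField.inclusion hle
          (normAlong (heckeAlphaBar Kb N ℓ) (heckeBetaBar Kb N ℓ u))) zb ∧
      ∀ D E : Divisor k (modularFunctionFieldFullC k N'), (∀ Q, D Q = Q.ord ub) →
        (∀ Q, E Q = Q.ord zb) → E = FmDiv k N' ℓ D + VDiv k N' ℓ D := by
  rintro u ub ⟨hub, hred⟩
  obtain ⟨wb, hwb, hz⟩ := hkron u _ hred
  have hwb' : wb = coeffMap (frobenius k ℓ) (ub : LaurentSeries k) := by
    apply qExpand_injective (R := k) (N := ℓ)
    rw [hwb, pow_char_eq_qExpand]
  have hzbcoe := coe_zb N' ℓ ub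
  have h1 : (frobAutC k N' ℓ)⁻¹ • ub ≠ 0 := fun h0 => hub ((smul_eq_zero_iff_eq _).mp h0)
  have h2 : frobAutC k N' ℓ • ub ≠ 0 := fun h0 => hub ((smul_eq_zero_iff_eq _).mp h0)
  have hzb0 : ((frobAutC k N' ℓ)⁻¹ • ub) ^ ℓ * (frobAutC k N' ℓ • ub) ≠ 0 :=
    mul_ne_zero (pow_ne_zero _ h1) h2
  refine ⟨_, hzb0, GaussD.redV_of_redQ ?_, ?_⟩
  · rw [IntermediateField.coe_inclusion, hzbcoe, ← hwb']
    exact hz
  · intro D E hD hE
    rw [div_kronecker k N' ℓ ub _ hub hzbcoe D E hD hE,
      FmDiv_apply, VDiv_apply, add_comm, natCast_zsmul]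

include H H' hr hkron in
/-- the Kronecker data of the modular pair. -/
theorem kronData_modular [HasPrincipalDivisors Kb (modularFunctionFieldBar N')]
    [HasPrincipalDivisors Kb (modularFunctionFieldBar (N * ℓ))]
    (hφ : (IntermediateField.inclusion hle).toRingHom.IsIntegral) :
    KronData (IntermediateField.inclusion hle) hφ r'
      (heckeAlphaBar Kb N ℓ) (heckeBetaBar Kb N ℓ)
      (RedV A π (modularFunctionFieldBar N')
        (modularFunctionFieldFullC k N'))
      (GoodQ N N' A π)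
      (FmDiv k N' ℓ) (VDiv k N' ℓ) where
  hr := kron_hr N' A π H' r' hr
  scal := kron_scal N N' A π H H' hle
  good := kron_good N N' A π hle
  kron := kron_kron N N' ℓ A π hle hkron

end Modular

end Fermat.Agent.S37.E3
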