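import Fermat.Agent.S37.FrobC
import Fermat.Agent.S37.GalEquiv
import Fermat.Agent.S18.ModularScal
import Fermat.Agent.S18.GenusFinal
import Fermat.Agent.S18.MaxPrinciple

/-!
# S37 (item 88), sub-piece `FunScal` (helper8): inputs of `E3.FunData` for the modular pair

Levels `N ∣ N'`, `ℓ` prime; `A ⊂ ℚ̄` a valuation ring over `ℓ`, residue field `k`.
`F = F_N`, `F' = F_{N'}` over `ℚ̄`, `Fb = F̄_{N'}` over `k`.

* `Good N N' A u ub` (`= G`): `u ∈ F_N` is `q`-integral with reduction `ub ∈ F̄_{N'}`, `ub ≠ 0`;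
* `good_scal` (`= scal`): every `y ≠ 0` in `F_N` is a constant times a quotient of good functions
  (needs `ℓ ∤ N` only);
* `good_ne_zero`, `good_redV` (`= good`, with `Red' = RedV` at level `N'`);
* `hr_of_divCompatR` (`= hr`) for any `r` with `DivCompatR (modularDatum N') r`;
* `Frq k N ℓ : F̄_N →+* F̄_N`, `Frq f = (φ⁻¹ • f) ^ ℓ`, `coe_Frq : ↑(Frq f) = f(q^ℓ)`,
  `ord_Frq : Q.ord (Frq f) = ℓ * (φ • Q).ord f`;
* `verDiv k N ℓ = ℓ • (φ⁻¹ • ·)` (`= V`), `verDiv_apply_of_ord` (`= frq`), `verDiv_frob` (`= hVF`),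
  `frob_verDiv` (`= hFV`), for `Fm = GalEquiv.smulHom (frobAutC k N ℓ)`.
-/

set_option autoImplicit false
set_option linter.style.haveILetI false
set_option linter.unusedSectionVars false

open HahnSeries AlgebraicCurve ModularCurve IsLocalRing

noncomputable section

namespace Fermat.Agent.S37.FunScal

open Fermat.Agent.S18 Fermat.Agent.S18.RPrime

/-! ### `G`, `scal`, `good` -/

section GoodSec

variable (N N' : ℕ) [NeZero N] [NeZero N']
variable (A : ValuationSubring (AlgebraicClosure ℚ))

/-- `G u ub`: `u ∈ F_N` is `q`-integral with reduction `ub ∈ F̄_{N'}`, and `ub ≠ 0`. -/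
def Good (u : modularFunctionFieldBar N)
    (ub : modularFunctionFieldFullC (ResidueField A) N') : Prop :=
  RedQ A (residue A) (u : LaurentSeries (AlgebraicClosure ℚ))
    (ub : LaurentSeries (ResidueField A)) ∧ ub ≠ 0

variable {N N' A}

theorem redQ_zero_left {yb : LaurentSeries (ResidueField A)}
    (h : RedQ A (residue A) (0 : LaurentSeries (AlgebraicClosure ℚ)) yb) : yb = 0 := by
  obtain ⟨y', h1, h2⟩ := h
  have hy' : y' = 0 := by
    ext n
    have := congrArg (fun s : LaurentSeries (AlgebraicClosure ℚ) => s.coeff n) h1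
    simp only [coeffMap_coeff, HahnSeries.coeff_zero] at this
    rw [HahnSeries.coeff_zero]
    simpa using this
  rw [← h2, hy']
  ext n
  simp

theorem Good.ne_zero {u : modularFunctionFieldBar N}
    {ub : modularFunctionFieldFullC (ResidueField A) N'} (h : Good N N' A u ub) : u ≠ 0 := by
  rintro rfl
  apply h.2
  apply Subtype.ext
  exact redQ_zero_left h.1

theorem Good.red_ne_zero {u : modularFunctionFieldBar N}
    {ub : modularFunctionFieldFullC (ResidueField A) N'} (h : Good N N' A u ub) : ub ≠ 0 := h.2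

/-- `good`: a good function is a unit of the Gauss valuation at level `N'` with reduction `ub`. -/
theorem Good.redV {u : modularFunctionFieldBar N}
    {ub : modularFunctionFieldFullC (ResidueField A) N'} (h : Good N N' A u ub)
    (hle : modularFunctionFieldBar N ≤ modularFunctionFieldBar N') :
    RedV A (residue A) (modularFunctionFieldBar N')
      (modularFunctionFieldFullC (ResidueField A) N') (IntermediateField.inclusion hle u) ub := by
  apply GaussD.redV_of_redQ
  rw [IntermediateField.coe_inclusion hle u]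
  exact h.1

variable (N N' A)

/-- **scal**: every nonzero `y ∈ F_N` is a constant times a quotient of good functions
(reductions taken in `F̄_{N'}`, `N ∣ N'`; needs `ℓ ∤ N` only). -/
theorem good_scal (hNN' : N ∣ N') {ℓ : ℕ} (hℓ : ℓ.Prime) (hℓN : ¬ ℓ ∣ N)
    (hA : A.LiesOverPrime ℓ) (y : modularFunctionFieldBar N) (hy : y ≠ 0) :
    ∃ c : AlgebraicClosure ℚ, c ≠ 0 ∧ ∃ (u v : modularFunctionFieldBar N)
      (ub vb : modularFunctionFieldFullC (ResidueField A) N'),
      Good N N' A u ub ∧ Good N N' A v vb ∧ (c • y) * v = u := by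
  obtain ⟨c, hc, yb, hyb, u, v, ub, vb, hu, hv, hvb, huv, hub⟩ :=
    MScal.modular_scal N hℓ hℓN A hA y hy
  have hub0 : ub ≠ 0 := by
    rw [← hub]
    exact mul_ne_zero hyb hvb
  have hle := GenusFin.fullC_mono (ResidueField A) hNN'
  have hGu : Good N N' A u (IntermediateField.inclusion hle ub) := by
    constructor
    · rw [IntermediateField.coe_inclusion hle ub]
      exact hu
    · intro h0
      exact hub0 ((map_eq_zero_iff _ (IntermediateField.inclusion hle).injective).1 h0)
  have hGv : Good N N' A v (IntermediateField.inclusion hle vb) := by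
    constructor
    · rw [IntermediateField.coe_inclusion hle vb]
      exact hv
    · intro h0
      exact hvb ((map_eq_zero_iff _ (IntermediateField.inclusion hle).injective).1 h0)
  exact ⟨c, hc, u, v, IntermediateField.inclusion hle ub, IntermediateField.inclusion hle vb,
    hGu, hGv, huv⟩

end GoodSec

/-! ### `hr` from `DivCompatR` -/

section HR

variable (N' : ℕ) [NeZero N'] {ℓ : ℕ} (hℓ : ℓ.Prime) (hℓN' : ¬ ℓ ∣ N')
variable (A : ValuationSubring (AlgebraicClosure ℚ)) (hA : A.LiesOverPrime ℓ)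

/-- **hr**: a place reduction compatible with the Gauss datum at level `N'` computes the divisor
of the reduction of every unit. -/
theorem hr_of_divCompatR
    {r : Place (AlgebraicClosure ℚ) (modularFunctionFieldBar N') →
      Place (ResidueField A) (modularFunctionFieldFullC (ResidueField A) N')}
    (hr : DivCompatR (MScal.modularDatum N' hℓ hℓN' A hA) r)
    (y : modularFunctionFieldBar N') (yb : modularFunctionFieldFullC (ResidueField A) N')
    (hred : RedV A (residue A) (modularFunctionFieldBar N')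
      (modularFunctionFieldFullC (ResidueField A) N') y yb) (hyb : yb ≠ 0)
    (D : Divisor (AlgebraicClosure ℚ) (modularFunctionFieldBar N'))
    (hD : ∀ P, D P = P.ord y)
    (Q : Place (ResidueField A) (modularFunctionFieldFullC (ResidueField A) N')) :
    Finsupp.mapDomain r D Q = Q.ord yb := by
  have hmem : y ∈ (MScal.modularDatum N' hℓ hℓN' A hA).O :=
    (MScal.mem_modularDatum_O N' hℓ hℓN' A hA).2 ⟨yb, hred⟩
  have hredu : (MScal.modularDatum N' hℓ hℓN' A hA).red ⟨y, hmem⟩ = yb :=
    (MScal.modularDatum_red_eq_iff N' hℓ hℓN' A hA ⟨_, hmem⟩ yb).2 hred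
  have hu : IsUnit (⟨y, hmem⟩ : (MScal.modularDatum N' hℓ hℓN' A hA).O) :=
    (MScal.modularDatum N' hℓ hℓN' A hA).isUnit_of_red_ne_zero _ (by rw [hredu]; exact hyb)
  have := hr ⟨y, hmem⟩ hu D hD Q
  rw [hredu] at this
  exact this

end HR

/-! ### relative Frobenius and Verschiebung on divisors -/

section FrqSec

variable (k : Type*) [Field k] (N : ℕ) (ℓ : ℕ) [hℓ : Fact ℓ.Prime] [CharP k ℓ] [PerfectRing k ℓ]

theorem charP_fullC : CharP (modularFunctionFieldFullC k N) ℓ :=
  charP_of_injective_algebraMap (algebraMap k (modularFunctionFieldFullC k N)).injective ℓ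

/-- **relative Frobenius** `Frq f = (φ⁻¹ • f) ^ ℓ` (`= f(q^ℓ)`). -/
def Frq : modularFunctionFieldFullC k N →+* modularFunctionFieldFullC k N :=
  haveI := charP_fullC k N ℓ
  (frobenius (modularFunctionFieldFullC k N) ℓ).comp
    (SemilinearAut.toRingAut (frobAutC k N ℓ)⁻¹ : _ ≃+* _).toRingHom

theorem Frq_apply (f : modularFunctionFieldFullC k N) :
    Frq k N ℓ f = ((frobAutC k N ℓ)⁻¹ • f) ^ ℓ := rfl

theorem coe_Frq (f : modularFunctionFieldFullC k N) :
    haveI : NeZero ℓ := ⟨hℓ.out.ne_zero⟩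
    ((Frq k N ℓ f : modularFunctionFieldFullC k N) : LaurentSeries k)
      = qExpand k ℓ (f : LaurentSeries k) := by
  rw [Frq_apply, qExpand_eq_pow k N ℓ f]
  rfl

/-- `Frq (φ • f) = f ^ ℓ`. -/
theorem Frq_frob_smul (f : modularFunctionFieldFullC k N) :
    Frq k N ℓ (frobAutC k N ℓ • f) = f ^ ℓ := by
  rw [Frq_apply, inv_smul_smul]

theorem ord_Frq (Q : Place k (modularFunctionFieldFullC k N))
    (f : modularFunctionFieldFullC k N) :
    Q.ord (Frq k N ℓ f) = (ℓ : ℤ) * (frobAutC k N ℓ • Q).ord f := by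
  rw [Frq_apply]
  have h1 : Q.ord ((frobAutC k N ℓ)⁻¹ • f) = (frobAutC k N ℓ • Q).ord f := by
    conv_lhs => rw [← inv_smul_smul (frobAutC k N ℓ) Q]
    exact SemilinearAut.ord_smul _ _ _
  rw [← zpow_natCast, Place.ord_zpow, h1]

/-- **Verschiebung on divisors** `V = ℓ • (φ⁻¹ • ·)`. -/
def verDiv : Divisor k (modularFunctionFieldFullC k N) →+
    Divisor k (modularFunctionFieldFullC k N) :=
  (ℓ : ℤ) • GalEquiv.smulHom (frobAutC k N ℓ)⁻¹

theorem verDiv_apply (D : Divisor k (modularFunctionFieldFullC k N)) :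
    verDiv k N ℓ D = (ℓ : ℤ) • ((frobAutC k N ℓ)⁻¹ • D) := rfl

theorem verDiv_apply_apply (D : Divisor k (modularFunctionFieldFullC k N))
    (Q : Place k (modularFunctionFieldFullC k N)) :
    verDiv k N ℓ D Q = (ℓ : ℤ) * D (frobAutC k N ℓ • Q) := by
  rw [verDiv_apply, Finsupp.smul_apply, SemilinearAut.divisor_smul_apply, inv_inv, smul_eq_mul]

/-- **frq**: `div (Frq f) = V (div f)`. -/
theorem verDiv_apply_of_ord (f : modularFunctionFieldFullC k N)
    (D : Divisor k (modularFunctionFieldFullC k N)) (hD : ∀ Q, D Q = Q.ord f)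
    (Q : Place k (modularFunctionFieldFullC k N)) :
    verDiv k N ℓ D Q = Q.ord (Frq k N ℓ f) := by
  rw [verDiv_apply_apply, hD, ord_Frq]

/-- **hVF**: `V ∘ Fm = ℓ`. -/
theorem verDiv_frob (E : Divisor k (modularFunctionFieldFullC k N)) :
    verDiv k N ℓ (GalEquiv.smulHom (frobAutC k N ℓ) E) = ℓ • E := by
  rw [verDiv_apply, GalEquiv.smulHom_apply, inv_smul_smul, natCast_zsmul]

/-- **hFV**: `Fm ∘ V = ℓ`. -/
theorem frob_verDiv (E : Divisor k (modularFunctionFieldFullC k N)) :
    GalEquiv.smulHom (frobAutC k N ℓ) (verDiv k N ℓ E) = ℓ • E := by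
  rw [verDiv_apply, GalEquiv.smulHom_apply, smul_comm, smul_inv_smul, natCast_zsmul]

/-- `V` is bounded by `ℓ` on places of degree one. -/
theorem verDiv_single (Q : Place k (modularFunctionFieldFullC k N)) :
    verDiv k N ℓ (Finsupp.single Q 1) = Finsupp.single ((frobAutC k N ℓ)⁻¹ • Q) (ℓ : ℤ) := by
  rw [verDiv_apply, SemilinearAut.smul_single, Finsupp.smul_single, smul_eq_mul, mul_one]

end FrqSec

end Fermat.Agent.S37.FunScal
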