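/-
S37 (item 88), piece (R) (lead): the **rigidity lemma**.

`F / K` a function field with Riemann's theorem (`CurveRR K F g`).  An additive map
`c : Div(F) → ℤ` which vanishes on principal divisors and is bounded on places vanishes on the
divisors of degree `0`.  Consequence: an additive map `Δ : Div(F) → Div(F')` which vanishes on
principal divisors and has bounded coefficients on places vanishes on degree `0` divisors.
(So identities between correspondences have to be checked on FUNCTIONS only.)
-/
import Mathlib
import Fermat.Agent.S18.RPrimeDefs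
import Fermat.Agent.S18.RPrimeBasic

set_option autoImplicit false

open AlgebraicCurve Fermat.Agent.S18.RPrime

noncomputable section

namespace Fermat.Agent.S37

variable {K F : Type*} [Field K] [Field F] [Algebra K F] {g : ℕ}

/-- the value of an additive functional on a divisor, as a sum over the places. -/
theorem map_eq_sum (c : Divisor K F →+ ℤ) (D : Divisor K F) :
    c D = D.sum fun P n => n * c (Finsupp.single P 1) := by
  induction D using Finsupp.induction with
  | zero => simp
  | single_add P n D hP hn ih =>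
    rw [map_add, ih, Finsupp.sum_add_index' (by simp) (by intro a b₁ b₂; ring),
      Finsupp.sum_single_index (by simp)]
    congr 1
    have : (Finsupp.single P n : Divisor K F) = n • Finsupp.single P 1 := by
      rw [Finsupp.smul_single, smul_eq_mul, mul_one]
    rw [this, map_zsmul, smul_eq_mul]

/-- an additive functional bounded by `B` on places is bounded by `B deg E` on effective `E`. -/
theorem abs_map_le (hdeg : ∀ P : Place K F, P.deg = 1) (c : Divisor K F →+ ℤ) (B : ℤ)
    (hB : ∀ P : Place K F, |c (Finsupp.single P 1)| ≤ B) {E : Divisor K F} (hE : 0 ≤ E) :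
    |c E| ≤ B * Divisor.degree E := by
  rw [map_eq_sum c E, degree_eq_sum hdeg E, Finsupp.sum, Finsupp.sum, Finset.mul_sum]
  refine (Finset.abs_sum_le_sum_abs _ _).trans (Finset.sum_le_sum fun P _ => ?_)
  have h0 : 0 ≤ E P := Finsupp.le_def.mp hE P
  rw [abs_mul, abs_of_nonneg h0, mul_comm]
  exact mul_le_mul_of_nonneg_right (hB P) h0

/-- **rigidity**, key step: the functional takes the same value on all places. -/
theorem map_single_eq (h : CurveRR K F g) (c : Divisor K F →+ ℤ)
    (hprin : ∀ (y : F), y ≠ 0 → ∀ D : Divisor K F, (∀ v, D v = v.ord y) → c D = 0)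
    (B : ℤ) (hB : ∀ P : Place K F, |c (Finsupp.single P 1)| ≤ B) (P P₀ : Place K F) :
    c (Finsupp.single P 1) = c (Finsupp.single P₀ 1) := by
  by_contra hne
  have hB0 : 0 ≤ B := (abs_nonneg _).trans (hB P)
  set d : ℤ := c (Finsupp.single P 1) - c (Finsupp.single P₀ 1) with hd
  have hd0 : d ≠ 0 := sub_ne_zero.mpr hne
  set G : ℤ := 2 * (g : ℤ) + 1 with hG
  set n : ℤ := 2 * B * G + 1 with hn
  set D : Divisor K F := n • (Finsupp.single P 1 - Finsupp.single P₀ 1) + G • Finsupp.single P₀ 1
    with hD
  have hdegD : Divisor.degree D = G := by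
    rw [hD, map_add, map_zsmul, map_zsmul, map_sub, Divisor.degree_single,
      Divisor.degree_single, h.deg_one, h.deg_one]
    simp
  obtain ⟨y, hy, hy0⟩ := exists_ne_zero_mem_L h (D := D) (by rw [hdegD, hG]; omega)
  obtain ⟨Dy, hDy, hDydeg⟩ := h.exists_div y hy0
  set E : Divisor K F := Dy + D with hE
  have hE0 : 0 ≤ E := by
    rw [Finsupp.le_def]
    intro v
    have := (mem_L_iff hy0).mp hy v
    rw [hE, Finsupp.add_apply, hDy]
    simp only [Finsupp.coe_zero, Pi.zero_apply]
    omega
  have hdegE : Divisor.degree E = G := by rw [hE, map_add, hDydeg, hdegD, zero_add]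
  have hcE : c E = n * d + G * c (Finsupp.single P₀ 1) := by
    rw [hE, map_add, hprin y hy0 Dy hDy, zero_add, hD, map_add, map_zsmul, map_zsmul, map_sub]
    simp only [smul_eq_mul]
    rw [hd]
  have h1 := abs_map_le h.deg_one c B hB hE0
  rw [hdegE, hcE] at h1
  have h2 := hB P₀
  have hG0 : 0 < G := by rw [hG]; positivity
  have h3 : |G * c (Finsupp.single P₀ 1)| ≤ G * B := by
    rw [abs_mul, abs_of_pos hG0]
    exact mul_le_mul_of_nonneg_left h2 hG0.le
  have h4 : |n * d| ≤ 2 * B * G := by
    have : n * d = (n * d + G * c (Finsupp.single P₀ 1)) - G * c (Finsupp.single P₀ 1) := by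
      ring
    rw [this]
    refine (abs_sub _ _).trans ?_
    linarith
  have hn0 : 0 < n := by rw [hn]; positivity
  have h5 : n ≤ |n * d| := by
    rw [abs_mul, abs_of_pos hn0]
    have : 1 ≤ |d| := Int.one_le_abs hd0
    nlinarith
  omega

/-- **rigidity**: an additive functional on divisors, zero on principal divisors and bounded on
places, vanishes on divisors of degree zero. -/
theorem rigidity (h : CurveRR K F g) (c : Divisor K F →+ ℤ)
    (hprin : ∀ (y : F), y ≠ 0 → ∀ D : Divisor K F, (∀ v, D v = v.ord y) → c D = 0)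
    (B : ℤ) (hB : ∀ P : Place K F, |c (Finsupp.single P 1)| ≤ B)
    (D : Divisor K F) (hD : Divisor.degree D = 0) : c D = 0 := by
  obtain ⟨P₀⟩ := h.nonempty
  rw [map_eq_sum c D]
  have h1 : (D.sum fun P n => n * c (Finsupp.single P 1)) =
      D.sum fun _ n => n * c (Finsupp.single P₀ 1) := by
    refine Finsupp.sum_congr fun P _ => ?_
    rw [map_single_eq h c hprin B hB P P₀]
  rw [h1, Finsupp.sum, ← Finset.sum_mul]
  have h2 := degree_eq_sum h.deg_one D
  rw [Finsupp.sum] at h2
  rw [← h2, hD, zero_mul]

/-- **rigidity for maps of divisors**. -/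
theorem rigidity_div {k Fb : Type*} [Field k] [Field Fb] [Algebra k Fb] (h : CurveRR K F g)
    (Δ : Divisor K F →+ Divisor k Fb)
    (hprin : ∀ (y : F), y ≠ 0 → ∀ D : Divisor K F, (∀ v, D v = v.ord y) → Δ D = 0)
    (B : ℤ) (hB : ∀ (P : Place K F) (Q : Place k Fb), |Δ (Finsupp.single P 1) Q| ≤ B)
    (D : Divisor K F) (hD : Divisor.degree D = 0) : Δ D = 0 := by
  ext Q
  have := rigidity h ((Finsupp.applyAddHom Q).comp Δ)
    (fun y hy D' hD' => by
      rw [AddMonoidHom.comp_apply, hprin y hy D' hD']
      rfl)
    B (fun P => hB P Q) D hD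
  exact this

end Fermat.Agent.S37
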